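import Mathlib

set_option autoImplicit false

open UpperHalfPlane ModularForm SlashInvariantForm Matrix.SpecialLinearGroup
open scoped ModularForm MatrixGroups Topology Manifold

noncomputable section

namespace Fermat.Agent.S23.SymmFun

section Poly

variable {σ : Type*}

/-- Evaluating a homogeneous polynomial at a rescaled point. -/
theorem eval_smul_of_isHomogeneous {φ : MvPolynomial σ ℂ} {n : ℕ} (hφ : φ.IsHomogeneous n)
    (c : ℂ) (x : σ → ℂ) :
    MvPolynomial.eval (fun i => c * x i) φ = c ^ n * MvPolynomial.eval x φ := by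
  classical
  rw [MvPolynomial.eval_eq, MvPolynomial.eval_eq, Finset.mul_sum]
  refine Finset.sum_congr rfl fun d hd => ?_
  have hdeg : n = ∑ i ∈ d.support, d i := hφ.degree_eq_sum_deg_support hd
  simp_rw [mul_pow, Finset.prod_mul_distrib, Finset.prod_pow_eq_pow_sum]
  rw [← hdeg]
  ring

theorem esymm_isHomogeneous (σ : Type*) [Fintype σ] (n : ℕ) :
    (MvPolynomial.esymm σ ℂ n).IsHomogeneous n := by
  rw [MvPolynomial.esymm]
  apply MvPolynomial.IsHomogeneous.sum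
  intro t ht
  have := MvPolynomial.IsHomogeneous.prod t (fun i => (MvPolynomial.X i : MvPolynomial σ ℂ))
    (fun _ => 1) (fun i _ => MvPolynomial.isHomogeneous_X ℂ i)
  simpa [(Finset.mem_powersetCard.mp ht).2] using this

end Poly

section PointwiseAlgebra

open Polynomial Finset

section Algebra
variable {ι : Type*} [Fintype ι] [DecidableEq ι]

theorem eval_esymm (τ : ι → ℂ) (j : ℕ) :
    MvPolynomial.eval τ (MvPolynomial.esymm ι ℂ j) = (Finset.univ.val.map τ).esymm j := by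
  rw [← MvPolynomial.aeval_esymm_eq_multiset_esymm ι ℂ j τ]
  exact (RingHom.congr_fun (MvPolynomial.coe_aeval_eq_eval τ) _).symm

/-- Vieta for `∏ (X - τ i)` in terms of evaluations of the elementary symmetric polynomials. -/
theorem prod_X_sub_C_eq_sum (τ : ι → ℂ) :
    ∏ i, (X - C (τ i)) = ∑ j ∈ range (Fintype.card ι + 1),
      (-1 : ℂ[X]) ^ j * (C (MvPolynomial.eval τ (MvPolynomial.esymm ι ℂ j)) *
        X ^ (Fintype.card ι - j)) := by
  have h := Multiset.prod_X_sub_X_eq_sum_esymm (Finset.univ.val.map τ)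
  rw [Multiset.card_map, Multiset.map_map] at h
  have hc : Multiset.card (Finset.univ : Finset ι).val = Fintype.card ι := rfl
  rw [hc] at h
  rw [Finset.prod_eq_multiset_prod]
  simp_rw [eval_esymm]
  exact h

theorem coeff_prod_X_sub_C (τ : ι → ℂ) {l : ℕ} (hl : l ≤ Fintype.card ι) :
    (∏ i, (X - C (τ i))).coeff l = (-1) ^ (Fintype.card ι - l) *
      MvPolynomial.eval τ (MvPolynomial.esymm ι ℂ (Fintype.card ι - l)) := by
  have h := Multiset.prod_X_sub_C_coeff (Finset.univ.val.map τ) (k := l)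
    (by rw [Multiset.card_map]; exact hl)
  rw [Multiset.card_map, Multiset.map_map] at h
  have hc : Multiset.card (Finset.univ : Finset ι).val = Fintype.card ι := rfl
  rw [hc] at h
  rw [Finset.prod_eq_multiset_prod, eval_esymm]
  exact h

end Algebra

section Algebra2
variable {ι : Type*} [Fintype ι] [DecidableEq ι]

theorem monic_pointwise (φ : ι → ℂ) (i₀ : ι) :
    ∑ j ∈ range (Fintype.card ι + 1), (-1 : ℂ) ^ j *
      (MvPolynomial.eval φ (MvPolynomial.esymm ι ℂ j) * φ i₀ ^ (Fintype.card ι - j)) = 0 := by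
  have h := congrArg (Polynomial.eval (φ i₀)) (prod_X_sub_C_eq_sum φ)
  rw [eval_prod, Finset.prod_eq_zero (mem_univ i₀) (by simp)] at h
  simpa [eval_finset_sum] using h.symm

/-- The polynomial `∏_{i' ≠ i} (X - τ i')`. -/
def erasePoly (τ : ι → ℂ) (i : ι) : ℂ[X] := ∏ i' ∈ univ.erase i, (X - C (τ i'))

theorem erasePoly_mul (τ : ι → ℂ) (i : ι) :
    (X - C (τ i)) * erasePoly τ i = ∏ i, (X - C (τ i)) :=
  Finset.mul_prod_erase univ (fun i => X - C (τ i)) (mem_univ i)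

theorem erasePoly_natDegree_lt (τ : ι → ℂ) (i : ι) : (erasePoly τ i).natDegree < Fintype.card ι := by
  unfold erasePoly
  rw [natDegree_finsetProd_X_sub_C_eq_card, Finset.card_erase_of_mem (mem_univ i), Finset.card_univ]
  exact Nat.sub_lt (Fintype.card_pos_iff.mpr ⟨i⟩) one_pos

theorem erasePoly_coeff (τ : ι → ℂ) (i : ι) (n : ℕ) :
    (erasePoly τ i).coeff n = ∑ l ∈ Icc (n + 1) (Fintype.card ι),
      τ i ^ (l - (n + 1)) * (∏ i, (X - C (τ i))).coeff l := by
  have h1 : (∏ i, (X - C (τ i))) /ₘ (X - C (τ i)) = erasePoly τ i := by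
    rw [← erasePoly_mul τ i]
    exact mul_divByMonic_cancel_left _ (monic_X_sub_C _)
  rw [← h1, coeff_divByMonic_X_sub_C, natDegree_finsetProd_X_sub_C_eq_card, Finset.card_univ]

theorem erasePoly_eval (τ : ι → ℂ) (i : ι) (x : ℂ) :
    (erasePoly τ i).eval x = ∏ i' ∈ univ.erase i, (x - τ i') := by
  unfold erasePoly
  rw [eval_prod]
  simp

theorem erasePoly_eval_of_ne (τ : ι → ℂ) {i i₀ : ι} (h : i ≠ i₀) :
    (erasePoly τ i).eval (τ i₀) = 0 := by
  rw [erasePoly_eval]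
  exact Finset.prod_eq_zero (Finset.mem_erase.mpr ⟨h.symm, mem_univ _⟩) (sub_self _)

theorem lagrange_pointwise (τ φ : ι → ℂ) (i₀ : ι) :
    φ i₀ * ∏ i ∈ univ.erase i₀, (τ i₀ - τ i) =
      ∑ a ∈ range (Fintype.card ι), (∑ b ∈ range (Fintype.card ι - a),
        (∏ i, (X - C (τ i))).coeff (a + b + 1) * ∑ i, φ i * τ i ^ b) * τ i₀ ^ a := by
  have h1 : φ i₀ * ∏ i ∈ univ.erase i₀, (τ i₀ - τ i) = ∑ i, φ i * (erasePoly τ i).eval (τ i₀) := by
    rw [Finset.sum_eq_single i₀]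
    · rw [erasePoly_eval]
    · intro i _ hi
      rw [erasePoly_eval_of_ne τ hi, mul_zero]
    · intro h; exact absurd (mem_univ _) h
  rw [h1]
  simp_rw [eval_eq_sum_range' (erasePoly_natDegree_lt τ _), erasePoly_coeff, Finset.mul_sum]
  rw [Finset.sum_comm]
  refine Finset.sum_congr rfl fun a ha => ?_
  have key : ∀ x, (∑ l ∈ Icc (a + 1) (Fintype.card ι),
      τ x ^ (l - (a + 1)) * (∏ i, (X - C (τ i))).coeff l) =
      ∑ b ∈ range (Fintype.card ι - a), τ x ^ b * (∏ i, (X - C (τ i))).coeff (a + b + 1) := by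
    intro x
    have hIcc : Icc (a + 1) (Fintype.card ι) = Ico (a + 1) (Fintype.card ι + 1) := by
      ext l; simp [Finset.mem_Icc, Finset.mem_Ico]
    rw [hIcc, Finset.sum_Ico_eq_sum_range]
    have hlen : Fintype.card ι + 1 - (a + 1) = Fintype.card ι - a := by omega
    rw [hlen]
    refine Finset.sum_congr rfl fun b hb => ?_
    have : a + 1 + b - (a + 1) = b := by omega
    rw [this, show a + 1 + b = a + b + 1 by ring]
  simp_rw [key, Finset.sum_mul, Finset.mul_sum]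
  rw [Finset.sum_comm]
  refine Finset.sum_congr rfl fun b hb => ?_
  refine Finset.sum_congr rfl fun i _ => ?_
  ring

theorem deriv_pointwise (τ : ι → ℂ) (i₀ : ι) :
    ∏ i ∈ univ.erase i₀, (τ i₀ - τ i) =
      ∑ a ∈ range (Fintype.card ι), (∏ i, (X - C (τ i))).coeff (a + 1) * ((a : ℂ) + 1) * τ i₀ ^ a := by
  have h1 : (derivative (∏ i, (X - C (τ i)))).eval (τ i₀) = (erasePoly τ i₀).eval (τ i₀) := by
    rw [← erasePoly_mul τ i₀, derivative_mul]
    simp
  rw [← erasePoly_eval, ← h1]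
  have hdeg : (derivative (∏ i, (X - C (τ i)))).natDegree < Fintype.card ι := by
    have hpos : 0 < Fintype.card ι := Fintype.card_pos_iff.mpr ⟨i₀⟩
    refine lt_of_le_of_lt (natDegree_derivative_le _) ?_
    rw [natDegree_finsetProd_X_sub_C_eq_card, Finset.card_univ]
    exact Nat.sub_lt hpos one_pos
  rw [eval_eq_sum_range' hdeg]
  simp_rw [coeff_derivative]

end Algebra2

end PointwiseAlgebra

section Conj

variable {𝒢 : Subgroup (GL (Fin 2) ℝ)} {F : Type*} [FunLike F ℍ ℂ] {k : ℤ}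

/-- The coset space `SL(2,ℤ) / (𝒢 ∩ SL(2,ℤ))`. -/
abbrev Cosets (𝒢 : Subgroup (GL (Fin 2) ℝ)) : Type := 𝒮ℒ ⧸ (𝒢.subgroupOf 𝒮ℒ)

/-- The value at `z` of a polynomial expression in the `SL(2,ℤ)`-conjugates of `t`. -/
def conjEval [SlashInvariantFormClass F 𝒢 k] (t : F) (φ : MvPolynomial (Cosets 𝒢) ℂ) (z : ℍ) : ℂ :=
  MvPolynomial.eval (fun q => quotientFunc t q z) φ

theorem conjEval_slash [SlashInvariantFormClass F 𝒢 k] (t : F) {φ : MvPolynomial (Cosets 𝒢) ℂ}
    {j : ℕ} (hh : φ.IsHomogeneous j) (hs : φ.IsSymmetric) (γ : SL(2, ℤ)) :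
    (conjEval t φ) ∣[k * j] γ = conjEval t φ := by
  ext z
  have hmem : (mapGL ℝ γ : GL (Fin 2) ℝ) ∈ 𝒮ℒ := ⟨γ, rfl⟩
  have hq : ∀ q : Cosets 𝒢, quotientFunc t q (γ • z) * denom γ z ^ (-k) =
      quotientFunc t ((⟨mapGL ℝ γ, hmem⟩ : 𝒮ℒ)⁻¹ • q) z := by
    intro q
    have := congrFun (quotientFunc_smul t hmem q) z
    rw [← this]
    exact (SL_slash_apply (f := quotientFunc t q) (k := k) γ z).symm
  rw [SL_slash_apply]
  unfold conjEval
  have h1 : denom γ z ^ (-(k * j)) = (denom γ z ^ (-k)) ^ j := by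
    rw [← zpow_natCast, ← zpow_mul]; congr 1; ring
  rw [h1, mul_comm, ← eval_smul_of_isHomogeneous hh]
  simp_rw [mul_comm _ (quotientFunc t _ _), hq]
  have h2 := MvPolynomial.eval_rename (fun q : Cosets 𝒢 => (⟨mapGL ℝ γ, hmem⟩ : 𝒮ℒ)⁻¹ • q)
    (fun q => quotientFunc t q z) φ
  rw [Function.comp_def] at h2
  rw [← h2]
  congr 1
  exact hs (MulAction.toPerm ((⟨mapGL ℝ γ, hmem⟩ : 𝒮ℒ)⁻¹))

section Analytic

variable [𝒢.IsArithmetic]

theorem quotientFunc_mdiff [ModularFormClass F 𝒢 k] (t : F) (q : Cosets 𝒢) :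
    MDiff (quotientFunc t q) := by
  induction q using Quotient.inductionOn with
  | h r =>
    rw [quotientFunc_mk]
    exact (ModularFormClass.holo t).slash k _

theorem isCusp_smul_infty (r : 𝒮ℒ) : IsCusp ((r : GL (Fin 2) ℝ) • (OnePoint.infty : OnePoint ℝ)) 𝒢 := by
  rw [Subgroup.IsArithmetic.isCusp_iff_isCusp_SL2Z, isCusp_SL2Z_iff']
  obtain ⟨g, hg⟩ := r.2
  exact ⟨g, by rw [hg]⟩

theorem quotientFunc_bdd [ModularFormClass F 𝒢 k] (t : F) (q : Cosets 𝒢) :
    IsBoundedAtImInfty (quotientFunc t q) := by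
  induction q using Quotient.inductionOn with
  | h r =>
    rw [quotientFunc_mk]
    exact ModularFormClass.bdd_at_cusps t (isCusp_smul_infty (𝒢 := 𝒢) r⁻¹) _ rfl

theorem quotientFunc_zero [CuspFormClass F 𝒢 k] (t : F) (q : Cosets 𝒢) :
    IsZeroAtImInfty (quotientFunc t q) := by
  induction q using Quotient.inductionOn with
  | h r =>
    rw [quotientFunc_mk]
    exact CuspFormClass.zero_at_cusps t (isCusp_smul_infty (𝒢 := 𝒢) r⁻¹) _ rfl

theorem conjEval_mdiff [ModularFormClass F 𝒢 k] (t : F) (φ : MvPolynomial (Cosets 𝒢) ℂ) :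
    MDiff (conjEval t φ) := by
  induction φ using MvPolynomial.induction_on with
  | C a =>
    have : conjEval t (MvPolynomial.C a) = fun _ => a := by
      ext z; simp [conjEval]
    rw [this]
    exact mdifferentiable_const
  | add p q hp hq =>
    have : conjEval t (p + q) = conjEval t p + conjEval t q := by
      ext z; simp [conjEval]
    rw [this]
    exact hp.add hq
  | mul_X p i hp =>
    have : conjEval t (p * MvPolynomial.X i) = conjEval t p * quotientFunc t i := by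
      ext z; simp [conjEval]
    rw [this]
    exact hp.mul (quotientFunc_mdiff t i)

theorem conjEval_bdd [ModularFormClass F 𝒢 k] (t : F) (φ : MvPolynomial (Cosets 𝒢) ℂ) :
    IsBoundedAtImInfty (conjEval t φ) := by
  induction φ using MvPolynomial.induction_on with
  | C a =>
    have : conjEval t (MvPolynomial.C a) = fun _ => a := by
      ext z; simp [conjEval]
    rw [this]
    exact Filter.const_boundedAtFilter _ _
  | add p q hp hq =>
    have : conjEval t (p + q) = conjEval t p + conjEval t q := by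
      ext z; simp [conjEval]
    rw [this]
    exact hp.add hq
  | mul_X p i hp =>
    have : conjEval t (p * MvPolynomial.X i) = conjEval t p * quotientFunc t i := by
      ext z; simp [conjEval]
    rw [this]
    exact hp.mul (quotientFunc_bdd t i)

theorem conjEval_zero [CuspFormClass F 𝒢 k] (t : F) {φ : MvPolynomial (Cosets 𝒢) ℂ} {j : ℕ}
    (hh : φ.IsHomogeneous j) (hj : 0 < j) : IsZeroAtImInfty (conjEval t φ) := by
  haveI : Finite (Cosets 𝒢) := inferInstance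
  have h1 : Filter.Tendsto (fun z : ℍ => fun q : Cosets 𝒢 => quotientFunc t q z) atImInfty
      (𝓝 (0 : Cosets 𝒢 → ℂ)) := by
    rw [tendsto_pi_nhds]
    intro q
    exact quotientFunc_zero t q
  have h2 := ((MvPolynomial.continuous_eval φ).tendsto (0 : Cosets 𝒢 → ℂ)).comp h1
  have h3 : MvPolynomial.eval (0 : Cosets 𝒢 → ℂ) φ = 0 := by
    have := eval_smul_of_isHomogeneous hh 0 (0 : Cosets 𝒢 → ℂ)
    simp only [zero_mul, Pi.zero_apply] at this
    rw [zero_pow hj.ne', zero_mul] at this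
    exact this
  rw [h3] at h2
  exact h2

/-- A symmetric homogeneous polynomial of degree `j` in the `SL(2,ℤ)`-conjugates of a modular form
of weight `k` for `𝒢` is a modular form of weight `k * j` and level one. -/
def symmForm [ModularFormClass F 𝒢 k] (t : F) (φ : MvPolynomial (Cosets 𝒢) ℂ) {j : ℕ}
    (hh : φ.IsHomogeneous j) (hs : φ.IsSymmetric) : ModularForm 𝒮ℒ (k * j) where
  toFun := conjEval t φ
  slash_action_eq' γ hγ := by
    obtain ⟨g, rfl⟩ := hγ
    exact conjEval_slash t hh hs g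
  holo' := conjEval_mdiff t φ
  bdd_at_cusps' hc := by
    rw [OnePoint.isBoundedAt_iff_forall_SL2Z hc]
    intro γ _
    change IsBoundedAtImInfty ((conjEval t φ) ∣[k * j] γ)
    rw [conjEval_slash t hh hs]
    exact conjEval_bdd t φ

@[simp] theorem symmForm_apply [ModularFormClass F 𝒢 k] (t : F) (φ : MvPolynomial (Cosets 𝒢) ℂ)
    {j : ℕ} (hh : φ.IsHomogeneous j) (hs : φ.IsSymmetric) (z : ℍ) :
    symmForm t φ hh hs z = MvPolynomial.eval (fun q => quotientFunc t q z) φ := rfl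

/-- Cuspidal version of `symmForm` (positive degree). -/
def symmCusp [CuspFormClass F 𝒢 k] (t : F) (φ : MvPolynomial (Cosets 𝒢) ℂ) {j : ℕ}
    (hh : φ.IsHomogeneous j) (hs : φ.IsSymmetric) (hj : 0 < j) : CuspForm 𝒮ℒ (k * j) where
  toFun := conjEval t φ
  slash_action_eq' γ hγ := by
    obtain ⟨g, rfl⟩ := hγ
    exact conjEval_slash t hh hs g
  holo' := conjEval_mdiff t φ
  zero_at_cusps' hc := by
    rw [OnePoint.isZeroAt_iff_forall_SL2Z hc]
    intro γ _
    change IsZeroAtImInfty ((conjEval t φ) ∣[k * j] γ)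
    rw [conjEval_slash t hh hs]
    exact conjEval_zero t hh hj

@[simp] theorem symmCusp_apply [CuspFormClass F 𝒢 k] (t : F) (φ : MvPolynomial (Cosets 𝒢) ℂ)
    {j : ℕ} (hh : φ.IsHomogeneous j) (hs : φ.IsSymmetric) (hj : 0 < j) (z : ℍ) :
    symmCusp t φ hh hs hj z = MvPolynomial.eval (fun q => quotientFunc t q z) φ := rfl

end Analytic

section Trace

variable [𝒢.IsArithmetic] {k₁ k₂ : ℤ}

theorem pow_slash_SL2 (k : ℤ) (n : ℕ) (A : SL(2, ℤ)) (g : ℍ → ℂ) :
    (g ^ n) ∣[(n : ℤ) * k] A = (g ∣[k] A) ^ n := by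
  induction n with
  | zero =>
    simp only [pow_zero, Nat.cast_zero, zero_mul]
    exact is_invariant_one A
  | succ n ih =>
    have : ((n + 1 : ℕ) : ℤ) * k = (n : ℤ) * k + k := by push_cast; ring
    rw [this, pow_succ, mul_slash_SL2, ih, pow_succ]

theorem quotientFunc_mul_pow (f : CuspForm 𝒢 k₂) (t : ModularForm 𝒢 k₁) (b : ℕ)
    (q : Cosets 𝒢) :
    quotientFunc (f.mulModularForm (t.pow b)) q = quotientFunc f q * quotientFunc t q ^ b := by
  induction q using Quotient.inductionOn with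
  | h r =>
    simp only [quotientFunc_mk]
    obtain ⟨γ, hγ⟩ := (r⁻¹).2
    have hγ' : (mapGL ℝ γ : GL (Fin 2) ℝ) = (r : GL (Fin 2) ℝ)⁻¹ := by
      rw [hγ]; rfl
    rw [← hγ']
    change (⇑(f.mulModularForm (t.pow b))) ∣[k₂ + (b : ℤ) * k₁] γ = (⇑f ∣[k₂] γ) * (⇑t ∣[k₁] γ) ^ b
    rw [CuspForm.coe_mulModularForm, ModularForm.coe_pow, mul_slash_SL2, pow_slash_SL2]

/-- `∑_q f_q t_q^b` as a level-one cusp form. -/
def trMulPow (f : CuspForm 𝒢 k₂) (t : ModularForm 𝒢 k₁) (b : ℕ) :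
    CuspForm 𝒮ℒ (k₂ + (b : ℤ) * k₁) :=
  CuspForm.trace 𝒮ℒ (f.mulModularForm (t.pow b))

theorem trMulPow_apply (f : CuspForm 𝒢 k₂) (t : ModularForm 𝒢 k₁) (b : ℕ) (z : ℍ) :
    letI := Fintype.ofFinite (Cosets 𝒢)
    trMulPow f t b z = ∑ q : Cosets 𝒢, quotientFunc f q z * quotientFunc t q z ^ b := by
  letI := Fintype.ofFinite (Cosets 𝒢)
  unfold trMulPow
  rw [CuspForm.coe_trace]
  simp only [Finset.sum_apply, quotientFunc_mul_pow, Pi.mul_apply, Pi.pow_apply]

end Trace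

section Final

open Finset

variable [𝒢.IsArithmetic] {k₁ k₂ : ℤ}

/-- `g` is (the underlying function of) a level-one cusp form of weight `w`. -/
def IsCuspLvlOne (w : ℤ) (g : ℍ → ℂ) : Prop := ∃ G : CuspForm 𝒮ℒ w, ⇑G = g

theorem IsCuspLvlOne.zero (w : ℤ) : IsCuspLvlOne w 0 := ⟨0, rfl⟩

theorem IsCuspLvlOne.add {w : ℤ} {g h : ℍ → ℂ} (hg : IsCuspLvlOne w g) (hh : IsCuspLvlOne w h) :
    IsCuspLvlOne w (g + h) := by
  obtain ⟨G, rfl⟩ := hg
  obtain ⟨H, rfl⟩ := hh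
  exact ⟨G + H, rfl⟩

theorem IsCuspLvlOne.smul {w : ℤ} {g : ℍ → ℂ} (c : ℂ) (hg : IsCuspLvlOne w g) :
    IsCuspLvlOne w (c • g) := by
  obtain ⟨G, rfl⟩ := hg
  exact ⟨c • G, rfl⟩

theorem IsCuspLvlOne.sum {w : ℤ} {α : Type*} (s : Finset α) (g : α → ℍ → ℂ)
    (h : ∀ b ∈ s, IsCuspLvlOne w (g b)) : IsCuspLvlOne w (∑ b ∈ s, g b) := by
  classical
  induction s using Finset.induction_on with
  | empty => simpa using IsCuspLvlOne.zero w
  | insert b s hb ih =>
    rw [Finset.sum_insert hb]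
    exact (h b (Finset.mem_insert_self b s)).add
      (ih fun c hc => h c (Finset.mem_insert_of_mem hc))

theorem IsCuspLvlOne.mul {w w₁ w₂ : ℤ} (hw : w₁ + w₂ = w) (G₁ : CuspForm 𝒮ℒ w₁)
    (G₂ : ModularForm 𝒮ℒ w₂) : IsCuspLvlOne w (⇑G₁ * ⇑G₂) :=
  ⟨CuspForm.mcast hw (G₁.mulModularForm G₂), rfl⟩

/-- The identity coset. -/
def q₀ (𝒢 : Subgroup (GL (Fin 2) ℝ)) : Cosets 𝒢 := ⟦1⟧

theorem quotientFunc_q₀ [SlashInvariantFormClass F 𝒢 k] (t : F) : quotientFunc t (q₀ 𝒢) = ⇑t := by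
  unfold q₀
  rw [quotientFunc_mk]
  simp

/-- **Monic equation**: a cusp form `f` of weight `k₂` for `𝒢` is a root of a monic polynomial of
degree `m = [SL(2,ℤ) : 𝒢 ∩ SL(2,ℤ)]` whose lower coefficients are level-one cusp forms. -/
theorem exists_monic_equation (f : CuspForm 𝒢 k₂) :
    ∃ a : (j : ℕ) → CuspForm 𝒮ℒ (k₂ * ((j + 1 : ℕ) : ℤ)),
      ∀ z : ℍ, f z ^ Nat.card (Cosets 𝒢) +
        ∑ j ∈ range (Nat.card (Cosets 𝒢)), a j z * f z ^ (Nat.card (Cosets 𝒢) - 1 - j) = 0 := by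
  classical
  letI := Fintype.ofFinite (Cosets 𝒢)
  refine ⟨fun j => ((-1 : ℂ) ^ (j + 1)) • symmCusp f (MvPolynomial.esymm (Cosets 𝒢) ℂ (j + 1))
    (esymm_isHomogeneous _ _) (MvPolynomial.esymm_isSymmetric _ _ _)
    (Nat.succ_pos j), fun z => ?_⟩
  have h := monic_pointwise (fun q => quotientFunc f q z) (q₀ 𝒢)
  rw [Finset.sum_range_succ', quotientFunc_q₀] at h
  simp only [pow_zero, MvPolynomial.esymm_zero, map_one, one_mul, Nat.sub_zero] at h
  rw [Nat.card_eq_fintype_card, add_comm]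
  rw [← h]
  congr 1
  refine Finset.sum_congr rfl fun j _ => ?_
  have : Fintype.card (Cosets 𝒢) - (j + 1) = Fintype.card (Cosets 𝒢) - 1 - j := by omega
  rw [this]
  simp only [CuspForm.smul_apply, smul_eq_mul, symmCusp_apply, mul_assoc]

/-- **Lagrange interpolation identity**: `f * D = G` where `D = ∑ d_a t^a`, `G = ∑ r_a t^a` with
`d_a` level-one modular forms and `r_a` level-one cusp forms, and `D = ∏_{q ≠ q₀} (t - t_q)`. -/
theorem exists_lagrange (f : CuspForm 𝒢 k₂) (t : ModularForm 𝒢 k₁) :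
    ∃ (d : (a : ℕ) → ModularForm 𝒮ℒ (k₁ * ((Nat.card (Cosets 𝒢) - 1 - a : ℕ) : ℤ)))
      (r : (a : ℕ) → CuspForm 𝒮ℒ (k₂ + k₁ * ((Nat.card (Cosets 𝒢) - 1 - a : ℕ) : ℤ))),
      (∀ z : ℍ, f z * ∑ a ∈ range (Nat.card (Cosets 𝒢)), d a z * t z ^ a =
        ∑ a ∈ range (Nat.card (Cosets 𝒢)), r a z * t z ^ a) ∧
      (∀ z : ℍ, ∑ a ∈ range (Nat.card (Cosets 𝒢)), d a z * t z ^ a =
        letI := Fintype.ofFinite (Cosets 𝒢)
        letI : DecidableEq (Cosets 𝒢) := Classical.decEq _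
        ∏ q ∈ (univ : Finset (Cosets 𝒢)).erase (q₀ 𝒢), (t z - quotientFunc t q z)) := by
  classical
  letI := Fintype.ofFinite (Cosets 𝒢)
  set m := Nat.card (Cosets 𝒢) with hm
  have hmc : Fintype.card (Cosets 𝒢) = m := by rw [hm, Nat.card_eq_fintype_card]
  -- the level-one forms `E j = e_j(t_q)`
  let E : (j : ℕ) → ModularForm 𝒮ℒ (k₁ * (j : ℤ)) := fun j =>
    symmForm t (MvPolynomial.esymm (Cosets 𝒢) ℂ j) (esymm_isHomogeneous _ _)
      (MvPolynomial.esymm_isSymmetric _ _ _)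
  -- coefficient `c l` of `∏ (X - t_q z)` for `l ≤ m`
  have hc : ∀ (z : ℍ) (l : ℕ), l ≤ m →
      (∏ q : Cosets 𝒢, (Polynomial.X - Polynomial.C (quotientFunc t q z))).coeff l =
        (-1) ^ (m - l) * E (m - l) z := by
    intro z l hl
    rw [coeff_prod_X_sub_C _ (by rw [hmc]; exact hl), hmc]
    rfl
  -- the cusp forms r_a
  have hr : ∀ a : ℕ, IsCuspLvlOne (k₂ + k₁ * ((m - 1 - a : ℕ) : ℤ))
      (∑ b ∈ range (m - a), (fun z : ℍ => (-1 : ℂ) ^ (m - (a + b + 1)) * E (m - (a + b + 1)) z *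
        trMulPow f t b z)) := by
    intro a
    refine IsCuspLvlOne.sum _ _ fun b hb => ?_
    have hb' : a + b + 1 ≤ m := by have := Finset.mem_range.mp hb; omega
    have hw : (k₂ + (b : ℤ) * k₁) + k₁ * ((m - (a + b + 1) : ℕ) : ℤ) =
        k₂ + k₁ * ((m - 1 - a : ℕ) : ℤ) := by
      have h1 : ((m - (a + b + 1) : ℕ) : ℤ) = (m : ℤ) - (a + b + 1) := by
        rw [Nat.cast_sub hb']; push_cast; ring
      have h2 : ((m - 1 - a : ℕ) : ℤ) = (m : ℤ) - 1 - a := by
        rw [Nat.cast_sub (by omega), Nat.cast_sub (by omega)]; push_cast; ring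
      rw [h1, h2]; ring
    have := (IsCuspLvlOne.mul hw (trMulPow f t b) (E (m - (a + b + 1)))).smul
      ((-1 : ℂ) ^ (m - (a + b + 1)))
    convert this using 1
    ext z
    simp only [Pi.smul_apply, Pi.mul_apply, smul_eq_mul]
    ring
  choose r hr' using hr
  have hD : ∀ z : ℍ,
      ∑ a ∈ range m, ((((a : ℂ) + 1) * (-1) ^ (m - 1 - a)) • E (m - 1 - a)) z * t z ^ a =
        ∏ q ∈ (univ : Finset (Cosets 𝒢)).erase (q₀ 𝒢), (t z - quotientFunc t q z) := by
    intro z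
    have h2 := deriv_pointwise (fun q => quotientFunc t q z) (q₀ 𝒢)
    simp only [quotientFunc_q₀] at h2
    rw [hmc] at h2
    rw [h2]
    refine Finset.sum_congr rfl fun a ha => ?_
    have ha' : a + 1 ≤ m := by have := Finset.mem_range.mp ha; omega
    rw [hc z (a + 1) ha', show m - (a + 1) = m - 1 - a by omega]
    simp only [ModularForm.smul_apply, smul_eq_mul]
    ring
  refine ⟨fun a => (((a : ℂ) + 1) * (-1) ^ (m - 1 - a)) • E (m - 1 - a), r, ?_, ?_⟩
  · intro z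
    have h1 := lagrange_pointwise (fun q => quotientFunc t q z) (fun q => quotientFunc f q z) (q₀ 𝒢)
    simp only [quotientFunc_q₀] at h1
    rw [hmc] at h1
    rw [hD, h1]
    refine Finset.sum_congr rfl fun a ha => ?_
    congr 1
    rw [hr' a]
    simp only [Finset.sum_apply]
    refine Finset.sum_congr rfl fun b hb => ?_
    have hb' : a + b + 1 ≤ m := by have := Finset.mem_range.mp hb; omega
    rw [hc z (a + b + 1) hb', trMulPow_apply]
  · intro z
    convert hD z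

theorem quotientFunc_ne_of_stabilizer (t : ModularForm 𝒢 k₁)
    (ht : ∀ γ : GL (Fin 2) ℝ, γ ∈ 𝒮ℒ → (⇑t) ∣[k₁] γ = ⇑t → γ ∈ 𝒢) :
    ∀ q : Cosets 𝒢, q ≠ q₀ 𝒢 → quotientFunc t q ≠ ⇑t := by
  intro q
  induction q using Quotient.inductionOn with
  | h r =>
    intro hq heq
    apply hq
    rw [quotientFunc_mk] at heq
    have hmem : ((r : GL (Fin 2) ℝ))⁻¹ ∈ 𝒢 := ht _ (inv_mem r.2) heq
    unfold q₀
    refine (QuotientGroup.eq (s := 𝒢.subgroupOf 𝒮ℒ)).mpr ?_
    rw [Subgroup.mem_subgroupOf]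
    simpa using hmem

theorem prod_sub_ne_zero (t : ModularForm 𝒢 k₁)
    (ht : ∀ q : Cosets 𝒢, q ≠ q₀ 𝒢 → quotientFunc t q ≠ ⇑t) :
    letI := Fintype.ofFinite (Cosets 𝒢)
    letI : DecidableEq (Cosets 𝒢) := Classical.decEq _
    ∃ z : ℍ, ∏ q ∈ (univ : Finset (Cosets 𝒢)).erase (q₀ 𝒢), (t z - quotientFunc t q z) ≠ 0 := by
  letI := Fintype.ofFinite (Cosets 𝒢)
  letI : DecidableEq (Cosets 𝒢) := Classical.decEq _
  by_contra hcon
  push Not at hcon
  have h0 : ∏ q ∈ (univ : Finset (Cosets 𝒢)).erase (q₀ 𝒢), (⇑t - quotientFunc t q) = 0 := by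
    ext z
    rw [Finset.prod_apply]
    simpa using hcon z
  rw [UpperHalfPlane.prod_eq_zero_iff] at h0
  · obtain ⟨q, hq, hq0⟩ := h0
    exact ht q (Finset.mem_erase.mp hq).1 (sub_eq_zero.mp hq0).symm
  · intro q _
    exact (ModularFormClass.holo t).sub (quotientFunc_mdiff t q)

/-- Final form of the Lagrange identity: if the stabiliser of `t` in `SL(2,ℤ)` is contained in `𝒢`,
then `f * D = G` with `D = ∑ d_a t^a` not identically zero. -/
theorem exists_lagrange_ne_zero (f : CuspForm 𝒢 k₂) (t : ModularForm 𝒢 k₁)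
    (ht : ∀ γ : GL (Fin 2) ℝ, γ ∈ 𝒮ℒ → (⇑t) ∣[k₁] γ = ⇑t → γ ∈ 𝒢) :
    ∃ (d : (a : ℕ) → ModularForm 𝒮ℒ (k₁ * ((Nat.card (Cosets 𝒢) - 1 - a : ℕ) : ℤ)))
      (r : (a : ℕ) → CuspForm 𝒮ℒ (k₂ + k₁ * ((Nat.card (Cosets 𝒢) - 1 - a : ℕ) : ℤ))),
      (∀ z : ℍ, f z * ∑ a ∈ range (Nat.card (Cosets 𝒢)), d a z * t z ^ a =
        ∑ a ∈ range (Nat.card (Cosets 𝒢)), r a z * t z ^ a) ∧
      (∃ z : ℍ, ∑ a ∈ range (Nat.card (Cosets 𝒢)), d a z * t z ^ a ≠ 0) := by
  obtain ⟨d, r, h1, h2⟩ := exists_lagrange f t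
  refine ⟨d, r, h1, ?_⟩
  obtain ⟨z, hz⟩ := prod_sub_ne_zero t (quotientFunc_ne_of_stabilizer t ht)
  exact ⟨z, by rw [h2 z]; exact hz⟩

end Final

end Conj

end Fermat.Agent.S23.SymmFun
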