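import Fermat.Agent.S23.Defs
import Fermat.Agent.S23.SymmFun

set_option autoImplicit false

/-!
# S23, chunks (3)+(4), final product: the algebraic data attached to a cusp form
`f ∈ S₂(Γ₀(N))` and a modular form `t ∈ M_{kt}(Γ₀(N))` whose stabiliser in `SL₂(ℤ)` is `Γ₀(N)`.
-/

namespace Fermat.Agent.S23

open UpperHalfPlane CongruenceSubgroup ModularForm Finset
open scoped MatrixGroups ModularForm Manifold

noncomputable section

theorem exists_algebraic_data (N : ℕ) [NeZero N] {kt : ℤ} (t : ModularForm (Gamma0 N) kt)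
    (ht : ∀ γ : SL(2,ℤ), (⇑t : ℍ → ℂ) ∣[kt] γ = ⇑t → γ ∈ Gamma0 N)
    (f : CuspForm (Gamma0 N) 2) :
    ∃ (m : ℕ) (d r a : ℕ → ℍ → ℂ), 0 < m ∧
      (∀ j < m, IsMF 𝒮ℒ (kt * ((m:ℤ) - 1 - j)) (d j)) ∧
      (∀ j < m, IsCF 𝒮ℒ (2 + kt * ((m:ℤ) - 1 - j)) (r j)) ∧
      (∀ j < m, IsCF 𝒮ℒ (2 * ((m:ℤ) - j)) (a j)) ∧
      (∑ j ∈ range m, d j * ⇑t ^ j ≠ 0) ∧
      (⇑f * ∑ j ∈ range m, d j * ⇑t ^ j = ∑ j ∈ range m, r j * ⇑t ^ j) ∧
      (⇑f ^ m + ∑ j ∈ range m, a j * ⇑f ^ j = 0) := by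
  classical
  have ht' : ∀ γ : GL (Fin 2) ℝ, γ ∈ 𝒮ℒ → (⇑t : ℍ → ℂ) ∣[kt] γ = ⇑t →
      γ ∈ (Gamma0 N : Subgroup (GL (Fin 2) ℝ)) := by
    intro γ hγ h
    obtain ⟨g, rfl⟩ := hγ
    exact Subgroup.mem_map_of_mem _ (ht g h)
  obtain ⟨a, ha⟩ := SymmFun.exists_monic_equation f
  obtain ⟨d, r, hdr, z0, hz0⟩ := SymmFun.exists_lagrange_ne_zero f t ht'
  have hm : 0 < Nat.card (SymmFun.Cosets (Gamma0 N : Subgroup (GL (Fin 2) ℝ))) := Nat.card_pos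
  generalize Nat.card (SymmFun.Cosets (Gamma0 N : Subgroup (GL (Fin 2) ℝ))) = m at *
  refine ⟨m, fun j => ⇑(d j), fun j => ⇑(r j), fun j => ⇑(a (m - 1 - j)), hm, ?_, ?_, ?_, ?_, ?_, ?_⟩
  · intro j hj
    have h : (((m - 1 - j : ℕ) : ℤ)) = (m:ℤ) - 1 - j := by omega
    exact ⟨ModularForm.mcast (by rw [h]) (d j), rfl⟩
  · intro j hj
    have h : (((m - 1 - j : ℕ) : ℤ)) = (m:ℤ) - 1 - j := by omega
    exact ⟨CuspForm.mcast (by rw [h]) (r j), rfl⟩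
  · intro j hj
    have h : (((m - 1 - j + 1 : ℕ) : ℤ)) = (m:ℤ) - j := by omega
    exact ⟨CuspForm.mcast (by rw [h]) (a (m - 1 - j)), rfl⟩
  · intro h0
    apply hz0
    have := congrFun h0 z0
    simpa [Finset.sum_apply] using this
  · ext z
    simpa [Finset.sum_apply] using hdr z
  · ext z
    have := ha z
    rw [← Finset.sum_range_reflect] at this
    simp only [Pi.add_apply, Pi.pow_apply, Finset.sum_apply, Pi.mul_apply, Pi.zero_apply]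
    rw [← this]
    congr 1
    refine Finset.sum_congr rfl fun j hj => ?_
    have hj' := Finset.mem_range.mp hj
    have : m - 1 - (m - 1 - j) = j := by omega
    rw [this]

end

end Fermat.Agent.S23
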