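import Fermat.Agent.S23.Defs

set_option autoImplicit false

/-!
# S23, chunk 0: closure properties of `IsMF` / `IsCF`, and `qx` as a "ring hom".
-/

namespace Fermat.Agent.S23

open UpperHalfPlane CongruenceSubgroup ModularForm
open scoped MatrixGroups ModularForm Manifold

noncomputable section

variable {Γ : Subgroup (GL (Fin 2) ℝ)} {k k₁ k₂ : ℤ} {g g₁ g₂ : ℍ → ℂ}

theorem IsCF.isMF (h : IsCF Γ k g) : IsMF Γ k g := by
  obtain ⟨G, rfl⟩ := h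
  exact ⟨⟨G.toSlashInvariantForm, G.holo', fun hc γ hγ => (G.zero_at_cusps' hc γ hγ).isBoundedAtImInfty⟩, rfl⟩

theorem IsMF.zero : IsMF Γ k 0 := ⟨0, rfl⟩
theorem IsCF.zero : IsCF Γ k 0 := ⟨0, rfl⟩

theorem IsMF.add (h₁ : IsMF Γ k g₁) (h₂ : IsMF Γ k g₂) : IsMF Γ k (g₁ + g₂) := by
  obtain ⟨G₁, rfl⟩ := h₁; obtain ⟨G₂, rfl⟩ := h₂; exact ⟨G₁ + G₂, rfl⟩

theorem IsCF.add (h₁ : IsCF Γ k g₁) (h₂ : IsCF Γ k g₂) : IsCF Γ k (g₁ + g₂) := by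
  obtain ⟨G₁, rfl⟩ := h₁; obtain ⟨G₂, rfl⟩ := h₂; exact ⟨G₁ + G₂, rfl⟩

theorem IsMF.neg (h : IsMF Γ k g) : IsMF Γ k (-g) := by
  obtain ⟨G, rfl⟩ := h; exact ⟨-G, rfl⟩

theorem IsCF.neg (h : IsCF Γ k g) : IsCF Γ k (-g) := by
  obtain ⟨G, rfl⟩ := h; exact ⟨-G, rfl⟩

theorem IsMF.sub (h₁ : IsMF Γ k g₁) (h₂ : IsMF Γ k g₂) : IsMF Γ k (g₁ - g₂) := by
  obtain ⟨G₁, rfl⟩ := h₁; obtain ⟨G₂, rfl⟩ := h₂; exact ⟨G₁ - G₂, rfl⟩

theorem IsMF.weight_cast (hk : k₁ = k₂) (h : IsMF Γ k₁ g) : IsMF Γ k₂ g := hk ▸ h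
theorem IsCF.weight_cast (hk : k₁ = k₂) (h : IsCF Γ k₁ g) : IsCF Γ k₂ g := hk ▸ h

theorem IsMF.smul [Γ.HasDetOne] (c : ℂ) (h : IsMF Γ k g) : IsMF Γ k (c • g) := by
  obtain ⟨G, rfl⟩ := h; exact ⟨c • G, rfl⟩

theorem IsCF.smul [Γ.HasDetOne] (c : ℂ) (h : IsCF Γ k g) : IsCF Γ k (c • g) := by
  obtain ⟨G, rfl⟩ := h; exact ⟨c • G, rfl⟩

theorem IsMF.const [Γ.HasDetOne] (c : ℂ) : IsMF Γ 0 (fun _ => c) :=
  ⟨ModularForm.const c, rfl⟩

theorem IsMF.one [Γ.HasDetOne] : IsMF Γ 0 (1 : ℍ → ℂ) := IsMF.const 1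

theorem IsMF.mul [Γ.HasDetPlusMinusOne] (h₁ : IsMF Γ k₁ g₁) (h₂ : IsMF Γ k₂ g₂) :
    IsMF Γ (k₁ + k₂) (g₁ * g₂) := by
  obtain ⟨G₁, rfl⟩ := h₁; obtain ⟨G₂, rfl⟩ := h₂; exact ⟨G₁.mul G₂, rfl⟩

theorem IsMF.pow [Γ.HasDetPlusMinusOne] (h : IsMF Γ k g) (n : ℕ) : IsMF Γ (k * n) (g ^ n) := by
  obtain ⟨G, rfl⟩ := h
  exact IsMF.weight_cast (mul_comm _ _) ⟨G.pow n, ModularForm.coe_pow G n⟩

/-- cusp form times modular form is a cusp form. -/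
theorem IsCF.mul_isMF [Γ.HasDetPlusMinusOne] (h₁ : IsCF Γ k₁ g₁) (h₂ : IsMF Γ k₂ g₂) :
    IsCF Γ (k₁ + k₂) (g₁ * g₂) := by
  obtain ⟨G₁, rfl⟩ := h₁; obtain ⟨G₂, rfl⟩ := h₂
  exact ⟨G₁.mulModularForm G₂, rfl⟩

theorem IsMF.mul_isCF [Γ.HasDetPlusMinusOne] (h₁ : IsMF Γ k₁ g₁) (h₂ : IsCF Γ k₂ g₂) :
    IsCF Γ (k₁ + k₂) (g₁ * g₂) := by
  rw [mul_comm, add_comm]; exact h₂.mul_isMF h₁

theorem IsMF.sum {ι : Type*} (s : Finset ι) {G : ι → ℍ → ℂ} (h : ∀ i ∈ s, IsMF Γ k (G i)) :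
    IsMF Γ k (∑ i ∈ s, G i) := by
  classical
  induction s using Finset.induction_on with
  | empty => simpa using IsMF.zero
  | insert a s ha ih =>
    rw [Finset.sum_insert ha]
    exact (h a (Finset.mem_insert_self a s)).add (ih fun i hi => h i (Finset.mem_insert_of_mem hi))

theorem IsCF.sum {ι : Type*} (s : Finset ι) {G : ι → ℍ → ℂ} (h : ∀ i ∈ s, IsCF Γ k (G i)) :
    IsCF Γ k (∑ i ∈ s, G i) := by
  classical
  induction s using Finset.induction_on with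
  | empty => simpa using IsCF.zero
  | insert a s ha ih =>
    rw [Finset.sum_insert ha]
    exact (h a (Finset.mem_insert_self a s)).add (ih fun i hi => h i (Finset.mem_insert_of_mem hi))

/-- Restriction of the level. -/
theorem IsMF.mono {Γ' : Subgroup (GL (Fin 2) ℝ)} (hΓ : Γ' ≤ Γ) (h : IsMF Γ k g) : IsMF Γ' k g := by
  obtain ⟨G, rfl⟩ := h
  exact ⟨{ toFun := G
           slash_action_eq' := fun γ hγ => G.slash_action_eq' γ (hΓ hγ)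
           holo' := G.holo'
           bdd_at_cusps' := fun hc => G.bdd_at_cusps' (hc.mono hΓ) }, rfl⟩

theorem IsCF.mono {Γ' : Subgroup (GL (Fin 2) ℝ)} (hΓ : Γ' ≤ Γ) (h : IsCF Γ k g) : IsCF Γ' k g := by
  obtain ⟨G, rfl⟩ := h
  exact ⟨{ toFun := G
           slash_action_eq' := fun γ hγ => G.slash_action_eq' γ (hΓ hγ)
           holo' := G.holo'
           zero_at_cusps' := fun hc => G.zero_at_cusps' (hc.mono hΓ) }, rfl⟩

theorem Γ0_le_SL (N : ℕ) : Γ0 N ≤ 𝒮ℒ := Subgroup.map_le_range _ _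

/-! ### `qx` on modular forms with strict period `1` -/

section qx

variable (hΓ : (1 : ℝ) ∈ Γ.strictPeriods)
include hΓ

theorem IsMF.analyticAt_cuspFunction (h : IsMF Γ k g) : AnalyticAt ℂ (cuspFunction 1 g) 0 := by
  obtain ⟨G, rfl⟩ := h
  exact ModularFormClass.analyticAt_cuspFunction_zero G one_pos hΓ

theorem qx_add (h₁ : IsMF Γ k₁ g₁) (h₂ : IsMF Γ k₂ g₂) : qx (g₁ + g₂) = qx g₁ + qx g₂ :=
  qExpansion_add (h₁.analyticAt_cuspFunction hΓ) (h₂.analyticAt_cuspFunction hΓ)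

theorem qx_mul (h₁ : IsMF Γ k₁ g₁) (h₂ : IsMF Γ k₂ g₂) : qx (g₁ * g₂) = qx g₁ * qx g₂ :=
  qExpansion_mul (h₁.analyticAt_cuspFunction hΓ) (h₂.analyticAt_cuspFunction hΓ)

theorem qx_smul (c : ℂ) (h : IsMF Γ k g) : qx (c • g) = c • qx g :=
  qExpansion_smul (h.analyticAt_cuspFunction hΓ) c

theorem qx_neg (h : IsMF Γ k g) : qx (-g) = -qx g :=
  qExpansion_neg (h.analyticAt_cuspFunction hΓ)

theorem qx_sub (h₁ : IsMF Γ k₁ g₁) (h₂ : IsMF Γ k₂ g₂) : qx (g₁ - g₂) = qx g₁ - qx g₂ :=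
  qExpansion_sub (h₁.analyticAt_cuspFunction hΓ) (h₂.analyticAt_cuspFunction hΓ)

theorem qx_pow [Γ.HasDetPlusMinusOne] (h : IsMF Γ k g) (n : ℕ) : qx (g ^ n) = qx g ^ n := by
  induction n with
  | zero => simp only [pow_zero]; exact qExpansion_one 1
  | succ n ih =>
    rw [pow_succ, pow_succ, qx_mul hΓ (h.pow n) h, ih]

theorem qx_sum {ι : Type*} (s : Finset ι) {G : ι → ℍ → ℂ} {κ : ι → ℤ}
    (h : ∀ i ∈ s, IsMF Γ (κ i) (G i)) : qx (∑ i ∈ s, G i) = ∑ i ∈ s, qx (G i) := by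
  classical
  have key : ∀ t : Finset ι, t ⊆ s →
      AnalyticAt ℂ (cuspFunction 1 (∑ i ∈ t, G i)) 0 ∧ qx (∑ i ∈ t, G i) = ∑ i ∈ t, qx (G i) := by
    intro t
    induction t using Finset.induction_on with
    | empty =>
      intro _
      refine ⟨?_, by simpa using qExpansion_zero 1⟩
      simpa using (IsMF.zero (Γ := Γ) (k := 0)).analyticAt_cuspFunction hΓ
    | insert a t ha ih =>
      intro hts
      obtain ⟨h1, h2⟩ := ih fun i hi => hts (Finset.mem_insert_of_mem hi)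
      have ha' := (h a (hts (Finset.mem_insert_self a t))).analyticAt_cuspFunction hΓ
      rw [Finset.sum_insert ha, Finset.sum_insert ha]
      refine ⟨?_, ?_⟩
      · rw [cuspFunction_add ha'.continuousAt h1.continuousAt]
        exact ha'.add h1
      · rw [show qx (G a + ∑ i ∈ t, G i) = qx (G a) + qx (∑ i ∈ t, G i) from
          qExpansion_add ha' h1, h2]
  exact (key s subset_rfl).2

theorem qx_eq_zero_iff (h : IsMF Γ k g) : qx g = 0 ↔ g = 0 := by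
  obtain ⟨G, rfl⟩ := h
  rw [ModularForm.qExpansion_eq_zero_iff one_pos hΓ G]
  exact ⟨fun h => by rw [h]; rfl, fun h => DFunLike.coe_injective h⟩

/-- `q`-expansion principle. -/
theorem eq_of_qx_eq (h₁ : IsMF Γ k g₁) (h₂ : IsMF Γ k g₂) (h : qx g₁ = qx g₂) : g₁ = g₂ := by
  have h3 : qx (g₁ - g₂) = 0 := by rw [qx_sub hΓ h₁ h₂, h, sub_self]
  exact sub_eq_zero.mp ((qx_eq_zero_iff hΓ (h₁.sub h₂)).mp h3)

end qx

theorem qx_one : qx (1 : ℍ → ℂ) = 1 := qExpansion_one 1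

theorem qx_const (c : ℂ) : qx (fun _ : ℍ => c) = PowerSeries.C c := by
  have h1 : (fun _ : ℍ => c) = c • (1 : ℍ → ℂ) := by
    funext z; simp
  have h2 : AnalyticAt ℂ (cuspFunction 1 (1 : ℍ → ℂ)) 0 :=
    (IsMF.one (Γ := 𝒮ℒ)).analyticAt_cuspFunction one_mem_strictPeriods_SL
  rw [h1, show qx (c • (1 : ℍ → ℂ)) = c • qx (1 : ℍ → ℂ) from qExpansion_smul h2 c, qx_one]
  ext n
  simp [PowerSeries.coeff_C, PowerSeries.coeff_one]

theorem one_mem_strictPeriods_Γ0 (N : ℕ) : (1 : ℝ) ∈ (Γ0 N).strictPeriods :=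
  CongruenceSubgroup.one_mem_strictPeriods_Gamma0 N

theorem one_mem_strictPeriods_SL' : (1 : ℝ) ∈ (𝒮ℒ).strictPeriods :=
  one_mem_strictPeriods_SL

/-- cusp forms have vanishing constant term -/
theorem IsCF.qx_coeff_zero (hΓ : (1 : ℝ) ∈ Γ.strictPeriods) (h : IsCF Γ k g) :
    (qx g).coeff 0 = 0 := by
  obtain ⟨G, rfl⟩ := h
  exact CuspFormClass.qExpansion_coeff_zero G one_pos hΓ

/-- level one: a modular form with vanishing constant term is a cusp form. -/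
theorem IsMF.isCF_of_coeff_zero (h : IsMF 𝒮ℒ k g) (h0 : (qx g).coeff 0 = 0) : IsCF 𝒮ℒ k g := by
  obtain ⟨G, rfl⟩ := h
  exact ⟨ModularForm.toCuspForm G h0, by funext z; rfl⟩

end

end Fermat.Agent.S23
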