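import Mathlib

set_option autoImplicit false

/-!
Chunk (5) of the `S23` plan, abstract form: pure ring-homomorphism algebra.
-/

namespace Fermat.Agent.S23

open Finset

section Abstract

variable {R : Type*} [CommRing R] {P : Type*} [CommRing P] [IsDomain P]

/-- **Formal twist.**  `Φ : R → P` is an injective ring hom (the `q`-expansion on nice functions),
`τ : P → P` an injective ring hom (an automorphism of `ℂ` acting on coefficients).  Given the
Lagrange identity `f * D = G₀` and the monic equation for `f`, and twisted coefficients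
`d', r', a'`, the twisted data satisfy the relation required by the analytic converse, and any
quotient `F = G' / D'` has `q`-expansion `τ (Φ f)`. -/
theorem formal_twist (Φ : R →+* P) (hΦ : Function.Injective Φ) (τ : P →+* P)
    (hτ : Function.Injective τ) (m n : ℕ) (f t : R) (d r a d' r' a' : ℕ → R)
    (ht : τ (Φ t) = Φ t)
    (hd : ∀ j, Φ (d' j) = τ (Φ (d j))) (hr : ∀ j, Φ (r' j) = τ (Φ (r j)))
    (ha : ∀ j, Φ (a' j) = τ (Φ (a j)))
    (H1 : f * ∑ j ∈ range n, d j * t ^ j = ∑ j ∈ range n, r j * t ^ j)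
    (H2 : f ^ m + ∑ j ∈ range m, a j * f ^ j = 0)
    (H3 : ∑ j ∈ range n, d j * t ^ j ≠ 0) :
    (∑ j ∈ range n, d' j * t ^ j ≠ 0) ∧
    ((∑ j ∈ range n, r' j * t ^ j) ^ m + ∑ j ∈ range m,
      a' j * (∑ i ∈ range n, d' i * t ^ i) ^ (m - j) * (∑ i ∈ range n, r' i * t ^ i) ^ j = 0) ∧
    ∀ F : R, F * ∑ j ∈ range n, d' j * t ^ j = ∑ j ∈ range n, r' j * t ^ j → Φ F = τ (Φ f) := by
  set D := ∑ j ∈ range n, d j * t ^ j with hD
  set G₀ := ∑ j ∈ range n, r j * t ^ j with hG₀
  set D' := ∑ j ∈ range n, d' j * t ^ j with hD'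
  set G' := ∑ j ∈ range n, r' j * t ^ j with hG'
  have hΦD : Φ D' = τ (Φ D) := by
    simp only [hD, hD', map_sum, map_mul, map_pow, hd, ht]
  have hΦG : Φ G' = τ (Φ G₀) := by
    simp only [hG₀, hG', map_sum, map_mul, map_pow, hr, ht]
  have hD'0 : D' ≠ 0 := by
    intro h0
    apply H3
    apply hΦ
    apply hτ
    rw [← hΦD, h0]
    simp
  have hrel0 : G₀ ^ m + ∑ j ∈ range m, a j * D ^ (m - j) * G₀ ^ j = 0 := by
    have hG : G₀ = f * D := H1.symm
    have e1 : ∀ j ∈ range m, a j * D ^ (m - j) * (f * D) ^ j = D ^ m * (a j * f ^ j) := by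
      intro j hj
      have hjm : j ≤ m := (mem_range.mp hj).le
      have : D ^ m = D ^ (m - j) * D ^ j := by rw [← pow_add, Nat.sub_add_cancel hjm]
      rw [this, mul_pow]
      ring
    rw [hG, sum_congr rfl e1, ← mul_sum, mul_pow, mul_comm (f ^ m), ← mul_add, H2, mul_zero]
  refine ⟨hD'0, ?_, ?_⟩
  · apply hΦ
    rw [map_zero]
    have : Φ (G' ^ m + ∑ j ∈ range m, a' j * D' ^ (m - j) * G' ^ j) =
        τ (Φ (G₀ ^ m + ∑ j ∈ range m, a j * D ^ (m - j) * G₀ ^ j)) := by
      simp only [map_add, map_sum, map_mul, map_pow, hΦD, hΦG, ha]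
    rw [this, hrel0, map_zero, map_zero]
  · intro F hF
    have h1 : Φ F * Φ D' = τ (Φ f) * Φ D' := by
      rw [← map_mul, hF, hΦG, hΦD, ← H1, map_mul, map_mul]
    have hne : Φ D' ≠ 0 := fun h => hD'0 (hΦ (by rw [h, map_zero]))
    exact mul_right_cancel₀ hne h1

end Abstract

end Fermat.Agent.S23
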