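import Mathlib

set_option autoImplicit false

/-!
# Plan Q, chunk (1): twisting level-one modular forms by a ring automorphism of `ℂ`

For `σ : ℂ ≃+* ℂ` and a level-one modular form `g` of weight `k` there is a level-one modular form
`g'` of weight `k` whose `q`-expansion is obtained from that of `g` by applying `σ` coefficientwise.
-/

namespace Fermat.Agent.S23

open UpperHalfPlane ModularForm ModularFormClass MatrixGroups EisensteinSeries

noncomputable section

/-- Coefficientwise twist of a power series. -/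
abbrev twistPS (σ : ℂ ≃+* ℂ) (p : PowerSeries ℂ) : PowerSeries ℂ :=
  PowerSeries.map (σ : ℂ →+* ℂ) p

theorem twistPS_coeff (σ : ℂ ≃+* ℂ) (p : PowerSeries ℂ) (n : ℕ) :
    (twistPS σ p).coeff n = σ (p.coeff n) := by
  simp [twistPS]

/-- The `q`-expansion of `E_k` has rational coefficients, hence is fixed by every twist. -/
theorem twistPS_qExpansion_E (σ : ℂ ≃+* ℂ) {k : ℕ} (hk : 3 ≤ k) (hk2 : Even k) :
    twistPS σ (qExpansion 1 (E hk)) = qExpansion 1 (E hk) := by
  ext m
  rw [twistPS_coeff, E_qExpansion_coeff hk hk2 m]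
  split_ifs with h
  · simp
  · simp only [map_mul, map_neg, map_div₀, map_ofNat, map_natCast, map_ratCast]

/-- `E₄³ - E₆²` as a level-one form of weight 12. -/
def lotF12 : ModularForm 𝒮ℒ 12 :=
  ModularForm.mcast (by decide) (E₄.pow 3) - ModularForm.mcast (by decide) (E₆.pow 2)

theorem lotF12_apply (z : ℍ) : lotF12 z = E₄ z ^ 3 - E₆ z ^ 2 := by
  simp only [lotF12, coe_mcast, coe_pow, sub_apply, Pi.pow_apply]

theorem lotF12_qExpansion :
    qExpansion 1 lotF12 = qExpansion 1 E₄ ^ 3 - qExpansion 1 E₆ ^ 2 := by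
  simp only [lotF12, FunLike.coe_sub, coe_mcast,
    ModularForm.qExpansion_sub one_pos one_mem_strictPeriods_SL,
    ModularForm.qExpansion_pow one_pos one_mem_strictPeriods_SL]

theorem qExpansion_discriminant_eq :
    qExpansion 1 ModularForm.discriminant =
      (1 / 1728 : ℂ) • (qExpansion 1 E₄ ^ 3 - qExpansion 1 E₆ ^ 2) := by
  have h : (ModularForm.discriminant : ℍ → ℂ) = ((1 / 1728 : ℂ) • lotF12 : ModularForm 𝒮ℒ 12) := by
    funext z
    rw [smul_apply, lotF12_apply, discriminant_eq_E₄_cube_sub_E₆_sq z]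
    simp only [smul_eq_mul]
    ring
  rw [h, FunLike.coe_smul, ModularForm.qExpansion_smul one_pos one_mem_strictPeriods_SL,
    lotF12_qExpansion]

theorem twistPS_smul (σ : ℂ ≃+* ℂ) (c : ℂ) (p : PowerSeries ℂ) :
    twistPS σ (c • p) = σ c • twistPS σ p := by
  ext n
  simp [twistPS]

theorem twistPS_qExpansion_discriminant (σ : ℂ ≃+* ℂ) :
    twistPS σ (qExpansion 1 ModularForm.discriminant) = qExpansion 1 ModularForm.discriminant := by
  rw [qExpansion_discriminant_eq]
  have h4 := twistPS_qExpansion_E σ (by norm_num : 3 ≤ 4) ⟨2, rfl⟩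
  have h6 := twistPS_qExpansion_E σ (by norm_num : 3 ≤ 6) ⟨3, rfl⟩
  have hc : σ (1 / 1728 : ℂ) = 1 / 1728 := by
    rw [map_div₀, map_one, map_ofNat]
  rw [twistPS_smul, hc]
  simp only [twistPS] at h4 h6 ⊢
  rw [map_sub, map_pow, map_pow, h4, h6]

theorem twistPS_zero (σ : ℂ ≃+* ℂ) : twistPS σ 0 = 0 := map_zero _

theorem twistPS_add (σ : ℂ ≃+* ℂ) (p q : PowerSeries ℂ) :
    twistPS σ (p + q) = twistPS σ p + twistPS σ q := map_add _ _ _

theorem twistPS_sub (σ : ℂ ≃+* ℂ) (p q : PowerSeries ℂ) :
    twistPS σ (p - q) = twistPS σ p - twistPS σ q := map_sub _ _ _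

theorem twistPS_mul (σ : ℂ ≃+* ℂ) (p q : PowerSeries ℂ) :
    twistPS σ (p * q) = twistPS σ p * twistPS σ q := map_mul _ _ _

theorem twistPS_one (σ : ℂ ≃+* ℂ) : twistPS σ 1 = 1 := map_one _

/-- The `q`-expansion of `Δ • h` for a level-one form `h`. -/
theorem qExpansion_ofMulDiscriminant {k : ℤ} (h : ModularForm 𝒮ℒ (k - 12)) :
    qExpansion 1 (CuspForm.ofMulDiscriminant h) =
      qExpansion 1 ModularForm.discriminant * qExpansion 1 h := by
  have hc : (⇑(CuspForm.ofMulDiscriminant h) : ℍ → ℂ) = ⇑CuspForm.discriminant * ⇑h := by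
    funext z; rfl
  rw [hc, ModularForm.qExpansion_mul_coe one_pos one_mem_strictPeriods_SL CuspForm.discriminant h,
    CuspForm.coe_discriminant]

/-- Auxiliary form of the twist theorem, by induction on a bound for the weight. -/
theorem exists_twist_modularForm_aux (σ : ℂ ≃+* ℂ) :
    ∀ (n : ℕ) (k : ℤ), k < 12 * n → ∀ g : ModularForm 𝒮ℒ k,
      ∃ g' : ModularForm 𝒮ℒ k, qExpansion 1 g' = twistPS σ (qExpansion 1 g) := by
  -- the zero form
  have hzero : ∀ (k : ℤ) (g : ModularForm 𝒮ℒ k), (⇑g : ℍ → ℂ) = 0 →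
      ∃ g' : ModularForm 𝒮ℒ k, qExpansion 1 g' = twistPS σ (qExpansion 1 g) := by
    intro k g hg
    refine ⟨0, ?_⟩
    rw [hg, FunLike.coe_zero, qExpansion_zero, twistPS_zero]
  intro n
  induction n with
  | zero =>
    intro k hk g
    exact hzero k g (levelOne_neg_weight_eq_zero (by simpa using hk) g)
  | succ n ih =>
    intro k hk g
    rcases lt_or_ge k 0 with hneg | hnonneg
    · exact hzero k g (levelOne_neg_weight_eq_zero hneg g)
    rcases eq_or_ne k 0 with rfl | hk0
    · -- weight zero: constants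
      obtain ⟨c, hc⟩ := levelOne_weight_zero_const g
      refine ⟨ModularForm.const (σ c), ?_⟩
      have h1 : (⇑(ModularForm.const (Γ := 𝒮ℒ) (σ c)) : ℍ → ℂ) = σ c • (1 : ℍ → ℂ) := by
        funext z
        rw [ModularForm.const_apply, Pi.smul_apply, Pi.one_apply, smul_eq_mul, mul_one]
      have h2 : (⇑g : ℍ → ℂ) = c • (1 : ℍ → ℂ) := by
        rw [hc]; funext z
        rw [Function.const_apply, Pi.smul_apply, Pi.one_apply, smul_eq_mul, mul_one]
      have han : AnalyticAt ℂ (cuspFunction 1 (1 : ℍ → ℂ)) 0 := by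
        have := ModularFormClass.analyticAt_cuspFunction_zero (ModularForm.const (Γ := 𝒮ℒ) 1)
          one_pos one_mem_strictPeriods_SL
        have h3 : (⇑(ModularForm.const (Γ := 𝒮ℒ) (1 : ℂ)) : ℍ → ℂ) = 1 := by
          funext z
          rw [ModularForm.const_apply, Pi.one_apply]
        rwa [h3] at this
      rw [h1, h2, qExpansion_smul han, qExpansion_smul han, qExpansion_one, twistPS_smul,
        twistPS_one]
    lift k to ℕ using hnonneg
    have hk0' : k ≠ 0 := by
      rintro rfl; exact hk0 rfl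
    rcases Nat.even_or_odd k with hev | hodd
    swap
    · have : g = 0 := ModularForm.levelOne_odd_weight_eq_zero (by exact_mod_cast hodd) g
      exact hzero _ g (by rw [this]; rfl)
    rcases Nat.lt_or_ge k 3 with hlt | hge
    · -- `k = 2`
      have hk2 : k = 2 := by
        rcases hev with ⟨r, hr⟩; omega
      subst hk2
      have : g = 0 := rank_zero_iff_forall_zero.mp ModularForm.levelOne_weight_two_rank_zero g
      exact hzero _ g (by rw [this]; rfl)
    · -- `3 ≤ k`, `k` even
      set c : ℂ := (qExpansion 1 g).coeff 0 with hc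
      set f : ModularForm 𝒮ℒ (k : ℤ) := g - c • E hge with hf
      have hfq : qExpansion 1 f = qExpansion 1 g - c • qExpansion 1 (E hge) := by
        rw [hf, FunLike.coe_sub, ModularForm.qExpansion_sub one_pos one_mem_strictPeriods_SL,
          FunLike.coe_smul, ModularForm.qExpansion_smul one_pos one_mem_strictPeriods_SL]
      have hcusp : (qExpansion 1 f).coeff 0 = 0 := by
        rw [hfq, map_sub, PowerSeries.coeff_smul, E_qExpansion_coeff_zero hge hev]
        simp [hc]
      have hfac := ModularForm.qExpansion_eq_qExpansion_discriminant_mul f hcusp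
      set h : ModularForm 𝒮ℒ ((k : ℤ) - 12) :=
        CuspForm.discriminantEquiv (ModularForm.toCuspForm f hcusp) with hh
      obtain ⟨h', hh'⟩ := ih ((k : ℤ) - 12) (by push_cast at hk ⊢; omega) h
      refine ⟨σ c • E hge + CuspForm.toModularFormₗ (CuspForm.ofMulDiscriminant h'), ?_⟩
      have hco : (⇑(CuspForm.toModularFormₗ (CuspForm.ofMulDiscriminant h')) : ℍ → ℂ)
          = ⇑(CuspForm.ofMulDiscriminant h') := by
        funext z; rfl
      rw [FunLike.coe_add, ModularForm.qExpansion_add one_pos one_mem_strictPeriods_SL,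
        FunLike.coe_smul, ModularForm.qExpansion_smul one_pos one_mem_strictPeriods_SL, hco,
        qExpansion_ofMulDiscriminant, hh']
      have hg : qExpansion 1 g = c • qExpansion 1 (E hge) + qExpansion 1 f := by
        rw [hfq]; ring
      rw [hg, twistPS_add, twistPS_smul, twistPS_qExpansion_E σ hge hev, hfac, twistPS_mul,
        twistPS_qExpansion_discriminant]

/-- **Level-one twist.** For a ring automorphism `σ` of `ℂ` and a level-one modular form `g`
there is a level-one modular form of the same weight whose `q`-expansion is the coefficientwise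
`σ`-twist of that of `g`. -/
theorem exists_twist_modularForm (σ : ℂ ≃+* ℂ) (k : ℤ) (g : ModularForm 𝒮ℒ k) :
    ∃ g' : ModularForm 𝒮ℒ k, qExpansion 1 g' = twistPS σ (qExpansion 1 g) := by
  obtain ⟨n, hn⟩ : ∃ n : ℕ, k < 12 * n := ⟨k.toNat + 1, by push_cast; omega⟩
  exact exists_twist_modularForm_aux σ n k hn g

/-- Cusp form version. -/
theorem exists_twist_cuspForm (σ : ℂ ≃+* ℂ) (k : ℤ) (g : CuspForm 𝒮ℒ k) :
    ∃ g' : CuspForm 𝒮ℒ k, qExpansion 1 g' = twistPS σ (qExpansion 1 g) := by
  obtain ⟨g', hg'⟩ := exists_twist_modularForm σ k (CuspForm.toModularFormₗ g)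
  have hco : (⇑(CuspForm.toModularFormₗ g) : ℍ → ℂ) = ⇑g := by funext z; rfl
  rw [hco] at hg'
  have h0 : (qExpansion 1 g').coeff 0 = 0 := by
    rw [hg', twistPS_coeff]
    have : (qExpansion 1 g).coeff 0 = 0 :=
      CuspFormClass.qExpansion_coeff_zero g one_pos one_mem_strictPeriods_SL
    rw [this, map_zero]
  refine ⟨ModularForm.toCuspForm g' h0, ?_⟩
  have hco' : (⇑(ModularForm.toCuspForm g' h0) : ℍ → ℂ) = ⇑g' := by funext z; rfl
  rw [hco', hg']

end

end Fermat.Agent.S23
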