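import Mathlib

set_option autoImplicit false

/-!
Analytic core of the "twisting" argument for `S23`: a meromorphic quotient `G / D` which satisfies a
monic polynomial equation with continuous coefficients extends holomorphically.
-/

namespace Fermat.Agent.S23

open Filter Topology Finset

/-- Cauchy's bound for the roots of a monic polynomial. -/
theorem norm_le_of_monic_root {m : ℕ} (c : ℕ → ℂ) (x : ℂ) (M : ℝ)
    (hM : ∀ j < m, ‖c j‖ ≤ M) (h : x ^ m + ∑ j ∈ range m, c j * x ^ j = 0) :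
    ‖x‖ ≤ max 1 (m * M) := by
  by_contra hcon
  rw [not_le] at hcon
  have hx1 : 1 < ‖x‖ := lt_of_le_of_lt (le_max_left _ _) hcon
  have hxM : (m : ℝ) * M < ‖x‖ := lt_of_le_of_lt (le_max_right _ _) hcon
  have hm : 0 < m := by
    rcases Nat.eq_zero_or_pos m with rfl | hm
    · simp at h
    · exact hm
  have hxpos : 0 < ‖x‖ := lt_trans zero_lt_one hx1
  have h1 : x ^ m = -∑ j ∈ range m, c j * x ^ j := eq_neg_of_add_eq_zero_left h
  have h2 : ‖x‖ ^ m ≤ ∑ j ∈ range m, M * ‖x‖ ^ (m - 1) := by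
    calc ‖x‖ ^ m = ‖x ^ m‖ := (norm_pow _ _).symm
      _ = ‖∑ j ∈ range m, c j * x ^ j‖ := by rw [h1, norm_neg]
      _ ≤ ∑ j ∈ range m, ‖c j * x ^ j‖ := norm_sum_le _ _
      _ ≤ ∑ j ∈ range m, M * ‖x‖ ^ (m - 1) := by
        refine sum_le_sum fun j hj => ?_
        have hj' : j < m := mem_range.mp hj
        rw [norm_mul, norm_pow]
        have hMnn : 0 ≤ M := le_trans (norm_nonneg _) (hM j hj')
        refine mul_le_mul (hM j hj') ?_ (pow_nonneg (norm_nonneg _) _) hMnn
        exact pow_le_pow_right₀ hx1.le (by omega)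
  rw [sum_const, card_range, nsmul_eq_mul] at h2
  have h3 : ‖x‖ ^ m = ‖x‖ * ‖x‖ ^ (m - 1) := by
    rw [← pow_succ']
    congr 1
    omega
  rw [h3, ← mul_assoc] at h2
  have hpos : 0 < ‖x‖ ^ (m - 1) := pow_pos hxpos _
  have := le_of_mul_le_mul_right h2 hpos
  linarith

/-- If the coefficients of a monic polynomial are small, so are its roots. -/
theorem norm_lt_of_monic_root_of_small {m : ℕ} (c : ℕ → ℂ) (x : ℂ) {ε : ℝ} (hε : 0 < ε)
    (hε1 : ε ≤ 1) (hM : ∀ j < m, (m : ℝ) * ‖c j‖ < ε ^ m)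
    (h : x ^ m + ∑ j ∈ range m, c j * x ^ j = 0) : ‖x‖ < ε := by
  rcases Nat.eq_zero_or_pos m with rfl | hm
  · simp at h
  have hmR : (0 : ℝ) < m := by exact_mod_cast hm
  have hεm : ε ^ m ≤ 1 := pow_le_one₀ hε.le hε1
  -- first: ‖x‖ ≤ 1
  have hx1 : ‖x‖ ≤ 1 := by
    have hb := norm_le_of_monic_root c x (1 / m) (fun j hj => by
      rw [le_div_iff₀ hmR]
      have := hM j hj
      nlinarith [norm_nonneg (c j)]) h
    have : (m : ℝ) * (1 / m) = 1 := by field_simp
    rw [this, max_self] at hb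
    exact hb
  by_contra hcon
  rw [not_lt] at hcon
  have h1 : x ^ m = -∑ j ∈ range m, c j * x ^ j := eq_neg_of_add_eq_zero_left h
  have h2 : ‖x‖ ^ m < ε ^ m := by
    calc ‖x‖ ^ m = ‖x ^ m‖ := (norm_pow _ _).symm
      _ = ‖∑ j ∈ range m, c j * x ^ j‖ := by rw [h1, norm_neg]
      _ ≤ ∑ j ∈ range m, ‖c j * x ^ j‖ := norm_sum_le _ _
      _ ≤ ∑ j ∈ range m, ‖c j‖ := by
        refine sum_le_sum fun j _ => ?_
        rw [norm_mul, norm_pow]
        exact mul_le_of_le_one_right (norm_nonneg _) (pow_le_one₀ (norm_nonneg _) hx1)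
      _ < ∑ _j ∈ range m, ε ^ m / m := by
        refine sum_lt_sum_of_nonempty (nonempty_range_iff.mpr hm.ne') fun j hj => ?_
        rw [lt_div_iff₀ hmR, mul_comm]
        exact hM j (mem_range.mp hj)
      _ = ε ^ m := by
        rw [sum_const, card_range, nsmul_eq_mul]
        field_simp
  have h3 : ε ^ m ≤ ‖x‖ ^ m := pow_le_pow_left₀ hε.le hcon m
  linarith


/-- The analytic core: if `G ^ m + ∑ c_j D ^ (m - j) G ^ j = 0` on a connected open set `U` with
`G`, `D` holomorphic, `D ≢ 0` and `c_j` continuous, then `G / D` extends to a holomorphic function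
`F` on `U` with `F * D = G` which is a root of the monic polynomial `X ^ m + ∑ c_j X ^ j`. -/
theorem exists_differentiableOn_mul_eq {U : Set ℂ} (hU : IsOpen U) (hUc : IsPreconnected U)
    {G D : ℂ → ℂ} (hG : DifferentiableOn ℂ G U) (hD : DifferentiableOn ℂ D U)
    (hD0 : ∃ z ∈ U, D z ≠ 0) {m : ℕ} (c : ℕ → ℂ → ℂ) (hc : ∀ j < m, ContinuousOn (c j) U)
    (h : ∀ z ∈ U, G z ^ m + ∑ j ∈ range m, c j z * D z ^ (m - j) * G z ^ j = 0) :
    ∃ F : ℂ → ℂ, DifferentiableOn ℂ F U ∧ (∀ z ∈ U, F z * D z = G z) ∧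
      ∀ z ∈ U, F z ^ m + ∑ j ∈ range m, c j z * F z ^ j = 0 := by
  classical
  set Q : ℂ → ℂ := fun z => G z / D z with hQ
  -- the monic equation for `Q` off the zeros of `D`
  have hQeq : ∀ z ∈ U, D z ≠ 0 → Q z ^ m + ∑ j ∈ range m, c j z * Q z ^ j = 0 := by
    intro z hz hDz
    have h1 := h z hz
    have h2 : Q z ^ m + ∑ j ∈ range m, c j z * Q z ^ j =
        (G z ^ m + ∑ j ∈ range m, c j z * D z ^ (m - j) * G z ^ j) / D z ^ m := by
      rw [add_div, sum_div, hQ]
      simp only [div_pow]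
      congr 1
      refine sum_congr rfl fun j hj => ?_
      have hj' : j < m := mem_range.mp hj
      have : D z ^ m = D z ^ (m - j) * D z ^ j := by
        rw [← pow_add]; congr 1; omega
      rw [this]
      field_simp
    rw [h2, h1, zero_div]
  have hDan : AnalyticOnNhd ℂ D U := hD.analyticOnNhd hU
  -- zeros of `D` are isolated
  have hiso : ∀ z ∈ U, ∀ᶠ w in 𝓝[≠] z, D w ≠ 0 := by
    intro z hz
    rcases (hDan z hz).eventually_eq_zero_or_eventually_ne_zero with h0 | h0
    · exfalso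
      obtain ⟨w, hw, hDw⟩ := hD0
      exact hDw (hDan.eqOn_zero_of_preconnected_of_eventuallyEq_zero hUc hz h0 hw)
    · exact h0
  -- `Q` is differentiable wherever `D ≠ 0`
  have hQdiff : ∀ z ∈ U, D z ≠ 0 → DifferentiableAt ℂ Q z := by
    intro z hz hDz
    exact ((hG z hz).differentiableAt (hU.mem_nhds hz)).div
      ((hD z hz).differentiableAt (hU.mem_nhds hz)) hDz
  -- the candidate
  set F : ℂ → ℂ := fun z => limUnder (𝓝[≠] z) Q with hF
  have hFQ : ∀ z ∈ U, D z ≠ 0 → F z = Q z := by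
    intro z hz hDz
    have : Tendsto Q (𝓝[≠] z) (𝓝 (Q z)) :=
      ((hQdiff z hz hDz).continuousAt.tendsto).mono_left nhdsWithin_le_nhds
    exact this.limUnder_eq
  -- local description of `F`
  have hloc : ∀ z ∈ U, ∃ s ∈ 𝓝 z, s ⊆ U ∧ IsOpen s ∧ (∀ w ∈ s, w ≠ z → D w ≠ 0) ∧
      DifferentiableOn ℂ (Function.update Q z (limUnder (𝓝[≠] z) Q)) s := by
    intro z hz
    have h1 := hiso z hz
    rw [eventually_nhdsWithin_iff] at h1
    -- bound the coefficients near `z`
    set B : ℝ := (∑ i ∈ range m, ‖c i z‖) + 1 with hB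
    have hbd : ∀ᶠ w in 𝓝 z, ∀ j ∈ range m, ‖c j w‖ ≤ B := by
      rw [eventually_all_finset]
      intro j hj
      have hcont : ContinuousAt (c j) z :=
        (hc j (mem_range.mp hj)).continuousAt (hU.mem_nhds hz)
      have h2 : ∀ᶠ w in 𝓝 z, ‖c j w‖ < ‖c j z‖ + 1 :=
        hcont.norm.tendsto.eventually (Iio_mem_nhds (by linarith))
      filter_upwards [h2] with w hw
      have : ‖c j z‖ ≤ ∑ i ∈ range m, ‖c i z‖ :=
        single_le_sum (f := fun i => ‖c i z‖) (fun i _ => norm_nonneg _) hj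
      linarith
    have hall : ∀ᶠ w in 𝓝 z, (w ∈ ({z}ᶜ : Set ℂ) → D w ≠ 0) ∧ (∀ j ∈ range m, ‖c j w‖ ≤ B) ∧
        w ∈ U := h1.and (hbd.and (hU.mem_nhds hz))
    obtain ⟨s, hst, hsopen, hzs⟩ := mem_nhds_iff.mp hall
    have hsn : s ∈ 𝓝 z := hsopen.mem_nhds hzs
    refine ⟨s, hsn, fun w hw => (hst hw).2.2, hsopen, fun w hw hwz => (hst hw).1 hwz, ?_⟩
    refine Complex.differentiableOn_update_limUnder_of_bddAbove hsn ?_ ?_
    · intro w hw
      exact (hQdiff w (hst hw.1).2.2 ((hst hw.1).1 hw.2)).differentiableWithinAt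
    · refine ⟨max 1 (m * B), ?_⟩
      rintro _ ⟨w, hw, rfl⟩
      exact norm_le_of_monic_root (fun j => c j w) (Q w) B
        (fun j hj => (hst hw.1).2.1 j (mem_range.mpr hj))
        (hQeq w (hst hw.1).2.2 ((hst hw.1).1 hw.2))
  -- `F` is differentiable at every point of `U`
  have hFdiffAt : ∀ z ∈ U, DifferentiableAt ℂ F z := by
    intro z hz
    obtain ⟨s, hsn, hsU, hsopen, hsD, hsdiff⟩ := hloc z hz
    have heq : F =ᶠ[𝓝 z] Function.update Q z (limUnder (𝓝[≠] z) Q) := by
      filter_upwards [hsn] with w hw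
      by_cases hwz : w = z
      · subst hwz
        rw [Function.update_self]
      · rw [Function.update_of_ne hwz]
        exact hFQ w (hsU hw) (hsD w hw hwz)
    exact (hsdiff.differentiableAt hsn).congr_of_eventuallyEq heq
  have hGzero : ∀ z ∈ U, D z = 0 → G z = 0 := by
    intro z hz hDz
    have h1 := h z hz
    have h2 : ∑ j ∈ range m, c j z * D z ^ (m - j) * G z ^ j = 0 := by
      refine sum_eq_zero fun j hj => ?_
      have hj' : j < m := mem_range.mp hj
      rw [hDz, zero_pow (by omega), mul_zero, zero_mul]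
    rw [h2, add_zero] at h1
    exact pow_eq_zero_iff (by
      rintro rfl
      simp at h1) |>.mp h1
  refine ⟨F, fun z hz => (hFdiffAt z hz).differentiableWithinAt, ?_, ?_⟩
  · intro z hz
    by_cases hDz : D z = 0
    · rw [hDz, mul_zero, hGzero z hz hDz]
    · rw [hFQ z hz hDz, hQ]
      field_simp
  · intro z hz
    by_cases hDz : D z = 0
    · -- continuity argument
      set Φ : ℂ → ℂ := fun w => F w ^ m + ∑ j ∈ range m, c j w * F w ^ j with hΦ
      have hΦcont : ContinuousAt Φ z := by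
        refine ((hFdiffAt z hz).continuousAt.pow m).add ?_
        refine tendsto_finsetSum _ fun j hj => ?_
        exact ((hc j (mem_range.mp hj)).continuousAt (hU.mem_nhds hz)).mul
          ((hFdiffAt z hz).continuousAt.pow j)
      have hΦ0 : ∀ᶠ w in 𝓝[≠] z, Φ w = 0 := by
        have hUev : ∀ᶠ w in 𝓝[≠] z, w ∈ U := nhdsWithin_le_nhds (hU.mem_nhds hz)
        filter_upwards [hiso z hz, hUev] with w hw hwU
        show F w ^ m + ∑ j ∈ range m, c j w * F w ^ j = 0
        rw [hFQ w hwU hw]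
        exact hQeq w hwU hw
      have hlim1 : Tendsto Φ (𝓝[≠] z) (𝓝 (Φ z)) := hΦcont.tendsto.mono_left nhdsWithin_le_nhds
      have hlim2 : Tendsto Φ (𝓝[≠] z) (𝓝 0) := by
        refine Tendsto.congr' ?_ tendsto_const_nhds
        filter_upwards [hΦ0] with w hw
        exact hw.symm
      exact tendsto_nhds_unique hlim1 hlim2
    · rw [hFQ z hz hDz]
      exact hQeq z hz hDz

end Fermat.Agent.S23
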