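import Mathlib
import Fermat.Agent.S23.Removable

set_option autoImplicit false

/-!
Chunk (6) of the `S23` plan, modular packaging: a quotient `G / D` of slash-invariant holomorphic
functions which satisfies a monic equation whose coefficients vanish at all cusps is a cusp form.
-/

namespace Fermat.Agent.S23

open UpperHalfPlane ModularForm Filter Finset
open scoped Manifold MatrixGroups Topology

/-- Holomorphic quotient on the upper half plane. -/
theorem exists_mdiff_mul_eq {G D : ℍ → ℂ} (hG : MDiff G) (hD : MDiff D) (hD0 : D ≠ 0) {m : ℕ}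
    (a : ℕ → ℍ → ℂ) (ha : ∀ j < m, Continuous (a j))
    (hrel : ∀ τ : ℍ, G τ ^ m + ∑ j ∈ range m, a j τ * D τ ^ (m - j) * G τ ^ j = 0) :
    ∃ F : ℍ → ℂ, MDiff F ∧ (∀ τ, F τ * D τ = G τ) ∧
      ∀ τ, F τ ^ m + ∑ j ∈ range m, a j τ * F τ ^ j = 0 := by
  have hUo : IsOpen {z : ℂ | 0 < z.im} := isOpen_upperHalfPlaneSet
  have hUc : IsPreconnected {z : ℂ | 0 < z.im} :=
    (Complex.isConnected_of_upperHalfPlane (r := 0) subset_rfl
      (fun z (hz : 0 < z.im) => (le_of_lt hz : 0 ≤ z.im))).isPreconnected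
  have hD0' : ∃ z ∈ {z : ℂ | 0 < z.im}, (D ∘ ofComplex) z ≠ 0 := by
    by_contra hcon
    push Not at hcon
    apply hD0
    ext τ
    have := hcon τ τ.im_pos
    simpa [Function.comp_apply, ofComplex_apply] using this
  have hcont : ∀ j < m, ContinuousOn (a j ∘ ofComplex) {z : ℂ | 0 < z.im} := by
    intro j hj
    refine (ha j hj).comp_continuousOn ?_
    intro z hz
    exact (UpperHalfPlane.mdifferentiableAt_ofComplex hz).continuousAt.continuousWithinAt
  obtain ⟨F0, hF0d, hF0m, hF0e⟩ := exists_differentiableOn_mul_eq hUo hUc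
    (UpperHalfPlane.mdifferentiable_iff.mp hG) (UpperHalfPlane.mdifferentiable_iff.mp hD) hD0'
    (fun j => a j ∘ ofComplex) hcont (fun z hz => by
      simpa [Function.comp_apply] using hrel (ofComplex z))
  refine ⟨fun τ => F0 τ, ?_, fun τ => ?_, fun τ => ?_⟩
  · rw [UpperHalfPlane.mdifferentiable_iff]
    refine hF0d.congr fun z hz => ?_
    simp [Function.comp_apply, ofComplex_apply_of_im_pos hz]
  · have := hF0m τ τ.im_pos
    simpa [Function.comp_apply, ofComplex_apply] using this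
  · have := hF0e τ τ.im_pos
    simpa [Function.comp_apply, ofComplex_apply] using this

/-- A function satisfying a monic equation whose coefficients tend to zero at `i∞` tends to zero
at `i∞`. -/
theorem isZeroAtImInfty_of_monic {F : ℍ → ℂ} {m : ℕ} (hm : 0 < m) (c : ℕ → ℍ → ℂ)
    (hc : ∀ j < m, IsZeroAtImInfty (c j))
    (hrel : ∀ τ : ℍ, F τ ^ m + ∑ j ∈ range m, c j τ * F τ ^ j = 0) : IsZeroAtImInfty F := by
  rw [IsZeroAtImInfty, ZeroAtFilter, NormedAddGroup.tendsto_nhds_zero]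
  intro ε hε
  set ε' : ℝ := min ε 1 with hε'
  have hε'pos : 0 < ε' := lt_min hε one_pos
  have hε'1 : ε' ≤ 1 := min_le_right _ _
  have hmR : (0 : ℝ) < m := by exact_mod_cast hm
  have hev : ∀ᶠ τ in atImInfty, ∀ j ∈ range m, (m : ℝ) * ‖c j τ‖ < ε' ^ m := by
    rw [eventually_all_finset]
    intro j hj
    have h1 := hc j (mem_range.mp hj)
    rw [IsZeroAtImInfty, ZeroAtFilter, NormedAddGroup.tendsto_nhds_zero] at h1
    have h2 := h1 (ε' ^ m / m) (div_pos (pow_pos hε'pos m) hmR)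
    filter_upwards [h2] with τ hτ
    rw [lt_div_iff₀ hmR] at hτ
    linarith
  filter_upwards [hev] with τ hτ
  have := norm_lt_of_monic_root_of_small (fun j => c j τ) (F τ) hε'pos hε'1
    (fun j hj => hτ j (mem_range.mpr hj)) (hrel τ)
  exact lt_of_lt_of_le this (min_le_left _ _)

/-- The monic equation is compatible with the slash action of `SL(2, ℤ)`. -/
theorem monic_slash {F : ℍ → ℂ} {k : ℤ} {m : ℕ} (a : ℕ → ℍ → ℂ)
    (hrel : ∀ τ : ℍ, F τ ^ m + ∑ j ∈ range m, a j τ * F τ ^ j = 0) (γ : SL(2, ℤ)) (τ : ℍ) :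
    (F ∣[k] γ) τ ^ m + ∑ j ∈ range m, ((a j) ∣[k * ((m : ℤ) - j)] γ) τ * (F ∣[k] γ) τ ^ j = 0 := by
  have hw : denom γ τ ≠ 0 := denom_ne_zero γ τ
  set w := denom γ τ with hwdef
  have h1 := hrel (γ • τ)
  simp only [SL_slash_apply]
  have key : ∀ j ∈ range m, (a j (γ • τ) * w ^ (-(k * ((m : ℤ) - j)))) *
      (F (γ • τ) * w ^ (-k)) ^ j = (a j (γ • τ) * F (γ • τ) ^ j) * (w ^ (-k)) ^ m := by
    intro j hj
    have hj' : j < m := mem_range.mp hj
    have e1 : (w ^ (-k)) ^ m = w ^ (-(k * ((m : ℤ) - j))) * (w ^ (-k)) ^ j := by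
      rw [← zpow_natCast, ← zpow_mul, ← zpow_natCast (w ^ (-k)) j, ← zpow_mul, ← zpow_add₀ hw]
      congr 1
      ring
    rw [e1, mul_pow]
    ring
  rw [sum_congr rfl key, ← sum_mul, mul_pow, ← add_mul, h1, zero_mul]

/-- Chunk (6): the modular packaging. -/
theorem exists_cuspForm_mul_eq {Γ : Subgroup SL(2, ℤ)} {k kD kG : ℤ} (hk : kG = k + kD) {m : ℕ}
    (hm : 0 < m) {G D : ℍ → ℂ} (hG : MDiff G) (hD : MDiff D) (hD0 : D ≠ 0)
    (hGinv : ∀ γ ∈ Γ, G ∣[kG] γ = G) (hDinv : ∀ γ ∈ Γ, D ∣[kD] γ = D)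
    (a : ℕ → ℍ → ℂ) (ha : ∀ j < m, Continuous (a j))
    (ha0 : ∀ j < m, ∀ γ : SL(2, ℤ), IsZeroAtImInfty ((a j) ∣[k * ((m : ℤ) - j)] γ))
    (hrel : ∀ τ : ℍ, G τ ^ m + ∑ j ∈ range m, a j τ * D τ ^ (m - j) * G τ ^ j = 0) :
    ∃ F : CuspForm Γ k, ∀ τ, F τ * D τ = G τ := by
  obtain ⟨F, hFd, hFm, hFe⟩ := exists_mdiff_mul_eq hG hD hD0 a ha hrel
  have hFDG : F * D = G := funext hFm
  -- slash invariance
  have hFinv : ∀ γ ∈ Γ, F ∣[k] γ = F := by
    intro γ hγ
    have h1 : (F ∣[k] γ) * D = F * D := by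
      calc (F ∣[k] γ) * D = (F ∣[k] γ) * (D ∣[kD] γ) := by rw [hDinv γ hγ]
        _ = (F * D) ∣[k + kD] γ := (mul_slash_SL2 k kD γ F D).symm
        _ = G ∣[kG] γ := by rw [hFDG, hk]
        _ = G := hGinv γ hγ
        _ = F * D := hFDG.symm
    have h2 : (F ∣[k] γ - F) * D = 0 := by rw [sub_mul, h1, sub_self]
    have hsl : MDiff (F ∣[k] γ) := by
      rw [SL_slash]
      exact hFd.slash k _
    rcases (UpperHalfPlane.mul_eq_zero_iff (hsl.sub hFd) hD).mp h2 with h3 | h3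
    · exact sub_eq_zero.mp h3
    · exact absurd h3 hD0
  refine ⟨{ toFun := F
            slash_action_eq' := ?_
            holo' := hFd
            zero_at_cusps' := ?_ }, fun τ => hFm τ⟩
  · intro g hg
    obtain ⟨γ, hγ, rfl⟩ := Subgroup.mem_map.mp hg
    exact hFinv γ hγ
  · intro c hc
    have hc' : IsCusp c 𝒮ℒ := hc.mono (Subgroup.map_le_range _ _)
    rw [OnePoint.isZeroAt_iff_forall_SL2Z hc']
    intro γ _
    exact isZeroAtImInfty_of_monic hm (fun j => (a j) ∣[k * ((m : ℤ) - j)] γ)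
      (fun j hj => ha0 j hj γ) (fun τ => monic_slash a hFe γ τ)

end Fermat.Agent.S23
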