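import Fermat.Agent.S23.NiceRing
import Fermat.Agent.S23.FormalTwist
import Fermat.Agent.S23.Closure
import Fermat.Agent.S23.LevelOneTwist
import Fermat.Agent.S23.TwistConverse

set_option autoImplicit false

/-!
# S23, chunk (5): the twist of a cusp form of level `Γ₀(N)`, from algebraic data

Given the algebraic data (level-one coefficients `d r a` with `f * D = G₀`, `P(f) = 0`), the
level-one twist, the abstract formal twist and the analytic converse, we produce a cusp form whose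
`q`-expansion is the coefficientwise `σ`-twist of that of `f`.
-/

namespace Fermat.Agent.S23

open UpperHalfPlane CongruenceSubgroup ModularForm Finset
open scoped MatrixGroups ModularForm Manifold

noncomputable section

theorem IsMF.isNice {Γ : Subgroup (GL (Fin 2) ℝ)} {k : ℤ} {g : ℍ → ℂ}
    (hΓ : (1 : ℝ) ∈ Γ.strictPeriods) (h : IsMF Γ k g) : IsNice g := by
  obtain ⟨G, rfl⟩ := h
  exact isNice_of_modularForm hΓ G

theorem IsCF.isNice {Γ : Subgroup (GL (Fin 2) ℝ)} {k : ℤ} {g : ℍ → ℂ}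
    (hΓ : (1 : ℝ) ∈ Γ.strictPeriods) (h : IsCF Γ k g) : IsNice g :=
  h.isMF.isNice hΓ

theorem IsMF.exists_twist (σ : ℂ ≃+* ℂ) {k : ℤ} {g : ℍ → ℂ} (h : IsMF 𝒮ℒ k g) :
    ∃ g' : ℍ → ℂ, IsMF 𝒮ℒ k g' ∧ qx g' = twistPS σ (qx g) := by
  obtain ⟨G, rfl⟩ := h
  obtain ⟨G', hG'⟩ := exists_twist_modularForm σ k G
  exact ⟨⇑G', ⟨G', rfl⟩, hG'⟩

theorem IsCF.exists_twist (σ : ℂ ≃+* ℂ) {k : ℤ} {g : ℍ → ℂ} (h : IsCF 𝒮ℒ k g) :
    ∃ g' : ℍ → ℂ, IsCF 𝒮ℒ k g' ∧ qx g' = twistPS σ (qx g) := by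
  obtain ⟨G, rfl⟩ := h
  obtain ⟨G', hG'⟩ := exists_twist_cuspForm σ k G
  exact ⟨⇑G', ⟨G', rfl⟩, hG'⟩

/-- A family version of the level-one twist, with values in the ring of nice functions. -/
theorem exists_twist_family (σ : ℂ ≃+* ℂ) (m : ℕ) (κ : ℕ → ℤ) (d : ℕ → ℍ → ℂ)
    (hd : ∀ j < m, IsMF 𝒮ℒ (κ j) (d j)) :
    ∃ (dR dR' : ℕ → niceSubring), (∀ j < m, ((dR j : niceSubring) : ℍ → ℂ) = d j) ∧
      (∀ j < m, IsMF 𝒮ℒ (κ j) ((dR' j : niceSubring) : ℍ → ℂ)) ∧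
      (∀ j, qExpHom (dR' j) = PowerSeries.map (σ : ℂ →+* ℂ) (qExpHom (dR j))) := by
  classical
  have hex : ∀ j, ∃ p : niceSubring × niceSubring, (j < m → ((p.1 : niceSubring) : ℍ → ℂ) = d j) ∧
      (j < m → IsMF 𝒮ℒ (κ j) ((p.2 : niceSubring) : ℍ → ℂ)) ∧
      qExpHom p.2 = PowerSeries.map (σ : ℂ →+* ℂ) (qExpHom p.1) := by
    intro j
    by_cases hj : j < m
    · obtain ⟨g', hg', hq⟩ := (hd j hj).exists_twist σ
      refine ⟨(⟨d j, (hd j hj).isNice one_mem_strictPeriods_SL⟩,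
        ⟨g', hg'.isNice one_mem_strictPeriods_SL⟩), fun _ => rfl, fun _ => hg', ?_⟩
      exact hq
    · exact ⟨(0, 0), fun h => absurd h hj, fun h => absurd h hj, by rw [map_zero, map_zero]⟩
  choose p hp1 hp2 hp3 using hex
  exact ⟨fun j => (p j).1, fun j => (p j).2, hp1, hp2, hp3⟩

/-- Cusp form variant of `exists_twist_family`. -/
theorem exists_twist_family_cusp (σ : ℂ ≃+* ℂ) (m : ℕ) (κ : ℕ → ℤ) (d : ℕ → ℍ → ℂ)
    (hd : ∀ j < m, IsCF 𝒮ℒ (κ j) (d j)) :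
    ∃ (dR dR' : ℕ → niceSubring), (∀ j < m, ((dR j : niceSubring) : ℍ → ℂ) = d j) ∧
      (∀ j < m, IsCF 𝒮ℒ (κ j) ((dR' j : niceSubring) : ℍ → ℂ)) ∧
      (∀ j, qExpHom (dR' j) = PowerSeries.map (σ : ℂ →+* ℂ) (qExpHom (dR j))) := by
  classical
  have hex : ∀ j, ∃ p : niceSubring × niceSubring, (j < m → ((p.1 : niceSubring) : ℍ → ℂ) = d j) ∧
      (j < m → IsCF 𝒮ℒ (κ j) ((p.2 : niceSubring) : ℍ → ℂ)) ∧
      qExpHom p.2 = PowerSeries.map (σ : ℂ →+* ℂ) (qExpHom p.1) := by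
    intro j
    by_cases hj : j < m
    · obtain ⟨g', hg', hq⟩ := (hd j hj).exists_twist σ
      refine ⟨(⟨d j, (hd j hj).isNice one_mem_strictPeriods_SL⟩,
        ⟨g', hg'.isNice one_mem_strictPeriods_SL⟩), fun _ => rfl, fun _ => hg', ?_⟩
      exact hq
    · exact ⟨(0, 0), fun h => absurd h hj, fun h => absurd h hj, by rw [map_zero, map_zero]⟩
  choose p hp1 hp2 hp3 using hex
  exact ⟨fun j => (p j).1, fun j => (p j).2, hp1, hp2, hp3⟩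

theorem coe_sum_niceSubring (s : Finset ℕ) (x : ℕ → niceSubring) :
    ((∑ j ∈ s, x j : niceSubring) : ℍ → ℂ) = ∑ j ∈ s, ((x j : niceSubring) : ℍ → ℂ) := by
  simp

/-- Slash invariance extracted from `IsMF`. -/
theorem IsMF.slash_eq {N : ℕ} {k : ℤ} {g : ℍ → ℂ} (h : IsMF (Γ0 N) k g) :
    ∀ γ ∈ Gamma0 N, g ∣[k] γ = g := by
  obtain ⟨G, rfl⟩ := h
  intro γ hγ
  rw [SL_slash]
  exact SlashInvariantForm.slash_action_eqn G _ (Subgroup.mem_map_of_mem _ hγ)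

theorem IsMF.mdiff {Γ : Subgroup (GL (Fin 2) ℝ)} {k : ℤ} {g : ℍ → ℂ} (h : IsMF Γ k g) :
    MDiff g := by
  obtain ⟨G, rfl⟩ := h
  exact G.holo'

theorem IsCF.continuous {Γ : Subgroup (GL (Fin 2) ℝ)} {k : ℤ} {g : ℍ → ℂ} (h : IsCF Γ k g) :
    Continuous g := h.isMF.mdiff.continuous

theorem IsCF.isZeroAtImInfty_slash {k : ℤ} {g : ℍ → ℂ} (h : IsCF 𝒮ℒ k g) (γ : SL(2, ℤ)) :
    IsZeroAtImInfty (g ∣[k] γ) := by
  obtain ⟨G, rfl⟩ := h
  exact CuspFormClass.zero_at_infty_slash G γ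

/-- **Chunk (5).**  The twist of a weight two cusp form of level `Γ₀(N)`, from the algebraic
data of chunks (3), (4). -/
theorem exists_conj_of_data (N : ℕ) [NeZero N] {kt : ℤ} (t : ModularForm (Gamma0 N) kt)
    (htq : ∀ σ : ℂ ≃+* ℂ, twistPS σ (qExpansion 1 t) = qExpansion 1 t)
    (σ : ℂ ≃+* ℂ) (f : CuspForm (Gamma0 N) 2)
    (m : ℕ) (d r a : ℕ → ℍ → ℂ) (hm : 0 < m)
    (hd : ∀ j < m, IsMF 𝒮ℒ (kt * ((m : ℤ) - 1 - j)) (d j))
    (hr : ∀ j < m, IsCF 𝒮ℒ (2 + kt * ((m : ℤ) - 1 - j)) (r j))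
    (ha : ∀ j < m, IsCF 𝒮ℒ (2 * ((m : ℤ) - j)) (a j))
    (hD0 : ∑ j ∈ range m, d j * ⇑t ^ j ≠ 0)
    (H1 : ⇑f * ∑ j ∈ range m, d j * ⇑t ^ j = ∑ j ∈ range m, r j * ⇑t ^ j)
    (H2 : ⇑f ^ m + ∑ j ∈ range m, a j * ⇑f ^ j = 0) :
    ∃ F : CuspForm (Gamma0 N) 2, qExpansion 1 F = twistPS σ (qExpansion 1 f) := by
  obtain ⟨dR, dR', hdR, hdR', hdq⟩ := exists_twist_family σ m _ d hd
  obtain ⟨rR, rR', hrR, hrR', hrq⟩ := exists_twist_family_cusp σ m _ r hr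
  obtain ⟨aR, aR', haR, haR', haq⟩ := exists_twist_family_cusp σ m _ a ha
  have hΓ := one_mem_strictPeriods_Γ0 N
  have htMF : IsMF (Γ0 N) kt ⇑t := ⟨t, rfl⟩
  have hfCF : IsCF (Γ0 N) 2 ⇑f := ⟨f, rfl⟩
  let tR : niceSubring := ⟨⇑t, htMF.isNice hΓ⟩
  let fR : niceSubring := ⟨⇑f, hfCF.isNice hΓ⟩
  -- the hypotheses of `formal_twist`
  have H1R : fR * ∑ j ∈ range m, dR j * tR ^ j = ∑ j ∈ range m, rR j * tR ^ j := by
    apply Subtype.ext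
    rw [Subring.coe_mul, coe_sum_niceSubring, coe_sum_niceSubring]
    have e1 : ∀ j ∈ range m, ((dR j * tR ^ j : niceSubring) : ℍ → ℂ) = d j * ⇑t ^ j := by
      intro j hj
      rw [Subring.coe_mul, Subring.coe_pow, hdR j (mem_range.mp hj)]
    have e2 : ∀ j ∈ range m, ((rR j * tR ^ j : niceSubring) : ℍ → ℂ) = r j * ⇑t ^ j := by
      intro j hj
      rw [Subring.coe_mul, Subring.coe_pow, hrR j (mem_range.mp hj)]
    rw [sum_congr rfl e1, sum_congr rfl e2]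
    exact H1
  have H2R : fR ^ m + ∑ j ∈ range m, aR j * fR ^ j = 0 := by
    apply Subtype.ext
    rw [Subring.coe_add, Subring.coe_pow, coe_sum_niceSubring]
    have e1 : ∀ j ∈ range m, ((aR j * fR ^ j : niceSubring) : ℍ → ℂ) = a j * ⇑f ^ j := by
      intro j hj
      rw [Subring.coe_mul, Subring.coe_pow, haR j (mem_range.mp hj)]
    rw [sum_congr rfl e1]
    exact H2
  have H3R : ∑ j ∈ range m, dR j * tR ^ j ≠ 0 := by
    intro h0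
    apply hD0
    have h1 := congrArg (Subtype.val) h0
    rw [coe_sum_niceSubring] at h1
    have e1 : ∀ j ∈ range m, ((dR j * tR ^ j : niceSubring) : ℍ → ℂ) = d j * ⇑t ^ j := by
      intro j hj
      rw [Subring.coe_mul, Subring.coe_pow, hdR j (mem_range.mp hj)]
    rw [sum_congr rfl e1] at h1
    exact h1
  obtain ⟨hD'0, hrel, hfin⟩ := formal_twist qExpHom qExpHom_injective
    (PowerSeries.map (σ : ℂ →+* ℂ)) (PowerSeries.map_injective _ σ.injective) m m fR tR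
    dR rR aR dR' rR' aR' (htq σ) hdq hrq haq H1R H2R H3R
  -- the twisted numerator and denominator
  obtain ⟨DR', hDR'⟩ : ∃ DR' : niceSubring, DR' = ∑ j ∈ range m, dR' j * tR ^ j := ⟨_, rfl⟩
  obtain ⟨GR', hGR'⟩ : ∃ GR' : niceSubring, GR' = ∑ j ∈ range m, rR' j * tR ^ j := ⟨_, rfl⟩
  rw [← hDR', ← hGR'] at hrel hfin
  rw [← hDR'] at hD'0
  have hDMF : IsMF (Γ0 N) (kt * ((m : ℤ) - 1)) (DR' : ℍ → ℂ) := by
    rw [hDR', coe_sum_niceSubring]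
    refine IsMF.sum _ fun j hj => ?_
    have h1 := ((hdR' j (mem_range.mp hj)).mono (Γ0_le_SL N)).mul (htMF.pow j)
    exact IsMF.weight_cast (by ring) h1
  have hGCF : IsCF (Γ0 N) (2 + kt * ((m : ℤ) - 1)) (GR' : ℍ → ℂ) := by
    rw [hGR', coe_sum_niceSubring]
    refine IsCF.sum _ fun j hj => ?_
    have h1 := ((hrR' j (mem_range.mp hj)).mono (Γ0_le_SL N)).mul_isMF (htMF.pow j)
    exact IsCF.weight_cast (by ring) h1
  have hD0' : (DR' : ℍ → ℂ) ≠ 0 := fun h => hD'0 (Subtype.ext h)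
  have hrel' : ∀ τ : ℍ, (GR' : ℍ → ℂ) τ ^ m + ∑ j ∈ range m,
      ((aR' j : niceSubring) : ℍ → ℂ) τ * (DR' : ℍ → ℂ) τ ^ (m - j) * (GR' : ℍ → ℂ) τ ^ j = 0 := by
    intro τ
    have h1 := congrFun (congrArg Subtype.val hrel) τ
    simpa using h1
  obtain ⟨F, hF⟩ := exists_cuspForm_mul_eq (Γ := Gamma0 N) (k := 2)
    (kD := kt * ((m : ℤ) - 1)) (kG := 2 + kt * ((m : ℤ) - 1)) rfl hm
    hGCF.isMF.mdiff hDMF.mdiff hD0' hGCF.isMF.slash_eq hDMF.slash_eq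
    (fun j => ((aR' j : niceSubring) : ℍ → ℂ))
    (fun j hj => (haR' j hj).continuous)
    (fun j hj γ => (haR' j hj).isZeroAtImInfty_slash γ) hrel'
  refine ⟨F, ?_⟩
  have hFCF : IsCF (Γ0 N) 2 ⇑F := ⟨F, rfl⟩
  let FR : niceSubring := ⟨⇑F, hFCF.isNice hΓ⟩
  have hFR : FR * DR' = GR' := Subtype.ext (funext hF)
  exact hfin FR hFR

end

end Fermat.Agent.S23
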