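import Mathlib

set_option autoImplicit false

/-!
Field automorphisms of an algebraically closed field of characteristic zero:
the fixed field of the full automorphism group is `ℚ`, and the resulting rational descent for
finite dimensional spaces of coefficient sequences.
-/

namespace Fermat.Agent.S23

open MvPolynomial

section Ext

variable {F K : Type*} [Field F] [Field K] [Algebra F K] [IsAlgClosed K]
  {ι : Type*} {v : ι → K}

/-- Any ring automorphism of the polynomial ring on a transcendence basis extends to an
automorphism of the algebraically closed field. -/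
theorem exists_ringEquiv_extending (hv : IsTranscendenceBasis F v)
    (e : MvPolynomial ι F ≃+* MvPolynomial ι F) :
    ∃ σ : K ≃+* K, ∀ p : MvPolynomial ι F, σ (aeval v p) = aeval v (e p) := by
  let _ := IsAlgClosed.isAlgClosure_of_transcendence_basis v hv
  let E := hv.1.aevalEquiv
  let e' : Algebra.adjoin F (Set.range v) ≃+* Algebra.adjoin F (Set.range v) :=
    (E.symm.toRingEquiv.trans e).trans E.toRingEquiv
  refine ⟨IsAlgClosure.equivOfEquiv K K e', fun p => ?_⟩
  have h1 : ∀ q : MvPolynomial ι F,
      aeval v q = algebraMap (Algebra.adjoin F (Set.range v)) K (E q) :=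
    fun q => (hv.1.algebraMap_aevalEquiv q).symm
  rw [h1, IsAlgClosure.equivOfEquiv_algebraMap, h1]
  congr 1
  simp [e', E]

end Ext

section Fixed

variable {K : Type*} [Field K] [CharZero K] [IsAlgClosed K]

/-- A transcendental element is moved by some field automorphism. -/
theorem exists_ringEquiv_ne_of_transcendental (z : K) (hz : Transcendental ℚ z) :
    ∃ σ : K ≃+* K, σ z ≠ z := by
  classical
  have hind : AlgebraicIndepOn ℚ id ({z} : Set K) := by
    have : AlgebraicIndependent ℚ (fun x : ({z} : Set K) => (x : K)) := by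
      rw [algebraicIndependent_singleton_iff (⟨z, rfl⟩ : ({z} : Set K))]
      exact hz
    exact this
  obtain ⟨t, hzt, ht⟩ := exists_isTranscendenceBasis_superset hind
  let i₀ : t := ⟨z, hzt rfl⟩
  let f : MvPolynomial t ℚ →ₐ[ℚ] MvPolynomial t ℚ :=
    aeval fun i => if i = i₀ then X i + 1 else X i
  let g : MvPolynomial t ℚ →ₐ[ℚ] MvPolynomial t ℚ :=
    aeval fun i => if i = i₀ then X i - 1 else X i
  have hfg : f.comp g = AlgHom.id ℚ _ := by
    apply MvPolynomial.algHom_ext
    intro i
    by_cases hi : i = i₀
    · simp [f, g, hi]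
    · simp [f, g, hi]
  have hgf : g.comp f = AlgHom.id ℚ _ := by
    apply MvPolynomial.algHom_ext
    intro i
    by_cases hi : i = i₀
    · simp [f, g, hi]
    · simp [f, g, hi]
  let e : MvPolynomial t ℚ ≃+* MvPolynomial t ℚ := (AlgEquiv.ofAlgHom f g hfg hgf).toRingEquiv
  obtain ⟨σ, hσ⟩ := exists_ringEquiv_extending ht e
  refine ⟨σ, ?_⟩
  have h1 : σ z = z + 1 := by
    have := hσ (X i₀)
    simpa [e, f, i₀] using this
  rw [h1]
  simp

/-- An algebraic irrational element is moved by some field automorphism. -/
theorem exists_ringEquiv_ne_of_isAlgebraic (z : K) (hz : IsAlgebraic ℚ z)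
    (hq : z ∉ Set.range (algebraMap ℚ K)) : ∃ σ : K ≃+* K, σ z ≠ z := by
  classical
  let Qb : IntermediateField ℚ K := algebraicClosure ℚ K
  have hzQ : z ∈ Qb := mem_algebraicClosure_iff.2 hz
  let z' : Qb := ⟨z, hzQ⟩
  have hgal : IsGalois ℚ Qb := by
    have : IsAlgClosure ℚ (algebraicClosure ℚ K) := algebraicClosure.isAlgClosure ℚ K
    exact (inferInstance : IsGalois ℚ (algebraicClosure ℚ K))
  have hz' : z' ∉ Set.range (algebraMap ℚ Qb) := by
    rintro ⟨q, hq'⟩
    exact hq ⟨q, by simpa [z'] using congrArg (fun x : Qb => (x : K)) hq'⟩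
  have hmove : ∃ τ : Qb ≃ₐ[ℚ] Qb, τ z' ≠ z' := by
    by_contra hcon
    push Not at hcon
    exact hz' ((InfiniteGalois.mem_range_algebraMap_iff_fixed z').mpr hcon)
  obtain ⟨τ, hτ⟩ := hmove
  obtain ⟨ι, v, hv⟩ := exists_isTranscendenceBasis' Qb K
  obtain ⟨σ, hσ⟩ := exists_ringEquiv_extending hv (MvPolynomial.mapEquiv ι τ.toRingEquiv)
  refine ⟨σ, ?_⟩
  have h1 : σ z = ((τ z' : Qb) : K) := by
    have := hσ (C z')
    simpa [z'] using this
  rw [h1]
  intro h
  exact hτ (Subtype.ext h)

/-- The fixed field of the full automorphism group of an algebraically closed field of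
characteristic zero is `ℚ`. -/
theorem mem_range_of_forall_ringEquiv (z : K) (h : ∀ σ : K ≃+* K, σ z = z) :
    z ∈ Set.range (algebraMap ℚ K) := by
  by_contra hq
  by_cases hz : IsAlgebraic ℚ z
  · obtain ⟨σ, hσ⟩ := exists_ringEquiv_ne_of_isAlgebraic z hz hq
    exact hσ (h σ)
  · obtain ⟨σ, hσ⟩ := exists_ringEquiv_ne_of_transcendental z hz
    exact hσ (h σ)

end Fixed

section Descent

open Module

variable {K : Type*} [Field K] [CharZero K] [IsAlgClosed K]
  {V : Type*} [AddCommGroup V] [Module K V] [FiniteDimensional K V] {ι : Type*}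

omit [CharZero K] [IsAlgClosed K] in
/-- Coordinate functionals of an injective coefficient map span the dual space. -/
theorem span_coord_eq_top (c : V →ₗ[K] (ι → K)) (hc : Function.Injective c) :
    Submodule.span K (Set.range fun n : ι => (LinearMap.proj n : (ι → K) →ₗ[K] K).comp c) =
      (⊤ : Submodule K (Dual K V)) := by
  set U : Subspace K (Dual K V) :=
    Submodule.span K (Set.range fun n : ι => (LinearMap.proj n : (ι → K) →ₗ[K] K).comp c) with hU
  have hco : U.dualCoannihilator = ⊥ := by
    rw [eq_bot_iff]
    intro x hx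
    rw [Submodule.mem_dualCoannihilator] at hx
    rw [Submodule.mem_bot]
    apply hc
    rw [map_zero]
    funext n
    exact hx _ (Submodule.subset_span ⟨n, rfl⟩)
  have h := Subspace.dualCoannihilator_dualAnnihilator_eq (W := U)
  rw [hco, Submodule.dualAnnihilator_bot] at h
  exact h.symm

/-- **Rational descent.**  Let `c : V → (ι → K)` be an injective coefficient map on a finite
dimensional space over an algebraically closed field of characteristic zero, whose image is
stable under all field automorphisms acting on coefficients.  Then `V` is spanned by the vectors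
all of whose coefficients are rational. -/
theorem span_rational_eq_top (c : V →ₗ[K] (ι → K)) (hc : Function.Injective c)
    (hσ : ∀ σ : K ≃+* K, ∀ f : V, ∃ f' : V, ∀ n, c f' n = σ (c f n)) :
    Submodule.span K {f : V | ∀ n, c f n ∈ Set.range (algebraMap ℚ K)} = ⊤ := by
  classical
  set ℓ : ι → Dual K V := fun n => (LinearMap.proj n : (ι → K) →ₗ[K] K).comp c with hℓ
  have hℓapp : ∀ n f, ℓ n f = c f n := fun n f => rfl
  have hspan : Submodule.span K (Set.range ℓ) = ⊤ := span_coord_eq_top c hc
  obtain ⟨b, hb_sub, hb_span, hb_li⟩ := exists_linearIndependent K (Set.range ℓ)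
  have hb_top : ⊤ ≤ Submodule.span K (Set.range ((↑) : b → Dual K V)) := by
    rw [Subtype.range_coe, hb_span, hspan]
  let β : Basis b K (Dual K V) := Basis.mk hb_li hb_top
  have hβ : ∀ i : b, β i = (i : Dual K V) := fun i => by simp [β]
  have : Finite b := Module.Finite.finite_basis β
  let _ : Fintype b := Fintype.ofFinite b
  -- each basis functional is a coordinate functional
  have hn : ∀ i : b, ∃ n : ι, ℓ n = (i : Dual K V) := fun i => hb_sub i.2
  choose n hn using hn
  -- the dual basis of `V`
  let γ : Basis b K V := β.dualBasis.map (evalEquiv K V).symm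
  have hγ : ∀ i j : b, β i (γ j) = if i = j then 1 else 0 := by
    intro i j
    simp only [γ, Basis.map_apply, apply_evalEquiv_symm_apply, Basis.dualBasis_apply_self]
  -- a vector is determined by the values of the basis functionals
  have hsep : ∀ g g' : V, (∀ i : b, β i g = β i g') → g = g' := by
    intro g g' h
    apply (evalEquiv K V).injective
    apply β.ext
    intro i
    simpa using h i
  -- the dual basis vectors have rational coefficients
  have hrat : ∀ j : b, ∀ m, c (γ j) m ∈ Set.range (algebraMap ℚ K) := by
    intro j m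
    apply mem_range_of_forall_ringEquiv
    intro σ
    obtain ⟨g, hg⟩ := hσ σ (γ j)
    have hgeq : g = γ j := by
      apply hsep
      intro i
      rw [hβ i, ← hn i, hℓapp, hg, ← hℓapp, hn i, ← hβ i, hγ]
      split_ifs <;> simp
    rw [← hg m, hgeq]
  rw [eq_top_iff, ← γ.span_eq]
  apply Submodule.span_mono
  rintro _ ⟨j, rfl⟩
  exact hrat j

end Descent

end Fermat.Agent.S23
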