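import Mathlib
import Fermat.Prelude.Def_CuspForm_IntegralStructure
import Fermat.Prelude.Def_CuspForm_HeckeAlgebra
import Fermat.Agent.S22
import Fermat.Agent.S49.Normalize
import Fermat.Agent.S49.ModThree
import Fermat.Agent.S23.AutC
import Fermat.Prelude.Thm_ModularForm_sturm_bound_Gamma0

set_option autoImplicit false

/-!
Bounded denominators: a weight two cusp form on `Γ₀(N)` with rational `q`-coefficients has a
nonzero integer multiple with integral coefficients (the Hecke algebra is a finitely generated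
`ℤ`-module).  Hence a rational spanning set gives the integral structure.
-/

namespace Fermat.Agent.S23

open CongruenceSubgroup ModularFormClass CuspForm
open Fermat.Agent.S49.Normalize Fermat.Agent.S49.ModThree

variable {N : ℕ} [NeZero N]

/-- All `q`-coefficients are rational. -/
def IsRat (g : CuspForm (Gamma0 N) 2) : Prop :=
  ∀ n : ℕ, qCoeff (⇑g) n ∈ Set.range (algebraMap ℚ ℂ)

omit [NeZero N] in
theorem IsRat.add {f g : CuspForm (Gamma0 N) 2} (hf : IsRat f) (hg : IsRat g) : IsRat (f + g) := by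
  intro n
  obtain ⟨a, ha⟩ := hf n
  obtain ⟨b, hb⟩ := hg n
  exact ⟨a + b, by rw [qCoeff_add', ← ha, ← hb, map_add]⟩

omit [NeZero N] in
theorem IsRat.smul_rat {f : CuspForm (Gamma0 N) 2} (hf : IsRat f) (c : ℚ) :
    IsRat ((c : ℂ) • f) := by
  intro n
  obtain ⟨a, ha⟩ := hf n
  exact ⟨c * a, by rw [qCoeff_smul', ← ha, map_mul]; rfl⟩

omit [NeZero N] in
theorem qCoeff_zero_form (n : ℕ) : qCoeff (⇑(0 : CuspForm (Gamma0 N) 2)) n = 0 := by
  unfold qCoeff
  rw [FunLike.coe_zero, UpperHalfPlane.qExpansion_zero]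
  simp

omit [NeZero N] in
theorem isRat_zero : IsRat (0 : CuspForm (Gamma0 N) 2) := by
  intro n
  exact ⟨0, by rw [qCoeff_zero_form]; simp⟩

/-- Hecke operators preserve rationality of the coefficients. -/
theorem IsRat.hecke {S : Set ℕ} {t : Module.End ℂ (CuspForm (Gamma0 N) 2)}
    (ht : t ∈ CuspForm.heckeAlgebra N 2 S) :
    ∀ {g : CuspForm (Gamma0 N) 2}, IsRat g → IsRat (t g) := by
  unfold CuspForm.heckeAlgebra at ht
  induction ht using Algebra.adjoin_induction with
  | mem x hx =>
    intro g hg n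
    rcases hx with ⟨ℓ, hℓ, hℓN, -, rfl⟩ | ⟨q, hqN, hq, -, rfl⟩
    · rw [qCoeff_heckeTLin g hℓ hℓN n]
      obtain ⟨a, ha⟩ := hg (n * ℓ)
      obtain ⟨b, hb⟩ := hg (n / ℓ)
      split_ifs
      · exact ⟨a + ℓ * b, by rw [← ha, ← hb]; simp⟩
      · exact ⟨a, by rw [← ha]; simp⟩
    · rw [qCoeff_heckeULin g hq hqN n]
      exact hg _
  | algebraMap r =>
    intro g hg
    have : (algebraMap ℤ (Module.End ℂ (CuspForm (Gamma0 N) 2)) r) g = ((r : ℚ) : ℂ) • g := by
      rw [Module.algebraMap_end_apply, ← Int.cast_smul_eq_zsmul ℂ r g]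
      push_cast
      rfl
    rw [this]
    exact hg.smul_rat r
  | add x y _ _ hx hy =>
    intro g hg
    rw [LinearMap.add_apply]
    exact (hx hg).add (hy hg)
  | mul x y _ _ hx hy =>
    intro g hg
    rw [Module.End.mul_apply]
    exact hx (hy hg)

/-- The full Hecke algebra of weight two and level `N`. -/
abbrev fullHecke (N : ℕ) [NeZero N] := CuspForm.heckeAlgebra N 2 (∅ : Set ℕ)

/-- A common denominator for the first coefficients of all Hecke translates of a rational form. -/
theorem exists_denominator_one (f : CuspForm (Gamma0 N) 2) (hf : IsRat f) :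
    ∃ M : ℤ, M ≠ 0 ∧ ∀ t : fullHecke N, ∃ m : ℤ,
      (M : ℂ) * qCoeff (⇑((t : Module.End ℂ (CuspForm (Gamma0 N) 2)) f)) 1 = m := by
  classical
  have : Module.Finite ℤ (fullHecke N) := Fermat.Agent.S22.result N 2 ∅
  obtain ⟨s, hs⟩ := (Module.Finite.fg_top : (⊤ : Submodule ℤ (fullHecke N)).FG)
  -- rational values of the first coefficient on the generators
  have hr : ∀ t : fullHecke N, ∃ r : ℚ,
      qCoeff (⇑((t : Module.End ℂ (CuspForm (Gamma0 N) 2)) f)) 1 = (r : ℂ) := by
    intro t
    obtain ⟨r, hr⟩ := (IsRat.hecke t.2 hf) 1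
    exact ⟨r, hr.symm⟩
  choose r hr using hr
  refine ⟨∏ t ∈ s, ((r t).den : ℤ), ?_, ?_⟩
  · exact Finset.prod_ne_zero_iff.2 fun t _ => by exact_mod_cast (r t).den_ne_zero
  · intro t
    have ht : t ∈ Submodule.span ℤ (s : Set (fullHecke N)) := by rw [hs]; trivial
    induction ht using Submodule.span_induction with
    | mem x hx =>
      rw [hr x]
      have hdvd : ((r x).den : ℤ) ∣ ∏ t ∈ s, ((r t).den : ℤ) := Finset.dvd_prod_of_mem _ hx
      obtain ⟨c, hc⟩ := hdvd
      refine ⟨c * (r x).num, ?_⟩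
      rw [hc]
      have h1 : ((r x : ℚ) : ℂ) = ((r x).num : ℂ) / ((r x).den : ℂ) := by
        conv_lhs => rw [← Rat.num_div_den (r x)]
        push_cast
        rfl
      have h2 : ((r x).den : ℂ) ≠ 0 := by exact_mod_cast (r x).den_ne_zero
      rw [h1]
      push_cast
      field_simp
    | zero =>
      refine ⟨0, ?_⟩
      rw [ZeroMemClass.coe_zero, LinearMap.zero_apply, qCoeff_zero_form]
      simp
    | add x y _ _ hx hy =>
      obtain ⟨a, ha⟩ := hx
      obtain ⟨b, hb⟩ := hy
      refine ⟨a + b, ?_⟩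
      rw [Subalgebra.coe_add, LinearMap.add_apply, qCoeff_add', mul_add, ha, hb]
      push_cast
      rfl
    | smul c x _ hx =>
      obtain ⟨a, ha⟩ := hx
      refine ⟨c * a, ?_⟩
      have : ((c • x : fullHecke N) : Module.End ℂ (CuspForm (Gamma0 N) 2)) f =
          ((c : ℂ)) • ((x : Module.End ℂ (CuspForm (Gamma0 N) 2)) f) := by
        rw [Subalgebra.coe_smul, LinearMap.smul_apply, Int.cast_smul_eq_zsmul]
      rw [this, qCoeff_smul', mul_left_comm, ha]
      push_cast
      rfl

/-- **Bounded denominators.** A form with rational coefficients has a nonzero integer multiple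
with integral coefficients. -/
theorem exists_denominator (f : CuspForm (Gamma0 N) 2) (hf : IsRat f) :
    ∃ M : ℤ, M ≠ 0 ∧ IsInt ((M : ℂ) • f) := by
  obtain ⟨M, hM0, hM1⟩ := exists_denominator_one f hf
  refine ⟨M, hM0, ?_⟩
  have key : ∀ n : ℕ, ∀ t : fullHecke N, ∃ m : ℤ,
      (M : ℂ) * qCoeff (⇑((t : Module.End ℂ (CuspForm (Gamma0 N) 2)) f)) n = m := by
    intro n
    induction n using Nat.strong_induction_on with
    | _ n ih =>
      intro t
      rcases Nat.lt_or_ge n 2 with hn | hn
      · interval_cases n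
        · exact ⟨0, by rw [qCoeff_zero_cuspForm]; simp⟩
        · exact hM1 t
      · set ℓ := n.minFac with hℓdef
        have hℓ : ℓ.Prime := Nat.minFac_prime (by omega)
        have hdvd : ℓ ∣ n := Nat.minFac_dvd n
        set m' := n / ℓ with hm'
        have hn_eq : m' * ℓ = n := Nat.div_mul_cancel hdvd
        have hm'_lt : m' < n := Nat.div_lt_self (by omega) hℓ.one_lt
        by_cases hℓN : ℓ ∣ N
        · let t' : fullHecke N := heckeAlgebra.U hℓ hℓN (Set.notMem_empty ℓ) * t
          obtain ⟨m, hm⟩ := ih m' hm'_lt t'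
          refine ⟨m, ?_⟩
          rw [← hm]
          congr 1
          simp only [t', MulMemClass.coe_mul, heckeAlgebra.coe_U, Module.End.mul_apply]
          rw [qCoeff_heckeULin _ hℓ hℓN m', hn_eq]
        · let t' : fullHecke N := heckeAlgebra.T hℓ hℓN (Set.notMem_empty ℓ) * t
          obtain ⟨m₁, hm₁⟩ := ih m' hm'_lt t'
          have hT : qCoeff (⇑((t' : Module.End ℂ (CuspForm (Gamma0 N) 2)) f)) m' =
              qCoeff (⇑((t : Module.End ℂ (CuspForm (Gamma0 N) 2)) f)) n +
                if ℓ ∣ m' then (ℓ : ℂ) *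
                  qCoeff (⇑((t : Module.End ℂ (CuspForm (Gamma0 N) 2)) f)) (m' / ℓ) else 0 := by
            simp only [t', MulMemClass.coe_mul, heckeAlgebra.coe_T, Module.End.mul_apply]
            rw [qCoeff_heckeTLin _ hℓ hℓN m', hn_eq]
          by_cases hdm : ℓ ∣ m'
          · have hlt2 : m' / ℓ < n := lt_of_le_of_lt (Nat.div_le_self _ _) hm'_lt
            obtain ⟨m₂, hm₂⟩ := ih (m' / ℓ) hlt2 t
            rw [if_pos hdm] at hT
            refine ⟨m₁ - ℓ * m₂, ?_⟩
            have : (M : ℂ) * qCoeff (⇑((t : Module.End ℂ (CuspForm (Gamma0 N) 2)) f)) n =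
                (M : ℂ) * qCoeff (⇑((t' : Module.End ℂ (CuspForm (Gamma0 N) 2)) f)) m' -
                  (ℓ : ℂ) * ((M : ℂ) *
                    qCoeff (⇑((t : Module.End ℂ (CuspForm (Gamma0 N) 2)) f)) (m' / ℓ)) := by
              rw [hT]; ring
            rw [this, hm₁, hm₂]
            push_cast
            rfl
          · rw [if_neg hdm, add_zero] at hT
            exact ⟨m₁, by rw [← hT, hm₁]⟩
  intro n
  obtain ⟨m, hm⟩ := key n 1
  refine ⟨m, ?_⟩
  rw [qCoeff_smul', ← hm]
  simp

/-- A rational spanning set gives the integral structure. -/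
theorem hasIntegralStructure_of_span_isRat
    (h : Submodule.span ℂ {f : CuspForm (Gamma0 N) 2 | IsRat f} = ⊤) :
    CuspForm.HasIntegralStructure N 2 := by
  unfold CuspForm.HasIntegralStructure
  rw [eq_top_iff, ← h, Submodule.span_le]
  intro f hf
  obtain ⟨M, hM0, hMf⟩ := exists_denominator f hf
  have hMC : (M : ℂ) ≠ 0 := by exact_mod_cast hM0
  have : f = ((M : ℂ)⁻¹) • ((M : ℂ) • f) := by
    rw [smul_smul, inv_mul_cancel₀ hMC, one_smul]
  rw [this]
  exact Submodule.smul_mem _ _ (Submodule.subset_span ((mem_intLattice_iff _).mpr hMf))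

section Glue

omit [NeZero N] in
/-- The coefficient map as a linear map. -/
noncomputable def coeffLin (N : ℕ) : CuspForm (Gamma0 N) 2 →ₗ[ℂ] (ℕ → ℂ) where
  toFun f n := qCoeff (⇑f) n
  map_add' f g := by funext n; exact qCoeff_add' f g n
  map_smul' c f := by funext n; exact qCoeff_smul' c f n

omit [NeZero N] in
@[simp] theorem coeffLin_apply (f : CuspForm (Gamma0 N) 2) (n : ℕ) :
    coeffLin N f n = qCoeff (⇑f) n := rfl

omit [NeZero N] in
theorem coeffLin_injective : Function.Injective (coeffLin N) := by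
  rw [← LinearMap.ker_eq_bot, LinearMap.ker_eq_bot']
  intro f hf
  apply cuspForm_eq_zero_of_qCoeff
  intro n
  have := congrFun hf n
  simpa using this

/-- Weight two cusp forms on `Γ₀(N)` form a finite dimensional space (Sturm bound). -/
theorem finiteDimensional_cuspForm : FiniteDimensional ℂ (CuspForm (Gamma0 N) 2) := by
  set B : ℕ := ((2 : ℤ) * (Gamma0 N).index).toNat / 12 with hB
  let c : CuspForm (Gamma0 N) 2 →ₗ[ℂ] (Fin (B + 1) → ℂ) :=
    (LinearMap.funLeft ℂ ℂ (fun i : Fin (B + 1) => (i : ℕ))).comp (coeffLin N)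
  have hc : Function.Injective c := by
    rw [← LinearMap.ker_eq_bot, LinearMap.ker_eq_bot']
    intro f hf
    have hF : (ModularFormClass.modularForm f : ModularForm (Gamma0 N) 2) = 0 := by
      apply ModularForm.sturm_bound_Gamma0 N
      intro n hn
      have := congrFun hf ⟨n, Nat.lt_succ_of_le hn⟩
      simpa [c, LinearMap.funLeft_apply, qCoeff] using this
    ext z
    have := DFunLike.congr_fun hF z
    simpa using this
  exact FiniteDimensional.of_injective c hc

/-- **Plan Q, final glue.**  If the space of weight two cusp forms on `Γ₀(N)` is stable under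
all automorphisms of `ℂ` acting on `q`-coefficients, then it has an integral structure. -/
theorem hasIntegralStructure_of_twist
    (htw : ∀ σ : ℂ ≃+* ℂ, ∀ f : CuspForm (Gamma0 N) 2, ∃ f' : CuspForm (Gamma0 N) 2,
      ∀ n, qCoeff (⇑f') n = σ (qCoeff (⇑f) n)) :
    CuspForm.HasIntegralStructure N 2 := by
  have := finiteDimensional_cuspForm (N := N)
  apply hasIntegralStructure_of_span_isRat
  exact span_rational_eq_top (coeffLin N) coeffLin_injective htw

end Glue

end Fermat.Agent.S23
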