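import Fermat.Agent.S23.Closure
import Fermat.Prelude.Def_ModularForm_HeckeOperator

set_option autoImplicit false

/-!
# S23, chunk 2: the auxiliary form `t(z) = N³ E₄(N z)` on `Γ₀(N)`.

* `tFun N = E₄ ∣[4] diag(N,1)`, `tFun_apply`, `tFun_isMF`, `tForm`, `coe_tForm`;
* `tendsto_tFun_atImInfty`: `t → N³` at `i∞`;
* `mem_Gamma0_of_slash_tFun`: the stabiliser of `t` in `SL₂(ℤ)` is contained in `Γ₀(N)`
  (Hermite normal form of `diag(N,1) γ` and `E₄ → 1` at `i∞`);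
* `quotientFunc_tForm_eq_iff`: the conjugate `t_q` (`q ∈ SL₂(ℤ)/Γ₀(N)`) equals `t` only for the
  trivial coset.
-/

namespace Fermat.Agent.S23

open UpperHalfPlane ModularForm ModularFormClass MatrixGroups EisensteinSeries CongruenceSubgroup
  Matrix Filter
open scoped Manifold Pointwise Topology

noncomputable section

/-! ### Matrix preliminaries -/

theorem tF_mapGL_apply (γ : SL(2, ℤ)) (i j : Fin 2) :
    (Matrix.SpecialLinearGroup.mapGL ℝ γ : Matrix (Fin 2) (Fin 2) ℝ) i j = ((γ i j : ℤ) : ℝ) := by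
  simp [Matrix.SpecialLinearGroup.mapGL_coe_matrix]

/-- An element of `SL(2, ℤ)` with prescribed entries. -/
theorem tF_exists_SL2_of_det (a b c d : ℤ) (h : a * d - b * c = 1) :
    ∃ δ : SL(2, ℤ), δ 0 0 = a ∧ δ 0 1 = b ∧ δ 1 0 = c ∧ δ 1 1 = d :=
  ⟨⟨!![a, b; c, d], by rw [Matrix.det_fin_two_of]; exact h⟩, rfl, rfl, rfl, rfl⟩

/-- An upper triangular element of `GL(2, ℝ)` with prescribed entries. -/
theorem tF_exists_GL2_upper (a b d : ℝ) (h : a * d ≠ 0) :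
    ∃ β : GL (Fin 2) ℝ, β 0 0 = a ∧ β 0 1 = b ∧ β 1 0 = 0 ∧ β 1 1 = d ∧ β.det.val = a * d :=
  ⟨Matrix.GeneralLinearGroup.mkOfDetNeZero !![a, b; 0, d]
      (by simpa [Matrix.det_fin_two_of] using h),
    rfl, rfl, rfl, rfl, by
      simp [Matrix.GeneralLinearGroup.mkOfDetNeZero, Matrix.det_fin_two_of]⟩

/-- Conjugating `Γ₀(N)` by `diag(N,1)` lands in `SL(2,ℤ)`. -/
theorem exists_mapGL_mul_heckeDiagMatrix (N : ℕ) [NeZero N] (γ : SL(2, ℤ)) (hγ : γ ∈ Gamma0 N) :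
    ∃ δ : SL(2, ℤ), Matrix.SpecialLinearGroup.mapGL ℝ δ * heckeDiagMatrix N
      = heckeDiagMatrix N * Matrix.SpecialLinearGroup.mapGL ℝ γ := by
  rw [Gamma0_mem] at hγ
  obtain ⟨c', hc'⟩ : (N : ℤ) ∣ γ 1 0 := (ZMod.intCast_zmod_eq_zero_iff_dvd _ _).mp hγ
  have hdet : γ 0 0 * γ 1 1 - γ 0 1 * γ 1 0 = 1 := by
    have := γ.det_coe
    rwa [Matrix.det_fin_two] at this
  obtain ⟨δ, h00, h01, h10, h11⟩ := tF_exists_SL2_of_det (γ 0 0) (N * γ 0 1) c' (γ 1 1) (by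
    rw [hc'] at hdet
    linear_combination hdet)
  refine ⟨δ, ?_⟩
  apply Matrix.GeneralLinearGroup.ext
  intro i j
  rw [Matrix.GeneralLinearGroup.coe_mul, Matrix.GeneralLinearGroup.coe_mul,
    Matrix.mul_apply, Matrix.mul_apply, Fin.sum_univ_two, Fin.sum_univ_two]
  simp only [tF_mapGL_apply, val_heckeDiagMatrix (NeZero.ne N)]
  fin_cases i <;> fin_cases j <;>
    simp [hc', mul_comm, h00, h01, h10, h11]

theorem Γ0_le_conj_heckeDiagMatrix (N : ℕ) [NeZero N] :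
    Γ0 N ≤ ConjAct.toConjAct (heckeDiagMatrix N)⁻¹ • 𝒮ℒ := by
  rintro x ⟨γ, hγ, rfl⟩
  rw [Subgroup.mem_pointwise_smul_iff_inv_smul_mem, ← map_inv, inv_inv, ConjAct.smul_def,
    ConjAct.ofConjAct_toConjAct]
  obtain ⟨δ, hδ⟩ := exists_mapGL_mul_heckeDiagMatrix N γ hγ
  exact ⟨δ, by rw [eq_mul_inv_iff_mul_eq]; exact hδ⟩

/-! ### The form `t` -/

/-- `t = E₄ ∣[4] diag(N, 1)`, i.e. `t(z) = N³ E₄(N z)`. -/
def tFun (N : ℕ) : ℍ → ℂ := (⇑E₄ : ℍ → ℂ) ∣[(4 : ℤ)] (ModularForm.heckeDiagMatrix N)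

theorem tFun_apply (N : ℕ) [NeZero N] (z : ℍ) :
    tFun N z = (N : ℂ) ^ 3 * E₄ (ModularForm.heckeDiagMatrix N • z) := by
  rw [tFun, slash_heckeDiagMatrix_apply 4 (NeZero.ne N)]
  norm_num

/-- `t` as a bundled modular form. -/
def tForm (N : ℕ) [NeZero N] : ModularForm (Γ0 N) 4 where
  toFun := tFun N
  slash_action_eq' γ hγ :=
    (ModularForm.translate E₄ (heckeDiagMatrix N)).slash_action_eq' γ
      (Γ0_le_conj_heckeDiagMatrix N hγ)
  holo' := (ModularForm.translate E₄ (heckeDiagMatrix N)).holo'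
  bdd_at_cusps' hc :=
    (ModularForm.translate E₄ (heckeDiagMatrix N)).bdd_at_cusps'
      (hc.mono (Γ0_le_conj_heckeDiagMatrix N))

@[simp] theorem coe_tForm (N : ℕ) [NeZero N] : ⇑(tForm N) = tFun N := rfl

theorem tFun_isMF (N : ℕ) [NeZero N] : IsMF (Γ0 N) 4 (tFun N) := ⟨tForm N, rfl⟩

/-! ### Behaviour at `i∞` of slashes by upper triangular matrices -/

/-- Slash action by an upper triangular matrix of positive determinant, pointwise. -/
theorem slash_upper_apply (f : ℍ → ℂ) (k : ℤ) (g : GL (Fin 2) ℝ) (hg : g 1 0 = 0)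
    (hdet : 0 < g.det.val) (τ : ℍ) :
    (f ∣[k] g) τ = f (g • τ) * ((g.det.val : ℝ) : ℂ) ^ (k - 1) * ((g 1 1 : ℝ) : ℂ) ^ (-k) := by
  rw [ModularForm.slash_apply]
  have hσ : σ g = ContinuousAlgEquiv.refl ℝ ℂ := by rw [σ, if_pos hdet]
  rw [hσ, abs_of_pos hdet]
  simp [denom, hg]

theorem im_smul_upper (g : GL (Fin 2) ℝ) (hg : g 1 0 = 0) (τ : ℍ) :
    (g • τ).im = |g.det.val| / (g 1 1) ^ 2 * τ.im := by
  rw [UpperHalfPlane.im_smul_eq_div_normSq]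
  simp [denom, hg, Complex.normSq_apply]
  ring

theorem tendsto_smul_upper_atImInfty (g : GL (Fin 2) ℝ) (hg : g 1 0 = 0) :
    Tendsto (fun τ : ℍ => g • τ) atImInfty atImInfty := by
  rw [atImInfty, tendsto_comap_iff]
  have hd : g.det.val ≠ 0 := g.det_ne_zero
  have h11 : g 1 1 ≠ 0 := by
    intro h
    rw [Matrix.GeneralLinearGroup.val_det_apply, Matrix.det_fin_two, hg, h] at hd
    simp at hd
  have hc : 0 < |g.det.val| / (g 1 1) ^ 2 := by
    positivity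
  have : (UpperHalfPlane.im ∘ fun τ : ℍ => g • τ) =
      fun τ : ℍ => |g.det.val| / (g 1 1) ^ 2 * τ.im := by
    funext τ
    exact im_smul_upper g hg τ
  rw [this]
  exact (tendsto_comap (f := UpperHalfPlane.im) (x := atTop)).const_mul_atTop hc

theorem tendsto_slash_upper {f : ℍ → ℂ} {l : ℂ} (hf : Tendsto f atImInfty (𝓝 l)) (k : ℤ)
    (g : GL (Fin 2) ℝ) (hg : g 1 0 = 0) (hdet : 0 < g.det.val) :
    Tendsto (f ∣[k] g) atImInfty
      (𝓝 (l * ((g.det.val : ℝ) : ℂ) ^ (k - 1) * ((g 1 1 : ℝ) : ℂ) ^ (-k))) := by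
  have : (f ∣[k] g) = fun τ => f (g • τ) * ((g.det.val : ℝ) : ℂ) ^ (k - 1) *
      ((g 1 1 : ℝ) : ℂ) ^ (-k) := by
    funext τ
    exact slash_upper_apply f k g hg hdet τ
  rw [this]
  exact ((hf.comp (tendsto_smul_upper_atImInfty g hg)).mul_const _).mul_const _

/-- A level-one modular form tends to the constant term of its `q`-expansion at `i∞`. -/
theorem tendsto_atImInfty_levelOne {k : ℤ} (f : ModularForm 𝒮ℒ k) :
    Tendsto (f : ℍ → ℂ) atImInfty (𝓝 ((qExpansion 1 f).coeff 0)) := by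
  have han := ModularFormClass.analyticAt_cuspFunction_zero f one_pos one_mem_strictPeriods_SL
  have hfun : (f : ℍ → ℂ) =
      fun τ : ℍ => cuspFunction 1 f (Function.Periodic.qParam 1 (τ : ℂ)) := by
    funext τ
    exact (SlashInvariantFormClass.eq_cuspFunction f τ one_mem_strictPeriods_SL one_ne_zero).symm
  have h0 : (qExpansion 1 f).coeff 0 = cuspFunction 1 f 0 := by
    simp [qExpansion_coeff]
  rw [h0]
  conv => enter [1]; rw [hfun]
  exact han.continuousAt.tendsto.comp (UpperHalfPlane.qParam_tendsto_atImInfty one_pos)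

theorem tendsto_E₄_atImInfty : Tendsto (E₄ : ℍ → ℂ) atImInfty (𝓝 1) := by
  have := tendsto_atImInfty_levelOne E₄
  rwa [E_qExpansion_coeff_zero (by norm_num) (by decide)] at this

theorem tendsto_tFun_atImInfty (N : ℕ) [NeZero N] :
    Tendsto (tFun N) atImInfty (𝓝 ((N : ℂ) ^ 3)) := by
  have h := tendsto_slash_upper tendsto_E₄_atImInfty 4 (heckeDiagMatrix N)
    (by simp [val_heckeDiagMatrix (NeZero.ne N)])
    (by rw [det_heckeDiagMatrix (NeZero.ne N)]; exact_mod_cast Nat.pos_of_ne_zero (NeZero.ne N))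
  rw [det_heckeDiagMatrix (NeZero.ne N)] at h
  simpa [tFun, val_heckeDiagMatrix (NeZero.ne N)] using h

/-! ### The stabiliser of `t` -/

/-- Hermite normal form of `diag(N,1) * γ`. -/
theorem tF_exists_hermite (N : ℕ) [NeZero N] (γ : SL(2, ℤ)) :
    ∃ (δ : SL(2, ℤ)) (β : GL (Fin 2) ℝ) (N' : ℤ), 0 < N' ∧ (N' = 1 → (N : ℤ) ∣ γ 1 0) ∧
      β 1 0 = 0 ∧ β 1 1 = (N' : ℝ) ∧ β.det.val = (N : ℝ) ∧
      heckeDiagMatrix N * Matrix.SpecialLinearGroup.mapGL ℝ γ =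
        Matrix.SpecialLinearGroup.mapGL ℝ δ * β := by
  have hdet : γ 0 0 * γ 1 1 - γ 0 1 * γ 1 0 = 1 := by
    have := γ.det_coe
    rwa [Matrix.det_fin_two] at this
  have hN0 : (N : ℤ) ≠ 0 := by exact_mod_cast NeZero.ne N
  have hg0 : 0 < Int.gcd (N : ℤ) (γ 1 0) := Int.gcd_pos_of_ne_zero_left _ hN0
  obtain ⟨N', c', hcop, hN, hc⟩ := Int.exists_gcd_one hg0
  set g₀ : ℤ := (Int.gcd (N : ℤ) (γ 1 0) : ℤ) with hg₀
  have hg0' : 0 < g₀ := by rw [hg₀]; exact_mod_cast hg0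
  have hN'pos : 0 < N' := by
    have : 0 < N' * g₀ := by rw [← hN]; exact_mod_cast Nat.pos_of_ne_zero (NeZero.ne N)
    exact pos_of_mul_pos_left this hg0'.le
  have hcop1 : IsCoprime N' c' := Int.isCoprime_iff_gcd_eq_one.mpr hcop
  have hcop2 : IsCoprime (γ 0 0) c' := by
    have : IsCoprime (γ 0 0) (γ 1 0) := ⟨γ 1 1, -γ 0 1, by linear_combination hdet⟩
    rw [hc] at this
    exact this.of_mul_right_left
  obtain ⟨u, v, huv⟩ := hcop1.mul_left hcop2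
  obtain ⟨δ, h00, h01, h10, h11⟩ := tF_exists_SL2_of_det (N' * γ 0 0) (-v) c' u (by
    linear_combination huv)
  obtain ⟨β, b00, b01, b10, b11, bdet⟩ := tF_exists_GL2_upper (g₀ : ℝ)
    ((u * N * γ 0 1 + v * γ 1 1 : ℤ) : ℝ) (N' : ℝ) (by
      have h1 : (g₀ : ℝ) ≠ 0 := by exact_mod_cast hg0'.ne'
      have h2 : (N' : ℝ) ≠ 0 := by exact_mod_cast hN'pos.ne'
      exact mul_ne_zero h1 h2)
  have hNR : (N : ℝ) = N' * g₀ := by exact_mod_cast hN
  have hcR : ((γ 1 0 : ℤ) : ℝ) = c' * g₀ := by exact_mod_cast hc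
  have hdetR : ((γ 0 0 : ℤ) : ℝ) * (γ 1 1 : ℤ) - (γ 0 1 : ℤ) * (γ 1 0 : ℤ) = 1 := by
    exact_mod_cast hdet
  have huvR : (u : ℝ) * (N' * (γ 0 0 : ℤ)) + v * c' = 1 := by exact_mod_cast huv
  refine ⟨δ, β, N', hN'pos, ?_, b10, b11, ?_, ?_⟩
  · intro h1
    rw [h1, one_mul] at hN
    rw [hN]
    exact Int.gcd_dvd_right _ _
  · rw [bdet]
    have : (N : ℤ) = g₀ * N' := by rw [hN]; ring
    exact_mod_cast this.symm
  · apply Matrix.GeneralLinearGroup.ext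
    intro i j
    rw [Matrix.GeneralLinearGroup.coe_mul, Matrix.GeneralLinearGroup.coe_mul,
      Matrix.mul_apply, Matrix.mul_apply, Fin.sum_univ_two, Fin.sum_univ_two]
    simp only [tF_mapGL_apply, val_heckeDiagMatrix (NeZero.ne N)]
    fin_cases i <;> fin_cases j
    all_goals simp [h00, h01, h10, h11, b00, b01, b10, b11]
    all_goals grind

/-- **Stabiliser of `t`** (`GL(2, ℝ)`-coercion form). -/
theorem mem_Gamma0_of_slash_mapGL_tFun (N : ℕ) [NeZero N] (γ : SL(2, ℤ))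
    (h : tFun N ∣[(4 : ℤ)] (Matrix.SpecialLinearGroup.mapGL ℝ γ) = tFun N) : γ ∈ Gamma0 N := by
  obtain ⟨δ, β, N', hN'pos, hN'1, b10, b11, bdet, hmat⟩ := tF_exists_hermite N γ
  have hNpos : (0 : ℝ) < N := by exact_mod_cast Nat.pos_of_ne_zero (NeZero.ne N)
  have hslash : tFun N ∣[(4 : ℤ)] (Matrix.SpecialLinearGroup.mapGL ℝ γ) =
      (E₄ : ℍ → ℂ) ∣[(4 : ℤ)] β := by
    rw [tFun, ← SlashAction.slash_mul, hmat, SlashAction.slash_mul,
      SlashInvariantFormClass.slash_action_eq E₄ _ (MonoidHom.mem_range.mpr ⟨δ, rfl⟩)]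
  have h1 := tendsto_slash_upper tendsto_E₄_atImInfty 4 β b10 (by rw [bdet]; exact hNpos)
  rw [← hslash, h, bdet, b11] at h1
  have h2 := tendsto_nhds_unique h1 (tendsto_tFun_atImInfty N)
  have hN'R : (N' : ℂ) ^ 4 = 1 := by
    have hNC : (N : ℂ) ≠ 0 := by exact_mod_cast NeZero.ne N
    have hN'C : (N' : ℂ) ≠ 0 := by exact_mod_cast hN'pos.ne'
    simp only [one_mul, Complex.ofReal_natCast, Complex.ofReal_intCast] at h2
    rw [show ((4 : ℤ) - 1) = ((3 : ℕ) : ℤ) by norm_num, zpow_natCast,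
      show (-4 : ℤ) = -((4 : ℕ) : ℤ) by norm_num, _root_.zpow_neg, zpow_natCast] at h2
    field_simp at h2
    exact h2.symm
  have hN'1' : N' = 1 := by
    have h4 : N' ^ 4 = 1 := by exact_mod_cast hN'R
    exact (pow_eq_one_iff_of_nonneg hN'pos.le (by norm_num)).mp h4
  rw [Gamma0_mem]
  exact (ZMod.intCast_zmod_eq_zero_iff_dvd _ _).mpr (hN'1 hN'1')

/-- **Stabiliser of `t`.** An element of `SL(2, ℤ)` fixing `t` under the weight `4` slash action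
lies in `Γ₀(N)`. -/
theorem mem_Gamma0_of_slash_tFun (N : ℕ) [NeZero N] (γ : SL(2, ℤ))
    (h : tFun N ∣[(4 : ℤ)] γ = tFun N) : γ ∈ Gamma0 N :=
  mem_Gamma0_of_slash_mapGL_tFun N γ h

/-- Conversely, `Γ₀(N)` fixes `t`. -/
theorem slash_tFun_of_mem_Gamma0 (N : ℕ) [NeZero N] (γ : SL(2, ℤ)) (hγ : γ ∈ Gamma0 N) :
    tFun N ∣[(4 : ℤ)] γ = tFun N :=
  (tForm N).slash_action_eq' _ (Subgroup.mem_map_of_mem _ hγ)

theorem slash_tFun_eq_iff (N : ℕ) [NeZero N] (γ : SL(2, ℤ)) :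
    tFun N ∣[(4 : ℤ)] γ = tFun N ↔ γ ∈ Gamma0 N :=
  ⟨mem_Gamma0_of_slash_tFun N γ, slash_tFun_of_mem_Gamma0 N γ⟩

/-- The conjugate `t_q` of `t` attached to a coset `q ∈ SL₂(ℤ)/Γ₀(N)` (Mathlib's `quotientFunc`)
equals `t` only for the trivial coset. -/
theorem quotientFunc_tForm_eq_iff (N : ℕ) [NeZero N] (q : 𝒮ℒ ⧸ (Γ0 N).subgroupOf 𝒮ℒ) :
    SlashInvariantForm.quotientFunc (tForm N) q = tFun N ↔ q = QuotientGroup.mk 1 := by
  induction q using QuotientGroup.induction_on with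
  | H r =>
    obtain ⟨x, hx⟩ := r
    obtain ⟨γ, rfl⟩ := MonoidHom.mem_range.mp hx
    change ((tForm N : ℍ → ℂ) ∣[(4 : ℤ)] (Matrix.SpecialLinearGroup.mapGL ℝ γ)⁻¹ = tFun N) ↔ _
    rw [coe_tForm, ← map_inv]
    constructor
    · intro h
      have hmem : γ⁻¹ ∈ Gamma0 N := mem_Gamma0_of_slash_mapGL_tFun N γ⁻¹ h
      have hmem' : γ ∈ Gamma0 N := by simpa using inv_mem hmem
      refine Eq.symm ((QuotientGroup.eq (s := (Γ0 N).subgroupOf 𝒮ℒ)).mpr ?_)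
      rw [Subgroup.mem_subgroupOf]
      simpa using Subgroup.mem_map_of_mem (Matrix.SpecialLinearGroup.mapGL ℝ) hmem'
    · intro h
      have h' := (QuotientGroup.eq (s := (Γ0 N).subgroupOf 𝒮ℒ)).mp h.symm
      rw [Subgroup.mem_subgroupOf] at h'
      simp only [inv_one, one_mul] at h'
      obtain ⟨γ', hγ', hγγ'⟩ := h'
      have : γ' = γ := Matrix.SpecialLinearGroup.mapGL_injective hγγ'
      subst this
      exact slash_tFun_of_mem_Gamma0 N γ'⁻¹ (inv_mem hγ')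

end

end Fermat.Agent.S23
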