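import Fermat.Agent.S23.TForm

set_option autoImplicit false

/-!
# S23, chunk 2b: the `q`-expansion of `t(z) = N³ E₄(N z)` is rational.
-/

namespace Fermat.Agent.S23

open UpperHalfPlane ModularForm ModularFormClass MatrixGroups EisensteinSeries CongruenceSubgroup
  Matrix Filter
open scoped Manifold Pointwise Topology

noncomputable section

local notation "𝕢" => Function.Periodic.qParam

theorem qParam_heckeDiagMatrix_smul (N : ℕ) [NeZero N] (τ : ℍ) :
    𝕢 (1 : ℝ) ((heckeDiagMatrix N • τ : ℍ) : ℂ) = 𝕢 (1 : ℝ) (τ : ℂ) ^ N := by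
  rw [coe_heckeDiagMatrix_smul (NeZero.ne N), Function.Periodic.qParam, Function.Periodic.qParam,
    ← Complex.exp_nat_mul]
  congr 1
  push_cast
  ring

/-- The coefficients of the `q`-expansion of `t`. -/
theorem qx_tFun_coeff (N : ℕ) [NeZero N] (n : ℕ) :
    (qx (tFun N)).coeff n =
      if N ∣ n then (N : ℂ) ^ 3 * (qExpansion 1 E₄).coeff (n / N) else 0 := by
  set c : ℕ → ℂ := fun n =>
    if N ∣ n then (N : ℂ) ^ 3 * (qExpansion 1 E₄).coeff (n / N) else 0 with hc
  have hN : 0 < N := Nat.pos_of_ne_zero (NeZero.ne N)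
  suffices ∀ τ : ℍ, HasSum (fun m ↦ c m • 𝕢 (1 : ℝ) τ ^ m) (tForm N τ) from
    (ModularFormClass.qExpansion_coeff_unique (f := tForm N) one_pos
      (one_mem_strictPeriods_Γ0 N) this n).symm
  intro τ
  have h1 := ModularForm.hasSum_qExpansion (f := E₄) one_pos one_mem_strictPeriods_SL
    (heckeDiagMatrix N • τ)
  have h2 := h1.mul_left ((N : ℂ) ^ 3)
  rw [← tFun_apply, qParam_heckeDiagMatrix_smul] at h2
  have hinj : Function.Injective (fun m : ℕ => N * m) := fun a b hab =>
    Nat.eq_of_mul_eq_mul_left hN hab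
  rw [show (tForm N τ) = tFun N τ from rfl]
  refine (hinj.hasSum_iff ?_).mp ?_
  · intro x hx
    have hx' : ¬ N ∣ x := by
      rintro ⟨m, rfl⟩
      exact hx ⟨m, rfl⟩
    simp [hc, hx']
  · have hfun : ((fun m ↦ c m • 𝕢 (1 : ℝ) τ ^ m) ∘ fun m : ℕ => N * m) =
        fun i => (N : ℂ) ^ 3 * ((qExpansion 1 E₄).coeff i * (𝕢 (1 : ℝ) τ ^ N) ^ i) := by
      funext m
      simp only [Function.comp_apply, hc, dvd_mul_right, if_true, Nat.mul_div_cancel_left _ hN,
        smul_eq_mul, pow_mul]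
      ring
    rw [hfun]
    exact h2

/-- The coefficients of the `q`-expansion of `E₄` are fixed by every ring endomorphism of `ℂ`. -/
theorem map_qExpansion_E₄_coeff (σ : ℂ →+* ℂ) (m : ℕ) :
    σ ((qExpansion 1 E₄).coeff m) = (qExpansion 1 E₄).coeff m := by
  rw [E_qExpansion_coeff (by norm_num) (by decide) m]
  split_ifs with h
  · simp
  · simp only [map_mul, map_neg, map_div₀, map_ofNat, map_natCast, map_ratCast]

/-- the `q`-expansion of `t` is rational, hence fixed by every ring endomorphism of `ℂ`. -/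
theorem qx_tFun_map (N : ℕ) [NeZero N] (σ : ℂ →+* ℂ) :
    PowerSeries.map σ (qx (tFun N)) = qx (tFun N) := by
  ext n
  rw [PowerSeries.coeff_map, qx_tFun_coeff]
  split_ifs with h
  · rw [map_mul, map_pow, map_natCast, map_qExpansion_E₄_coeff]
  · exact map_zero σ

/-- Version for ring automorphisms, in the shape `twistPS σ (qExpansion 1 t) = qExpansion 1 t`. -/
theorem qExpansion_tForm_map (N : ℕ) [NeZero N] (σ : ℂ ≃+* ℂ) :
    PowerSeries.map (σ : ℂ →+* ℂ) (qExpansion 1 (tForm N)) = qExpansion 1 (tForm N) :=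
  qx_tFun_map N (σ : ℂ →+* ℂ)

end

end Fermat.Agent.S23
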