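import Mathlib

set_option autoImplicit false

/-!
# Plan Q, chunk (6): the analytic converse

If `D ≠ 0` and `G` are modular forms for a finite index subgroup `Γ` of `SL(2, ℤ)`, of weights `w`
and `w + k`, and `G / D` is formally a root of a monic polynomial whose coefficients `a j` are
holomorphic functions vanishing at all cusps (in weight `k * j`), then `G / D` is a cusp form of
weight `k` for `Γ`.
-/

namespace Fermat.Agent.S23

open UpperHalfPlane ModularForm MatrixGroups Filter Topology Function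
open scoped Manifold

noncomputable section

/-! ### Elementary bounds for roots of monic polynomials -/

theorem acv_norm_pow_le {d : ℕ} (x : ℂ) (c : ℕ → ℂ)
    (h : x ^ d + ∑ j ∈ Finset.Icc 1 d, c j * x ^ (d - j) = 0) :
    ‖x‖ ^ d ≤ ∑ j ∈ Finset.Icc 1 d, ‖c j‖ * ‖x‖ ^ (d - j) := by
  have h1 : x ^ d = -∑ j ∈ Finset.Icc 1 d, c j * x ^ (d - j) := eq_neg_of_add_eq_zero_left h
  calc ‖x‖ ^ d = ‖x ^ d‖ := (norm_pow _ _).symm
    _ = ‖∑ j ∈ Finset.Icc 1 d, c j * x ^ (d - j)‖ := by rw [h1, norm_neg]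
    _ ≤ ∑ j ∈ Finset.Icc 1 d, ‖c j * x ^ (d - j)‖ := norm_sum_le _ _
    _ = ∑ j ∈ Finset.Icc 1 d, ‖c j‖ * ‖x‖ ^ (d - j) := by
      refine Finset.sum_congr rfl fun j _ => ?_
      rw [norm_mul, norm_pow]

theorem acv_norm_pow_le_of_le_one {d : ℕ} (x : ℂ) (c : ℕ → ℂ)
    (h : x ^ d + ∑ j ∈ Finset.Icc 1 d, c j * x ^ (d - j) = 0) (hx : ‖x‖ ≤ 1) :
    ‖x‖ ^ d ≤ ∑ j ∈ Finset.Icc 1 d, ‖c j‖ := by
  refine (acv_norm_pow_le x c h).trans (Finset.sum_le_sum fun j _ => ?_)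
  exact mul_le_of_le_one_right (norm_nonneg _) (pow_le_one₀ (norm_nonneg _) hx)

theorem acv_norm_le_of_one_lt {d : ℕ} (x : ℂ) (c : ℕ → ℂ)
    (h : x ^ d + ∑ j ∈ Finset.Icc 1 d, c j * x ^ (d - j) = 0) (hx : 1 < ‖x‖) :
    ‖x‖ ≤ ∑ j ∈ Finset.Icc 1 d, ‖c j‖ := by
  rcases Nat.eq_zero_or_pos d with rfl | hd
  · simp at h
  have hpos : 0 < ‖x‖ ^ (d - 1) := pow_pos (zero_lt_one.trans hx) _
  have h2 : ‖x‖ ^ d ≤ (∑ j ∈ Finset.Icc 1 d, ‖c j‖) * ‖x‖ ^ (d - 1) := by
    refine (acv_norm_pow_le x c h).trans ?_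
    rw [Finset.sum_mul]
    refine Finset.sum_le_sum fun j hj => ?_
    have hj1 : 1 ≤ j := (Finset.mem_Icc.mp hj).1
    exact mul_le_mul_of_nonneg_left (pow_le_pow_right₀ hx.le (by omega)) (norm_nonneg _)
  have h3 : ‖x‖ ^ d = ‖x‖ * ‖x‖ ^ (d - 1) := by
    rw [← pow_succ', Nat.sub_add_cancel hd]
  rw [h3] at h2
  exact le_of_mul_le_mul_right h2 hpos

theorem acv_norm_le {d : ℕ} (x : ℂ) (c : ℕ → ℂ)
    (h : x ^ d + ∑ j ∈ Finset.Icc 1 d, c j * x ^ (d - j) = 0) :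
    ‖x‖ ≤ 1 + ∑ j ∈ Finset.Icc 1 d, ‖c j‖ := by
  have hs : 0 ≤ ∑ j ∈ Finset.Icc 1 d, ‖c j‖ := Finset.sum_nonneg fun _ _ => norm_nonneg _
  rcases le_or_gt ‖x‖ 1 with hx | hx
  · linarith
  · linarith [acv_norm_le_of_one_lt x c h hx]

/-- If the coefficients of a monic relation tend to zero, so does the root. -/
theorem acv_tendsto_zero {α : Type*} {l : Filter α} {d : ℕ}
    (x : α → ℂ) (c : ℕ → α → ℂ) (hc : ∀ j, 1 ≤ j → Tendsto (c j) l (𝓝 0))
    (h : ∀ t, x t ^ d + ∑ j ∈ Finset.Icc 1 d, c j t * x t ^ (d - j) = 0) :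
    Tendsto x l (𝓝 0) := by
  have hs : Tendsto (fun t => ∑ j ∈ Finset.Icc 1 d, ‖c j t‖) l (𝓝 0) := by
    have : Tendsto (fun t => ∑ j ∈ Finset.Icc 1 d, ‖c j t‖) l
        (𝓝 (∑ j ∈ Finset.Icc 1 d, (0 : ℝ))) := by
      refine tendsto_finsetSum _ fun j hj => ?_
      have := (hc j (Finset.mem_Icc.mp hj).1).norm
      simpa using this
    simpa using this
  rw [tendsto_zero_iff_norm_tendsto_zero]
  rw [Metric.tendsto_nhds]
  intro ε hε
  have hεd : 0 < min 1 (ε ^ d) := lt_min one_pos (pow_pos hε d)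
  have hev := (Metric.tendsto_nhds.mp hs) _ hεd
  filter_upwards [hev] with t ht
  have hsn : 0 ≤ ∑ j ∈ Finset.Icc 1 d, ‖c j t‖ := Finset.sum_nonneg fun _ _ => norm_nonneg _
  rw [Real.dist_eq, sub_zero, abs_of_nonneg hsn] at ht
  rw [Real.dist_eq, sub_zero, abs_of_nonneg (norm_nonneg _)]
  have hx1 : ‖x t‖ ≤ 1 := by
    by_contra hcon
    have := acv_norm_le_of_one_lt (x t) (fun j => c j t) (h t) (not_le.mp hcon)
    have h1 : (∑ j ∈ Finset.Icc 1 d, ‖c j t‖) < 1 := ht.trans_le (min_le_left _ _)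
    linarith [not_le.mp hcon]
  have hpow := acv_norm_pow_le_of_le_one (x t) (fun j => c j t) (h t) hx1
  have hlt : ‖x t‖ ^ d < ε ^ d := hpow.trans_lt (ht.trans_le (min_le_right _ _))
  exact lt_of_pow_lt_pow_left₀ d hε.le hlt

/-! ### The complex-analytic core -/

/-- If `G / D` satisfies a monic relation with continuous coefficients on a connected open set
`U`, and `D` does not vanish identically, then `G / D` extends to a holomorphic function on `U`. -/
theorem acv_exists_differentiableOn_quotient {U : Set ℂ} (hU : IsOpen U) (hUc : IsPreconnected U)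
    {D G : ℂ → ℂ} (hD : DifferentiableOn ℂ D U) (hG : DifferentiableOn ℂ G U)
    (hD0 : ∃ z ∈ U, D z ≠ 0) (d : ℕ) (a : ℕ → ℂ → ℂ) (ha : ∀ j, ContinuousOn (a j) U)
    (hrel : ∀ z ∈ U, G z ^ d + ∑ j ∈ Finset.Icc 1 d, a j z * D z ^ j * G z ^ (d - j) = 0) :
    ∃ F : ℂ → ℂ, DifferentiableOn ℂ F U ∧ ∀ z ∈ U, F z * D z = G z := by
  classical
  -- `d` is positive
  have hd : 0 < d := by
    rcases Nat.eq_zero_or_pos d with rfl | hd
    · obtain ⟨z, hz, -⟩ := hD0
      have := hrel z hz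
      simp at this
    · exact hd
  set qf : ℂ → ℂ := fun z => G z / D z with hqf
  set Fc : ℂ → ℂ := fun z => limUnder (𝓝[≠] z) qf with hFc
  have hDa : AnalyticOnNhd ℂ D U := hD.analyticOnNhd hU
  -- zeros of `D` are isolated
  have hiso : ∀ z ∈ U, ∀ᶠ z' in 𝓝[≠] z, z' ∈ U ∧ D z' ≠ 0 := by
    intro z hz
    have h1 : ∀ᶠ z' in 𝓝[≠] z, D z' ≠ 0 := by
      by_contra hcon
      rw [not_eventually] at hcon
      have hfr : ∃ᶠ z' in 𝓝[≠] z, D z' = 0 := hcon.mono fun z' hz' => not_not.mp hz'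
      obtain ⟨z1, hz1, hz1'⟩ := hD0
      exact hz1' (hDa.eqOn_zero_of_preconnected_of_frequently_eq_zero hUc hz hfr hz1)
    have h2 : ∀ᶠ z' in 𝓝[≠] z, z' ∈ U := nhdsWithin_le_nhds (hU.mem_nhds hz)
    exact h2.and h1
  have hqf_diff : ∀ z ∈ U, D z ≠ 0 → DifferentiableAt ℂ qf z := fun z hz h =>
    (hG.differentiableAt (hU.mem_nhds hz)).div (hD.differentiableAt (hU.mem_nhds hz)) h
  -- value of `Fc` off the zeros
  have hval : ∀ z ∈ U, D z ≠ 0 → Fc z = qf z := by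
    intro z hz h
    exact ((hqf_diff z hz h).continuousAt.tendsto.mono_left nhdsWithin_le_nhds).limUnder_eq
  -- the monic relation for `qf`
  have hqrel : ∀ z ∈ U, D z ≠ 0 →
      qf z ^ d + ∑ j ∈ Finset.Icc 1 d, a j z * qf z ^ (d - j) = 0 := by
    intro z hz h
    have hDd : D z ^ d ≠ 0 := pow_ne_zero _ h
    have key : (qf z ^ d + ∑ j ∈ Finset.Icc 1 d, a j z * qf z ^ (d - j)) * D z ^ d =
        G z ^ d + ∑ j ∈ Finset.Icc 1 d, a j z * D z ^ j * G z ^ (d - j) := by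
      rw [add_mul, Finset.sum_mul]
      congr 1
      · rw [hqf]; simp only [div_pow]; field_simp
      · refine Finset.sum_congr rfl fun j hj => ?_
        have hjd : j ≤ d := (Finset.mem_Icc.mp hj).2
        have hsplit : D z ^ d = D z ^ j * D z ^ (d - j) := by
          rw [← pow_add, Nat.add_sub_cancel' hjd]
        have hDj : D z ^ (d - j) ≠ 0 := pow_ne_zero _ h
        rw [hqf]; simp only [div_pow]
        rw [hsplit]; field_simp
    rw [hrel z hz] at key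
    exact (mul_eq_zero.mp key).resolve_right hDd
  -- local boundedness
  have hbdd : ∀ z0 ∈ U, IsBoundedUnder (· ≤ ·) (𝓝[≠] z0) fun z => ‖qf z - qf z0‖ := by
    intro z0 hz0
    set B : ℂ → ℝ := fun z => 1 + ∑ j ∈ Finset.Icc 1 d, ‖a j z‖ with hB
    have hBc : ContinuousAt B z0 := by
      refine continuousAt_const.add (tendsto_finsetSum _ fun j _ => ?_)
      exact ((ha j).continuousAt (hU.mem_nhds hz0)).norm
    have hev : ∀ᶠ z in 𝓝 z0, B z < B z0 + 1 := hBc.eventually (gt_mem_nhds (by linarith))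
    refine ⟨B z0 + 1 + ‖qf z0‖, eventually_map.2 ?_⟩
    filter_upwards [hiso z0 hz0, nhdsWithin_le_nhds hev] with z hz hzB
    have h1 : ‖qf z‖ ≤ B z := acv_norm_le (qf z) (fun j => a j z) (hqrel z hz.1 hz.2)
    calc ‖qf z - qf z0‖ ≤ ‖qf z‖ + ‖qf z0‖ := norm_sub_le _ _
      _ ≤ B z0 + 1 + ‖qf z0‖ := by linarith
  -- the limit exists
  have hlim : ∀ z0 ∈ U, Tendsto qf (𝓝[≠] z0) (𝓝 (Fc z0)) := by
    intro z0 hz0
    refine Complex.tendsto_limUnder_of_differentiable_on_punctured_nhds_of_bounded_under ?_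
      (hbdd z0 hz0)
    filter_upwards [hiso z0 hz0] with z hz using hqf_diff z hz.1 hz.2
  -- `Fc` agrees near `z0` with the corrected quotient
  have hFc_eq : ∀ z0 ∈ U, Fc =ᶠ[𝓝 z0] update qf z0 (Fc z0) := by
    intro z0 hz0
    have := hiso z0 hz0
    rw [eventually_nhdsWithin_iff] at this
    filter_upwards [this] with z hz
    rcases eq_or_ne z z0 with rfl | hne
    · rw [update_self]
    · rw [update_of_ne hne]
      exact hval z (hz hne).1 (hz hne).2
  have hFc_diff : ∀ z0 ∈ U, DifferentiableAt ℂ Fc z0 := by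
    intro z0 hz0
    have h1 : AnalyticAt ℂ (update qf z0 (Fc z0)) z0 := by
      refine Complex.analyticAt_of_differentiable_on_punctured_nhds_of_continuousAt ?_
        (continuousAt_update_same.2 (hlim z0 hz0))
      filter_upwards [hiso z0 hz0, self_mem_nhdsWithin] with z hz hne
      refine (hqf_diff z hz.1 hz.2).congr_of_eventuallyEq ?_
      filter_upwards [isOpen_ne.mem_nhds hne] with w hw
      exact update_of_ne hw _ _
    exact h1.differentiableAt.congr_of_eventuallyEq (hFc_eq z0 hz0)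
  refine ⟨Fc, fun z hz => (hFc_diff z hz).differentiableWithinAt, fun z hz => ?_⟩
  by_cases h : D z = 0
  · have h0 := hrel z hz
    have hsum : ∑ j ∈ Finset.Icc 1 d, a j z * D z ^ j * G z ^ (d - j) = 0 := by
      refine Finset.sum_eq_zero fun j hj => ?_
      have hj1 : j ≠ 0 := by have := (Finset.mem_Icc.mp hj).1; omega
      rw [h, zero_pow hj1, mul_zero, zero_mul]
    rw [hsum, add_zero] at h0
    rw [h, mul_zero, (pow_eq_zero_iff hd.ne').mp h0]
  · rw [hval z hz h, hqf]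
    exact div_mul_cancel₀ _ h

/-! ### The modular part -/

/-- **Analytic converse.** Let `Γ` be a finite index subgroup of `SL(2, ℤ)`, `D ≠ 0` and `G`
modular forms for `Γ` of weights `w` and `w + k`, and let `a j` (`1 ≤ j ≤ d`) be holomorphic
functions on `ℍ` such that `a j ∣[k * j] γ` vanishes at `i∞` for all `γ ∈ SL(2, ℤ)` (e.g. `a j` a
level one cusp form of weight `k * j`).  If
`G ^ d + ∑_{1 ≤ j ≤ d} a j * D ^ j * G ^ (d - j) = 0` then there is a cusp form `F` of weight `k`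
for `Γ` with `F * D = G`. -/
theorem exists_cuspForm_of_monic_relation (Γ : Subgroup SL(2, ℤ)) [Γ.FiniteIndex] (k w : ℤ)
    (d : ℕ) (D : ModularForm Γ w) (G : ModularForm Γ (w + k)) (hD : D ≠ 0)
    (a : ℕ → ℍ → ℂ) (ha : ∀ j, MDifferentiable 𝓘(ℂ) 𝓘(ℂ) (a j))
    (ha_cusp : ∀ j : ℕ, 1 ≤ j → ∀ γ : SL(2, ℤ), IsZeroAtImInfty (a j ∣[k * (j : ℤ)] γ))
    (hrel : ∀ z : ℍ, G z ^ d + ∑ j ∈ Finset.Icc 1 d, a j z * D z ^ j * G z ^ (d - j) = 0) :
    ∃ F : CuspForm Γ k, ∀ z : ℍ, F z * D z = G z := by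
  classical
  have hd : 0 < d := by
    rcases Nat.eq_zero_or_pos d with rfl | hd
    · have := hrel I
      simp at this
    · exact hd
  -- the complex-analytic core
  have hUo : IsOpen {z : ℂ | 0 < z.im} := isOpen_upperHalfPlaneSet
  have hUc : IsPreconnected {z : ℂ | 0 < z.im} := (convex_halfSpace_im_gt 0).isPreconnected
  have hDd : DifferentiableOn ℂ (⇑D ∘ ofComplex) {z : ℂ | 0 < z.im} :=
    UpperHalfPlane.mdifferentiable_iff.mp D.holo'
  have hGd : DifferentiableOn ℂ (⇑G ∘ ofComplex) {z : ℂ | 0 < z.im} :=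
    UpperHalfPlane.mdifferentiable_iff.mp G.holo'
  have hD0 : ∃ z ∈ {z : ℂ | 0 < z.im}, (⇑D ∘ ofComplex) z ≠ 0 := by
    obtain ⟨τ, hτ⟩ := DFunLike.ne_iff.mp hD
    refine ⟨τ, τ.im_pos, ?_⟩
    simpa [ofComplex_apply] using hτ
  obtain ⟨Fc, hFc_diff, hFc_mul⟩ := acv_exists_differentiableOn_quotient hUo hUc hDd hGd hD0 d
    (fun j => a j ∘ ofComplex)
    (fun j => (UpperHalfPlane.mdifferentiable_iff.mp (ha j)).continuousOn)
    (fun z _ => hrel (ofComplex z))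
  set F : ℍ → ℂ := fun τ => Fc τ with hF
  have hF_mul : ∀ τ : ℍ, F τ * D τ = G τ := by
    intro τ
    have := hFc_mul τ τ.im_pos
    simpa [ofComplex_apply] using this
  have hF_holo : MDifferentiable 𝓘(ℂ) 𝓘(ℂ) F := by
    refine UpperHalfPlane.mdifferentiable_iff.mpr (hFc_diff.congr fun z hz => ?_)
    simp only [comp_apply, hF, ofComplex_apply_of_im_pos hz, coe_mk]
  have hDfun : (⇑D : ℍ → ℂ) ≠ 0 := fun h => hD (DFunLike.coe_injective h)
  -- slash invariance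
  have hF_slash : ∀ γ ∈ (Γ : Subgroup (GL (Fin 2) ℝ)), F ∣[k] γ = F := by
    rintro γ ⟨γ', hγ', rfl⟩
    have hmem : (Matrix.SpecialLinearGroup.mapGL ℝ γ' : GL (Fin 2) ℝ) ∈
        (Γ : Subgroup (GL (Fin 2) ℝ)) := ⟨γ', hγ', rfl⟩
    have h1 : (F * ⇑D) ∣[k + w] γ' = (F ∣[k] γ') * (⇑D ∣[w] γ') := mul_slash_SL2 k w γ' F D
    have h2 : ⇑D ∣[w] γ' = ⇑D := D.slash_action_eq' _ hmem
    have h3 : F * ⇑D = ⇑G := funext hF_mul
    have h4 : ⇑G ∣[k + w] γ' = ⇑G := by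
      rw [add_comm]; exact G.slash_action_eq' _ hmem
    rw [h3, h4, h2] at h1
    have h5 : (F ∣[k] γ' - F) * ⇑D = 0 := by
      rw [sub_mul, ← h1, h3, sub_self]
    have hsl : MDifferentiable 𝓘(ℂ) 𝓘(ℂ) (F ∣[k] γ') :=
      MDifferentiable.slash hF_holo k (Matrix.SpecialLinearGroup.mapGL ℝ γ')
    rcases (UpperHalfPlane.mul_eq_zero_iff (hsl.sub hF_holo) D.holo').mp h5 with h6 | h6
    · exact sub_eq_zero.mp h6
    · exact absurd h6 hDfun
  -- the monic relation for `F`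
  have hF_rel : ∀ τ : ℍ, F τ ^ d + ∑ j ∈ Finset.Icc 1 d, a j τ * F τ ^ (d - j) = 0 := by
    set R : ℍ → ℂ := fun τ => F τ ^ d + ∑ j ∈ Finset.Icc 1 d, a j τ * F τ ^ (d - j) with hR
    have hR_holo : MDifferentiable 𝓘(ℂ) 𝓘(ℂ) R := by
      refine (hF_holo.pow d).add ?_
      have : (fun τ => ∑ j ∈ Finset.Icc 1 d, a j τ * F τ ^ (d - j)) =
          ∑ j ∈ Finset.Icc 1 d, (a j * F ^ (d - j)) := by
        funext τ; simp [Finset.sum_apply]
      rw [this]
      exact MDifferentiable.sum fun j _ => (ha j).mul (hF_holo.pow (d - j))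
    have hRD : R * (⇑D) ^ d = 0 := by
      funext τ
      simp only [Pi.mul_apply, Pi.pow_apply, Pi.zero_apply, hR]
      rw [add_mul, Finset.sum_mul, ← hrel τ, ← hF_mul τ]
      congr 1
      · ring
      · refine Finset.sum_congr rfl fun j hj => ?_
        have hjd : j ≤ d := (Finset.mem_Icc.mp hj).2
        have hsplit : D τ ^ d = D τ ^ j * D τ ^ (d - j) := by
          rw [← pow_add, Nat.add_sub_cancel' hjd]
        rw [hsplit]; ring
    rcases (UpperHalfPlane.mul_eq_zero_iff hR_holo (D.holo'.pow d)).mp hRD with h6 | h6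
    · intro τ; exact congrFun h6 τ
    · exfalso
      apply hDfun
      funext τ
      have := congrFun h6 τ
      simpa using pow_eq_zero_iff (hd.ne') |>.mp this
  -- vanishing at the cusps
  have hF_cusp : ∀ γ : SL(2, ℤ), IsZeroAtImInfty (F ∣[k] γ) := by
    intro γ
    refine acv_tendsto_zero (d := d) (F ∣[k] γ) (fun j : ℕ => a j ∣[k * (j : ℤ)] γ)
      (fun j hj => ha_cusp j hj γ) fun τ => ?_
    simp only [SL_slash_apply]
    set u : ℂ := denom γ τ ^ (-k) with hu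
    have hpow : ∀ j : ℕ, denom γ τ ^ (-(k * (j : ℤ))) = u ^ j := by
      intro j
      rw [hu, ← zpow_natCast, ← zpow_mul, neg_mul]
    have h0 := hF_rel (γ • τ)
    have : (F (γ • τ) * u) ^ d + ∑ j ∈ Finset.Icc 1 d,
        a j (γ • τ) * denom γ τ ^ (-(k * (j : ℤ))) * (F (γ • τ) * u) ^ (d - j) =
        u ^ d * (F (γ • τ) ^ d + ∑ j ∈ Finset.Icc 1 d, a j (γ • τ) * F (γ • τ) ^ (d - j)) := by
      rw [mul_add, Finset.mul_sum]
      congr 1
      · ring
      · refine Finset.sum_congr rfl fun j hj => ?_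
        have hjd : j ≤ d := (Finset.mem_Icc.mp hj).2
        have hsplit : u ^ d = u ^ j * u ^ (d - j) := by
          rw [← pow_add, Nat.add_sub_cancel' hjd]
        rw [hpow j, hsplit]; ring
    rw [this, h0, mul_zero]
  refine ⟨{ toFun := F
            slash_action_eq' := hF_slash
            holo' := hF_holo
            zero_at_cusps' := ?_ }, hF_mul⟩
  intro c hc
  rw [Subgroup.IsArithmetic.isCusp_iff_isCusp_SL2Z] at hc
  rw [OnePoint.isZeroAt_iff_forall_SL2Z hc]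
  intro γ _
  exact hF_cusp γ

/-- `q`-expansion form of the analytic converse: if moreover `qExpansion h G = P * qExpansion h D`
for a formal power series `P`, then `P` is the `q`-expansion of a cusp form of weight `k`. -/
theorem exists_cuspForm_qExpansion_eq_of_monic_relation (Γ : Subgroup SL(2, ℤ)) [Γ.FiniteIndex]
    (k w : ℤ) (d : ℕ) (D : ModularForm Γ w) (G : ModularForm Γ (w + k)) (hD : D ≠ 0)
    (a : ℕ → ℍ → ℂ) (ha : ∀ j, MDifferentiable 𝓘(ℂ) 𝓘(ℂ) (a j))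
    (ha_cusp : ∀ j : ℕ, 1 ≤ j → ∀ γ : SL(2, ℤ), IsZeroAtImInfty (a j ∣[k * (j : ℤ)] γ))
    (hrel : ∀ z : ℍ, G z ^ d + ∑ j ∈ Finset.Icc 1 d, a j z * D z ^ j * G z ^ (d - j) = 0)
    {h : ℝ} (hh : 0 < h) (hΓ : h ∈ (Γ : Subgroup (GL (Fin 2) ℝ)).strictPeriods)
    (P : PowerSeries ℂ) (hP : qExpansion h G = P * qExpansion h D) :
    ∃ F : CuspForm Γ k, qExpansion h F = P := by
  obtain ⟨F, hF⟩ := exists_cuspForm_of_monic_relation Γ k w d D G hD a ha ha_cusp hrel
  refine ⟨F, ?_⟩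
  have h1 : qExpansion h (⇑F * ⇑D : ℍ → ℂ) = qExpansion h F * qExpansion h D :=
    ModularForm.qExpansion_mul_coe hh hΓ F D
  have h2 : (⇑F * ⇑D : ℍ → ℂ) = ⇑G := funext hF
  rw [h2, hP] at h1
  have h3 : qExpansion h D ≠ 0 := fun h0 => hD ((ModularForm.qExpansion_eq_zero_iff hh hΓ D).mp h0)
  exact (mul_right_cancel₀ h3 h1).symm

/-- The cusp hypothesis `ha_cusp` of the analytic converse holds for level one cusp forms. -/
theorem isZeroAtImInfty_slash_of_levelOne_cuspForm {m : ℤ} (A : CuspForm 𝒮ℒ m) (γ : SL(2, ℤ)) :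
    IsZeroAtImInfty ((⇑A : ℍ → ℂ) ∣[m] γ) := by
  have h : (⇑A : ℍ → ℂ) ∣[m] γ = ⇑A := A.slash_action_eq' _ ⟨γ, rfl⟩
  rw [h]
  exact CuspFormClass.zero_at_infty A

end

end Fermat.Agent.S23
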