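import Mathlib
import Fermat.Prelude.Def_CuspForm_IntegralStructure
import Fermat.Prelude.Thm_CongruenceSubgroup_one_mem_strictPeriods_Gamma0

set_option autoImplicit false

/-!
# S23, common definitions

Functions `ℍ → ℂ` together with predicates "is (the underlying function of) a modular / cusp form
of level `Γ` and weight `k`".  This avoids all dependent-weight casts.  `qx g` is the `q`-expansion
with period `1`.
-/

namespace Fermat.Agent.S23

open UpperHalfPlane CongruenceSubgroup ModularForm
open scoped MatrixGroups ModularForm Manifold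

noncomputable section

/-- `Γ₀(N)` as a subgroup of `GL(2, ℝ)` (this is what the coercion in
`CuspForm (CongruenceSubgroup.Gamma0 N) k` unfolds to). -/
abbrev Γ0 (N : ℕ) : Subgroup (GL (Fin 2) ℝ) :=
  Subgroup.map (Matrix.SpecialLinearGroup.mapGL ℝ) (Gamma0 N)

/-- `g` is the underlying function of a modular form of level `Γ` and weight `k`. -/
def IsMF (Γ : Subgroup (GL (Fin 2) ℝ)) (k : ℤ) (g : ℍ → ℂ) : Prop :=
  ∃ G : ModularForm Γ k, ⇑G = g

/-- `g` is the underlying function of a cusp form of level `Γ` and weight `k`. -/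
def IsCF (Γ : Subgroup (GL (Fin 2) ℝ)) (k : ℤ) (g : ℍ → ℂ) : Prop :=
  ∃ G : CuspForm Γ k, ⇑G = g

/-- The `q`-expansion with period `1`. -/
abbrev qx (g : ℍ → ℂ) : PowerSeries ℂ := qExpansion 1 g

theorem qx_coeff (g : ℍ → ℂ) (n : ℕ) : (qx g).coeff n = ModularFormClass.qCoeff g n := rfl

end

end Fermat.Agent.S23
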