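import Mathlib

set_option autoImplicit false

/-!
The ring of `1`-periodic holomorphic functions on the upper half plane that are bounded at `i∞`,
and the `q`-expansion as an injective ring homomorphism on it.
-/

namespace Fermat.Agent.S23

open UpperHalfPlane Function
open scoped Manifold MatrixGroups

/-- `1`-periodic holomorphic functions on `ℍ` bounded at `i∞`. -/
structure IsNice (F : ℍ → ℂ) : Prop where
  per : Periodic (F ∘ ofComplex) 1
  hol : MDiff F
  bdd : IsBoundedAtImInfty F

namespace IsNice

variable {F G : ℍ → ℂ}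

theorem analytic (hF : IsNice F) : AnalyticAt ℂ (cuspFunction 1 F) 0 :=
  analyticAt_cuspFunction_zero one_pos hF.per hF.hol hF.bdd

theorem const (c : ℂ) : IsNice (fun _ => c) where
  per := fun _ => rfl
  hol := mdifferentiable_const
  bdd := Filter.const_boundedAtFilter _ c

theorem zero : IsNice (0 : ℍ → ℂ) := const 0

theorem one : IsNice (1 : ℍ → ℂ) := const 1

theorem add (hF : IsNice F) (hG : IsNice G) : IsNice (F + G) where
  per := hF.per.add hG.per
  hol := hF.hol.add hG.hol
  bdd := hF.bdd.add hG.bdd

theorem mul (hF : IsNice F) (hG : IsNice G) : IsNice (F * G) where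
  per := hF.per.mul hG.per
  hol := hF.hol.mul hG.hol
  bdd := hF.bdd.mul hG.bdd

theorem neg (hF : IsNice F) : IsNice (-F) where
  per := fun x => by
    have := hF.per x
    simp only [Function.comp_apply, Pi.neg_apply] at this ⊢
    rw [this]
  hol := hF.hol.neg
  bdd := hF.bdd.neg

end IsNice

/-- The ring of nice functions. -/
def niceSubring : Subring (ℍ → ℂ) where
  carrier := {F | IsNice F}
  mul_mem' := IsNice.mul
  one_mem' := IsNice.one
  add_mem' := IsNice.add
  zero_mem' := IsNice.zero
  neg_mem' := IsNice.neg

theorem mem_niceSubring {F : ℍ → ℂ} : F ∈ niceSubring ↔ IsNice F := Iff.rfl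

/-- The `q`-expansion as a ring homomorphism. -/
noncomputable def qExpHom : niceSubring →+* PowerSeries ℂ where
  toFun F := qExpansion 1 (F : ℍ → ℂ)
  map_one' := qExpansion_one 1
  map_mul' F G := qExpansion_mul (IsNice.analytic F.2) (IsNice.analytic G.2)
  map_zero' := qExpansion_zero 1
  map_add' F G := qExpansion_add (IsNice.analytic F.2) (IsNice.analytic G.2)

@[simp] theorem qExpHom_apply (F : niceSubring) : qExpHom F = qExpansion 1 (F : ℍ → ℂ) := rfl

theorem qExpHom_injective : Function.Injective qExpHom := by
  rw [injective_iff_map_eq_zero]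
  intro F hF
  apply Subtype.ext
  exact (qExpansion_eq_zero_iff one_pos F.2.per F.2.hol F.2.bdd).mp hF

/-- Modular forms for a group having `1` as a strict period are nice. -/
theorem isNice_of_modularForm {Γ : Subgroup (GL (Fin 2) ℝ)} {k : ℤ} {M : Type*} [FunLike M ℍ ℂ]
    [ModularFormClass M Γ k] (hΓ : (1 : ℝ) ∈ Γ.strictPeriods) (f : M) : IsNice (⇑f) := by
  have : Fact (IsCusp OnePoint.infty Γ) := ⟨Subgroup.isCusp_of_mem_strictPeriods one_pos hΓ⟩
  exact ⟨SlashInvariantFormClass.periodic_comp_ofComplex f hΓ, ModularFormClass.holo f,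
    ModularFormClass.bdd_at_infty f⟩

end Fermat.Agent.S23
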