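import Mathlib

set_option autoImplicit false
set_option linter.unusedSectionVars false

/-!
# S23, chunk 4: polynomial identities for finite families (pure algebra, Mathlib only).

For finite families `x y : ι → R` in a commutative ring:
* `P(y_o) = 0` for `P = ∏ (X - y_i)`;
* `R(x_o) = y_o ∏_{j ≠ o} (x_o - x_j)` for `R = ∑_i y_i ∏_{j ≠ i} (X - x_j)` (Lagrange);
* `Q'(x_o) = ∏_{j ≠ o} (x_o - x_j)` for `Q = ∏ (X - x_i)`;
* hence `y_o * Q'(x_o) = R(x_o)`;
* degree bounds and evaluation as explicit finite sums of coefficients.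
-/

namespace Fermat.Agent.S23

open Polynomial Finset

variable {ι : Type*} [Fintype ι] [DecidableEq ι] {R : Type*} [CommRing R]

theorem eval_prod_X_sub_C_self (y : ι → R) (o : ι) :
    (∏ i, (X - C (y i))).eval (y o) = 0 := by
  rw [eval_prod]
  exact Finset.prod_eq_zero (Finset.mem_univ o) (by simp)

theorem eval_sum_mul_prod_erase (x y : ι → R) (o : ι) :
    (∑ i, C (y i) * ∏ j ∈ univ.erase i, (X - C (x j))).eval (x o) =
      y o * ∏ j ∈ univ.erase o, (x o - x j) := by
  rw [eval_finsetSum]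
  rw [Finset.sum_eq_single o]
  · simp [eval_prod]
  · intro i _ hio
    rw [eval_mul, eval_prod]
    have : ∏ j ∈ univ.erase i, eval (x o) (X - C (x j)) = 0 :=
      Finset.prod_eq_zero (Finset.mem_erase.mpr ⟨Ne.symm hio, Finset.mem_univ o⟩) (by simp)
    rw [this, mul_zero]
  · intro h
    exact absurd (Finset.mem_univ o) h

theorem derivative_prod_X_sub_C (x : ι → R) :
    derivative (∏ i, (X - C (x i))) = ∑ i, C (1 : R) * ∏ j ∈ univ.erase i, (X - C (x j)) := by
  rw [derivative_prod_finset]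
  refine Finset.sum_congr rfl fun i _ => ?_
  simp

theorem eval_derivative_prod_X_sub_C (x : ι → R) (o : ι) :
    (derivative (∏ i, (X - C (x i)))).eval (x o) = ∏ j ∈ univ.erase o, (x o - x j) := by
  rw [derivative_prod_X_sub_C, eval_sum_mul_prod_erase x (fun _ => (1 : R)) o, one_mul]

/-- **Lagrange identity**: `y_o * Q'(x_o) = R(x_o)`. -/
theorem mul_eval_derivative_eq_eval_sum (x y : ι → R) (o : ι) :
    y o * (derivative (∏ i, (X - C (x i)))).eval (x o) =
      (∑ i, C (y i) * ∏ j ∈ univ.erase i, (X - C (x j))).eval (x o) := by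
  rw [eval_derivative_prod_X_sub_C, eval_sum_mul_prod_erase]

theorem monic_prod_X_sub_C' (x : ι → R) : (∏ i, (X - C (x i))).Monic :=
  monic_prod_of_monic _ _ fun i _ => monic_X_sub_C (x i)

theorem natDegree_prod_X_sub_C' [Nontrivial R] (x : ι → R) :
    (∏ i, (X - C (x i))).natDegree = Fintype.card ι := by
  rw [natDegree_prod_of_monic _ _ fun i _ => monic_X_sub_C (x i)]
  simp

theorem natDegree_prod_erase_X_sub_C [Nontrivial R] (x : ι → R) (i : ι) :
    (∏ j ∈ univ.erase i, (X - C (x j))).natDegree = Fintype.card ι - 1 := by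
  rw [natDegree_prod_of_monic _ _ fun i _ => monic_X_sub_C (x i)]
  simp [Finset.card_erase_of_mem]

theorem natDegree_sum_mul_prod_erase_lt [Nontrivial R] [Nonempty ι] (x y : ι → R) :
    (∑ i, C (y i) * ∏ j ∈ univ.erase i, (X - C (x j))).natDegree < Fintype.card ι := by
  have hpos : 0 < Fintype.card ι := Fintype.card_pos
  have hle : (∑ i, C (y i) * ∏ j ∈ univ.erase i, (X - C (x j))).natDegree
      ≤ Fintype.card ι - 1 := by
    refine natDegree_sum_le_of_forall_le _ _ fun i _ => ?_
    exact (natDegree_C_mul_le _ _).trans (natDegree_prod_erase_X_sub_C x i).le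
  omega

theorem natDegree_derivative_prod_X_sub_C_lt [Nontrivial R] [Nonempty ι] (x : ι → R) :
    (derivative (∏ i, (X - C (x i)))).natDegree < Fintype.card ι := by
  rw [derivative_prod_X_sub_C]
  exact natDegree_sum_mul_prod_erase_lt x _

/-- evaluation of a polynomial of degree `< m` as a sum over `range m`. -/
theorem eval_eq_sum_range_of_lt {p : R[X]} {m : ℕ} (hp : p.natDegree < m) (a : R) :
    p.eval a = ∑ j ∈ range m, p.coeff j * a ^ j :=
  eval_eq_sum_range' hp a

/-- a monic polynomial of degree `m`, evaluated: `p(a) = a^m + ∑_{j<m} coeff_j a^j`. -/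
theorem eval_monic_eq_range {p : R[X]} {m : ℕ} (hp : p.Monic) (hm : p.natDegree = m) (a : R) :
    p.eval a = a ^ m + ∑ j ∈ range m, p.coeff j * a ^ j := by
  rw [eval_eq_sum_range, hm, Finset.sum_range_succ, add_comm]
  congr 1
  have : p.coeff m = 1 := by rw [← hm]; exact hp.coeff_natDegree
  rw [this, one_mul]

/-- a monic polynomial of degree `m`, evaluated:
`p(a) = a^m + ∑_{j=1}^m coeff_{m-j} a^{m-j}`. -/
theorem eval_monic_eq {p : R[X]} {m : ℕ} (hp : p.Monic) (hm : p.natDegree = m) (a : R) :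
    p.eval a = a ^ m + ∑ j ∈ Icc 1 m, p.coeff (m - j) * a ^ (m - j) := by
  rw [eval_monic_eq_range hp hm]
  congr 1
  refine Finset.sum_nbij' (fun j => m - j) (fun j => m - j) ?_ ?_ ?_ ?_ ?_
  · intro j hj
    rw [Finset.mem_range] at hj
    rw [Finset.mem_Icc]
    omega
  · intro j hj
    rw [Finset.mem_Icc] at hj
    rw [Finset.mem_range]
    omega
  · intro j hj
    rw [Finset.mem_range] at hj
    omega
  · intro j hj
    rw [Finset.mem_Icc] at hj
    omega
  · intro j hj
    rw [Finset.mem_range] at hj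
    have : m - (m - j) = j := by omega
    rw [this]

/-- `P(y_o) = 0` written out: `y_o^m + ∑_{j<m} coeff_j(P) y_o^j = 0`, `m = |ι|`. -/
theorem pow_add_sum_coeff_prod_X_sub_C_eq_zero [Nontrivial R] (y : ι → R) (o : ι) :
    y o ^ Fintype.card ι
      + ∑ j ∈ range (Fintype.card ι), (∏ i, (X - C (y i))).coeff j * y o ^ j = 0 := by
  rw [← eval_monic_eq_range (monic_prod_X_sub_C' y) (natDegree_prod_X_sub_C' y),
    eval_prod_X_sub_C_self]

/-- The Lagrange identity written out with coefficients, `m = |ι|`: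
`y_o * ∑_{j<m} coeff_j(Q') x_o^j = ∑_{j<m} coeff_j(R) x_o^j`. -/
theorem mul_sum_coeff_derivative_eq_sum_coeff [Nontrivial R] [Nonempty ι] (x y : ι → R) (o : ι) :
    y o * ∑ j ∈ range (Fintype.card ι),
        (derivative (∏ i, (X - C (x i)))).coeff j * x o ^ j =
      ∑ j ∈ range (Fintype.card ι),
        (∑ i, C (y i) * ∏ j ∈ univ.erase i, (X - C (x j))).coeff j * x o ^ j := by
  rw [← eval_eq_sum_range_of_lt (natDegree_derivative_prod_X_sub_C_lt x),
    ← eval_eq_sum_range_of_lt (natDegree_sum_mul_prod_erase_lt x y),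
    mul_eval_derivative_eq_eval_sum]

/-- `Q'(x_o) = ∏_{j≠o}(x_o - x_j)` written out with coefficients. -/
theorem sum_coeff_derivative_eq_prod [Nontrivial R] [Nonempty ι] (x : ι → R) (o : ι) :
    ∑ j ∈ range (Fintype.card ι), (derivative (∏ i, (X - C (x i)))).coeff j * x o ^ j =
      ∏ j ∈ univ.erase o, (x o - x j) := by
  rw [← eval_eq_sum_range_of_lt (natDegree_derivative_prod_X_sub_C_lt x),
    eval_derivative_prod_X_sub_C]

end Fermat.Agent.S23
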