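import Fermat.Agent.S23.Closure
import Fermat.Agent.S23.LevelOneTwist
import Fermat.Prelude.Def_ModularForm_HeckeOperator

set_option autoImplicit false

/-!
# S23: `q`-expansion of `z ↦ c * F (N z)`.
-/

namespace Fermat.Agent.S23

open UpperHalfPlane CongruenceSubgroup ModularForm
open scoped MatrixGroups ModularForm Manifold

noncomputable section

theorem qParam_heckeDiag (N : ℕ) [NeZero N] (τ : ℍ) :
    Function.Periodic.qParam 1 ((ModularForm.heckeDiagMatrix N • τ : ℍ) : ℂ) =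
      Function.Periodic.qParam 1 (τ : ℂ) ^ N := by
  rw [ModularForm.coe_heckeDiagMatrix_smul (NeZero.ne N)]
  simp only [Function.Periodic.qParam, Complex.ofReal_one, div_one]
  rw [← Complex.exp_nat_mul]
  congr 1
  ring

/-- The `q`-expansion of `G z = c * F (N z)`. -/
theorem qx_coeff_comp_heckeDiag {N : ℕ} [NeZero N] {Γ Γ' : Subgroup (GL (Fin 2) ℝ)} {k k' : ℤ}
    (hΓ : (1 : ℝ) ∈ Γ.strictPeriods) (hΓ' : (1 : ℝ) ∈ Γ'.strictPeriods) {F G : ℍ → ℂ}
    (hF : IsMF Γ k F) (hG : IsMF Γ' k' G) (c : ℂ)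
    (h : ∀ z, G z = c * F (ModularForm.heckeDiagMatrix N • z)) (n : ℕ) :
    (qx G).coeff n = if N ∣ n then c * (qx F).coeff (n / N) else 0 := by
  classical
  have hN : 0 < N := Nat.pos_of_ne_zero (NeZero.ne N)
  set cf : ℕ → ℂ := fun n => if N ∣ n then c * (qx F).coeff (n / N) else 0 with hcf
  obtain ⟨G', rfl⟩ := hG
  suffices hs : ∀ τ : ℍ, HasSum (fun m => cf m • Function.Periodic.qParam 1 (τ : ℂ) ^ m) (G' τ) by
    exact (ModularFormClass.qExpansion_coeff_unique one_pos hΓ' hs n).symm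
  intro τ
  obtain ⟨F', rfl⟩ := hF
  have : Fact (IsCusp OnePoint.infty Γ) := ⟨Γ.isCusp_of_mem_strictPeriods one_pos hΓ⟩
  have h1 := ModularForm.hasSum_qExpansion F' one_pos hΓ (ModularForm.heckeDiagMatrix N • τ)
  rw [qParam_heckeDiag] at h1
  have h2 : HasSum (fun m : ℕ => c * ((qExpansion 1 F').coeff m *
      (Function.Periodic.qParam 1 (τ : ℂ) ^ N) ^ m)) (G' τ) := by
    rw [h τ]
    exact h1.mul_left c
  have hinj : Function.Injective (fun m : ℕ => N * m) := fun a b hab =>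
    Nat.eq_of_mul_eq_mul_left hN hab
  have h3 : ∀ x, x ∉ Set.range (fun m : ℕ => N * m) →
      cf x • Function.Periodic.qParam 1 (τ : ℂ) ^ x = 0 := by
    intro x hx
    have : ¬ N ∣ x := fun ⟨m, hm⟩ => hx ⟨m, hm.symm⟩
    simp [hcf, this]
  rw [← hinj.hasSum_iff h3]
  convert h2 using 1
  funext m
  simp only [Function.comp_apply, hcf, dvd_mul_right, if_true, Nat.mul_div_cancel_left m hN,
    smul_eq_mul, pow_mul]
  ring

/-- If `F` has a twist-fixed `q`-expansion, so has `G z = c * F (N z)` for a natural number `c`. -/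
theorem twistPS_qx_comp_heckeDiag {N : ℕ} [NeZero N] {Γ Γ' : Subgroup (GL (Fin 2) ℝ)} {k k' : ℤ}
    (hΓ : (1 : ℝ) ∈ Γ.strictPeriods) (hΓ' : (1 : ℝ) ∈ Γ'.strictPeriods) {F G : ℍ → ℂ}
    (hF : IsMF Γ k F) (hG : IsMF Γ' k' G) (c : ℕ)
    (h : ∀ z, G z = (c : ℂ) * F (ModularForm.heckeDiagMatrix N • z)) (σ : ℂ ≃+* ℂ)
    (hσ : twistPS σ (qx F) = qx F) : twistPS σ (qx G) = qx G := by
  ext n
  rw [twistPS_coeff, qx_coeff_comp_heckeDiag hΓ hΓ' hF hG c h n]
  split_ifs with hn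
  · have := congrArg (fun p => PowerSeries.coeff (n / N) p) hσ
    simp only [twistPS_coeff] at this
    rw [map_mul, map_natCast, this]
  · simp

/-- The `q`-expansion of `E₄ ∣[4] diag(N, 1)` is fixed by all twists, provided it is a modular form
of some level with strict period `1`. -/
theorem twistPS_qx_E₄_slash_heckeDiag {N : ℕ} [NeZero N] {Γ' : Subgroup (GL (Fin 2) ℝ)} {k' : ℤ}
    (hΓ' : (1 : ℝ) ∈ Γ'.strictPeriods)
    (hG : IsMF Γ' k' ((⇑E₄ : ℍ → ℂ) ∣[(4 : ℤ)] ModularForm.heckeDiagMatrix N)) (σ : ℂ ≃+* ℂ) :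
    twistPS σ (qx ((⇑E₄ : ℍ → ℂ) ∣[(4 : ℤ)] ModularForm.heckeDiagMatrix N)) =
      qx ((⇑E₄ : ℍ → ℂ) ∣[(4 : ℤ)] ModularForm.heckeDiagMatrix N) := by
  refine twistPS_qx_comp_heckeDiag (N := N) (F := ⇑E₄) (Γ := 𝒮ℒ) (k := 4)
    one_mem_strictPeriods_SL' hΓ'
    ⟨E₄, rfl⟩ hG (N ^ 3) (fun z => ?_) σ (twistPS_qExpansion_E σ (by norm_num) ⟨2, rfl⟩)
  rw [ModularForm.slash_heckeDiagMatrix_apply 4 (NeZero.ne N)]
  norm_num

end

end Fermat.Agent.S23
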