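import Fermat.Agent.S23.Closure

set_option autoImplicit false

/-!
# S23, chunk 3 (definitions): conjugates of forms of level `𝒢` under `SL₂(ℤ)` and the polynomials
`Q_z(X) = ∏_q (X - t_q(z))`, `P_z(X) = ∏_q (X - f_q(z))`,
`R_z(X) = ∑_q f_q(z) ∏_{q' ≠ q} (X - t_{q'}(z))`.

This generalises Mathlib's `ModularForm.norm` (`Mathlib/NumberTheory/ModularForms/NormTrace.lean`):
`conj t q = SlashInvariantForm.quotientFunc t q`, and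
`conj t q ∣[k] γ = conj t (γ⁻¹ • q)` (`SlashInvariantForm.quotientFunc_smul`).
-/

namespace Fermat.Agent.S23

open UpperHalfPlane CongruenceSubgroup ModularForm Polynomial
open scoped MatrixGroups ModularForm Manifold

noncomputable section

variable {𝒢 : Subgroup (GL (Fin 2) ℝ)}

/-- The coset space `SL₂(ℤ) / (𝒢 ∩ SL₂(ℤ))`. -/
abbrev Cosets (𝒢 : Subgroup (GL (Fin 2) ℝ)) : Type := ↥𝒮ℒ ⧸ 𝒢.subgroupOf 𝒮ℒ

instance instFintypeCosets [𝒢.IsFiniteRelIndex 𝒮ℒ] : Fintype (Cosets 𝒢) := Fintype.ofFinite _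

instance instDecidableEqCosets : DecidableEq (Cosets 𝒢) := Classical.decEq _

/-- The trivial coset. -/
def coset1 (𝒢 : Subgroup (GL (Fin 2) ℝ)) : Cosets 𝒢 := QuotientGroup.mk 1

/-- The conjugates of a form of level `𝒢`. -/
def conj {F : Type*} [FunLike F ℍ ℂ] {k : ℤ} [SlashInvariantFormClass F 𝒢 k] (f : F)
    (q : Cosets 𝒢) : ℍ → ℂ :=
  SlashInvariantForm.quotientFunc f q

/-- `conj f ⟦h⟧ = f ∣[k] h⁻¹`. -/
theorem conj_mk {F : Type*} [FunLike F ℍ ℂ] {k : ℤ} [SlashInvariantFormClass F 𝒢 k] (f : F)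
    (h : 𝒮ℒ) : conj f (QuotientGroup.mk h : Cosets 𝒢) = (⇑f : ℍ → ℂ) ∣[k] (h : GL (Fin 2) ℝ)⁻¹ :=
  rfl

theorem conj_coset1 {F : Type*} [FunLike F ℍ ℂ] {k : ℤ} [SlashInvariantFormClass F 𝒢 k] (f : F) :
    conj f (coset1 𝒢) = ⇑f := by
  rw [coset1, conj_mk]
  simp

variable [𝒢.IsFiniteRelIndex 𝒮ℒ] {kt kf : ℤ}

/-- `Q_z(X) = ∏_q (X - t_q(z))`. -/
def Qpoly (t : ModularForm 𝒢 kt) (z : ℍ) : ℂ[X] := ∏ q : Cosets 𝒢, (X - C (conj t q z))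

/-- `P_z(X) = ∏_q (X - f_q(z))`. -/
def Ppoly (f : CuspForm 𝒢 kf) (z : ℍ) : ℂ[X] := ∏ q : Cosets 𝒢, (X - C (conj f q z))

/-- `R_z(X) = ∑_q f_q(z) ∏_{q' ≠ q} (X - t_{q'}(z))`. -/
def Rpoly (f : CuspForm 𝒢 kf) (t : ModularForm 𝒢 kt) (z : ℍ) : ℂ[X] :=
  ∑ q : Cosets 𝒢, C (conj f q z) * ∏ q' ∈ Finset.univ.erase q, (X - C (conj t q' z))

end

end Fermat.Agent.S23
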