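import Fermat.Agent.S23.QExpScale

set_option autoImplicit false

/-!
# S23, chunk 2a: `t = E₄ ∣[4] diag(N, 1)` is a modular form of weight `4` on `Γ₀(N)` with a
twist-fixed `q`-expansion.
-/

namespace Fermat.Agent.S23

open UpperHalfPlane CongruenceSubgroup ModularForm
open scoped MatrixGroups ModularForm Manifold Pointwise

noncomputable section

/-- `Γ₀(N) ⊆ α⁻¹ SL₂(ℤ) α` for `α = diag(N, 1)`. -/
theorem Γ0_le_conj_heckeDiag (N : ℕ) [NeZero N] :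
    Γ0 N ≤ ConjAct.toConjAct (ModularForm.heckeDiagMatrix N)⁻¹ • 𝒮ℒ := by
  rintro _ ⟨γ, hγ, rfl⟩
  rw [Subgroup.mem_pointwise_smul_iff_inv_smul_mem, ← ConjAct.toConjAct_inv, inv_inv,
    ConjAct.smul_def]
  simp only [ConjAct.ofConjAct_toConjAct]
  have hγ' : ((γ 1 0 : ℤ) : ZMod N) = 0 := Gamma0_mem.mp hγ
  obtain ⟨c', hc'⟩ : (N : ℤ) ∣ γ 1 0 := (ZMod.intCast_zmod_eq_zero_iff_dvd _ _).mp hγ'
  have hdet : γ 0 0 * γ 1 1 - γ 0 1 * γ 1 0 = 1 := by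
    have := γ.det_coe
    rw [Matrix.det_fin_two] at this
    exact this
  have hdet' : Matrix.det !![γ 0 0, (N : ℤ) * γ 0 1; c', γ 1 1] = 1 := by
    rw [Matrix.det_fin_two_of]
    rw [hc'] at hdet
    linarith
  obtain ⟨γ', hγ'00, hγ'01, hγ'10, hγ'11⟩ : ∃ γ' : SL(2, ℤ), γ' 0 0 = γ 0 0 ∧
      γ' 0 1 = (N : ℤ) * γ 0 1 ∧ γ' 1 0 = c' ∧ γ' 1 1 = γ 1 1 :=
    ⟨⟨!![γ 0 0, (N : ℤ) * γ 0 1; c', γ 1 1], hdet'⟩, rfl, rfl, rfl, rfl⟩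
  refine ⟨γ', ?_⟩
  rw [eq_mul_inv_iff_mul_eq]
  apply Units.ext
  have hN : N ≠ 0 := NeZero.ne N
  have key : ∀ (g : SL(2, ℤ)) (i j : Fin 2),
      ((Matrix.SpecialLinearGroup.mapGL ℝ g : GL (Fin 2) ℝ) : Matrix (Fin 2) (Fin 2) ℝ) i j =
        ((g i j : ℤ) : ℝ) := by
    intro g i j; simp
  ext i j
  rw [Units.val_mul, Units.val_mul, Matrix.mul_apply, Matrix.mul_apply, Fin.sum_univ_two,
    Fin.sum_univ_two, ModularForm.val_heckeDiagMatrix hN]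
  simp only [key]
  fin_cases i <;> fin_cases j <;> simp [hc', hγ'00, hγ'01, hγ'10, hγ'11] <;> ring

/-- `t = E₄ ∣[4] diag(N,1)` is a modular form of weight `4` on `Γ₀(N)`. -/
theorem isMF_E₄_slash_heckeDiag (N : ℕ) [NeZero N] :
    IsMF (Γ0 N) 4 ((⇑E₄ : ℍ → ℂ) ∣[(4 : ℤ)] ModularForm.heckeDiagMatrix N) :=
  IsMF.mono (Γ0_le_conj_heckeDiag N)
    ⟨ModularForm.translate E₄ (ModularForm.heckeDiagMatrix N), ModularForm.coe_translate _ _⟩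

/-- The auxiliary form `t`. -/
def tFormQ (N : ℕ) [NeZero N] : ModularForm (Γ0 N) 4 := (isMF_E₄_slash_heckeDiag N).choose

theorem coe_tFormQ (N : ℕ) [NeZero N] :
    (⇑(tFormQ N) : ℍ → ℂ) = (⇑E₄ : ℍ → ℂ) ∣[(4 : ℤ)] ModularForm.heckeDiagMatrix N :=
  (isMF_E₄_slash_heckeDiag N).choose_spec

theorem tFormQ_rat (N : ℕ) [NeZero N] (σ : ℂ ≃+* ℂ) :
    twistPS σ (qExpansion 1 (tFormQ N)) = qExpansion 1 (tFormQ N) := by
  rw [coe_tFormQ]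
  exact twistPS_qx_E₄_slash_heckeDiag (one_mem_strictPeriods_Γ0 N) (isMF_E₄_slash_heckeDiag N) σ

end

end Fermat.Agent.S23
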